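import Mathlib.GroupTheory.Nilpotent
import Mathlib.GroupTheory.Sylow

/-!
# CN-groups: the local structure

In a CN-group (centralisers of nontrivial elements are nilpotent) a maximal nilpotent subgroup with
two primes in its order contains the centraliser of each of its nontrivial elements, so it is a TI
Hall subgroup.  So for each prime `p` either the Sylow `p`-subgroups lie in such subgroups or the
centralisers of the nontrivial `p`-elements are `p`-groups.
-/

set_option autoImplicit false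
set_option linter.style.haveILetI false

namespace FA.CNGroups

open Subgroup

variable {G : Type*} [Group G]

/-- The centralisers of the nontrivial elements are nilpotent. -/
def IsCN (G : Type*) [Group G] : Prop :=
  ∀ x : G, x ≠ 1 → Group.IsNilpotent (centralizer ({x} : Set G))

/-- A subgroup of a nilpotent subgroup is nilpotent. -/
theorem isNilpotent_of_le {H K : Subgroup G} (h : H ≤ K) (hK : Group.IsNilpotent K) :
    Group.IsNilpotent H :=
  haveI := hK
  Group.nilpotent_of_mulEquiv (subgroupOfEquivOfLe h)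

/-- A group embedded in a nilpotent subgroup is nilpotent. -/
theorem isNilpotent_of_map_le {H : Type*} [Group H] (f : H →* G) (hf : Function.Injective f)
    {L : Subgroup H} {K : Subgroup G} (h : L.map f ≤ K) (hK : Group.IsNilpotent K) :
    Group.IsNilpotent L :=
  haveI := isNilpotent_of_le h hK
  Group.nilpotent_of_mulEquiv (L.equivMapOfInjective f hf).symm

theorem IsCN.subgroup (h : IsCN G) (H : Subgroup G) : IsCN H := fun x hx =>
  isNilpotent_of_map_le H.subtype H.subtype_injective (K := centralizer ({(x : G)} : Set G))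
    (by
      rintro _ ⟨y, hy, rfl⟩
      exact mem_centralizer_singleton_iff.2
        (congrArg Subtype.val (mem_centralizer_singleton_iff.1 hy)))
    (h x fun e => hx (Subtype.ext e))

/-- The order of `x` is a power of `p`. -/
def IsPow (p : ℕ) (x : G) : Prop := ∃ k, x ^ p ^ k = 1

/-- A nontrivial `p`-element commutes with a nontrivial element of another prime. -/
def Cross (p : ℕ) (G : Type*) [Group G] : Prop :=
  ∃ q, q.Prime ∧ q ≠ p ∧ ∃ x y : G, x ≠ 1 ∧ y ≠ 1 ∧ IsPow p x ∧ IsPow q y ∧ x * y = y * x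

/-- A maximal nilpotent subgroup with two primes in its order. -/
structure Mixed (M : Subgroup G) : Prop where
  nilp : Group.IsNilpotent M
  maximal : ∀ N : Subgroup G, Group.IsNilpotent N → M ≤ N → N = M
  two : ∃ p q : ℕ, p.Prime ∧ q.Prime ∧ p ≠ q ∧ p ∣ Nat.card M ∧ q ∣ Nat.card M

variable [Finite G]

theorem exists_isPow {p : ℕ} (hp : p.Prime) {x : G} (hx : p ∣ orderOf x) :
    ∃ n : ℕ, x ^ n ≠ 1 ∧ IsPow p (x ^ n) := by
  obtain ⟨n, hn⟩ := hx
  have hn0 : n ≠ 0 := fun h => (orderOf_pos x).ne' (by rw [hn, h, mul_zero])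
  refine ⟨n, fun h => ?_, 1, by rw [← pow_mul, pow_one, mul_comm, ← hn, pow_orderOf_eq_one]⟩
  have h1 := Nat.le_of_dvd (Nat.pos_of_ne_zero hn0) (orderOf_dvd_of_pow_eq_one h)
  rw [hn] at h1
  nlinarith [hp.two_le, Nat.pos_of_ne_zero hn0]

/-- An element has a nontrivial power of prime order. -/
theorem exists_prime_power {x : G} (hx : x ≠ 1) :
    ∃ (p n : ℕ), p.Prime ∧ x ^ n ≠ 1 ∧ (x ^ n) ^ p = 1 := by
  obtain ⟨p, hp, hd⟩ := Nat.exists_prime_and_dvd (mt orderOf_eq_one_iff.1 hx)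
  obtain ⟨n, hn⟩ := hd
  have hn0 : n ≠ 0 := fun h => (orderOf_pos x).ne' (by rw [hn, h, mul_zero])
  refine ⟨p, n, hp, fun h => ?_, by rw [← pow_mul, mul_comm, ← hn, pow_orderOf_eq_one]⟩
  have h1 := Nat.le_of_dvd (Nat.pos_of_ne_zero hn0) (orderOf_dvd_of_pow_eq_one h)
  rw [hn] at h1
  nlinarith [hp.two_le, Nat.pos_of_ne_zero hn0]

omit [Finite G] in
theorem isPow_of_mem {p : ℕ} {P : Subgroup G} (hP : IsPGroup p P) {x : G} (hx : x ∈ P) :
    IsPow p x := by
  obtain ⟨k, hk⟩ := hP ⟨x, hx⟩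
  exact ⟨k, by simpa using congrArg Subtype.val hk⟩

/-- A subgroup is inside another as soon as its elements of prime power order are. -/
theorem le_of_isPow {H K : Subgroup G}
    (h : ∀ r : ℕ, r.Prime → ∀ g ∈ H, IsPow r g → g ∈ K) : H ≤ K := by
  have hd : Nat.card H ∣ Nat.card (H ⊓ K : Subgroup G) := by
    rw [← Nat.factorization_le_iff_dvd Nat.card_pos.ne' Nat.card_pos.ne']
    intro r
    by_cases hr : r.Prime
    · haveI : Fact r.Prime := ⟨hr⟩
      obtain ⟨R⟩ : Nonempty (Sylow r H) := inferInstance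
      refine (hr.pow_dvd_iff_le_factorization Nat.card_pos.ne').1 ?_
      rw [← R.card_eq_multiplicity, ← Nat.card_congr
        ((R : Subgroup H).equivMapOfInjective _ H.subtype_injective).toEquiv.symm]
      refine card_dvd_of_le ?_
      rintro _ ⟨g, hg, rfl⟩
      exact ⟨g.2, h r hr g g.2 (isPow_of_mem (R.isPGroup'.map H.subtype) ⟨g, hg, rfl⟩)⟩
    · rw [Nat.factorization_eq_zero_of_not_prime _ hr]
      exact Nat.zero_le _
  exact (inf_eq_left.1 (Subgroup.eq_of_le_of_card_ge inf_le_left (Nat.le_of_dvd Nat.card_pos hd)))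

/-- In a nilpotent subgroup elements of coprime prime power orders commute. -/
theorem commute_of_isPow {N : Subgroup G} (hN : Group.IsNilpotent N) {p q : ℕ} (hp : p.Prime)
    (hq : q.Prime) (hpq : p ≠ q) {x y : G} (hx : x ∈ N) (hy : y ∈ N) (hxp : IsPow p x)
    (hyq : IsPow q y) : x * y = y * x := by
  haveI := hN
  haveI : Fact p.Prime := ⟨hp⟩
  haveI : Fact q.Prime := ⟨hq⟩
  obtain ⟨a, ha⟩ := hxp
  obtain ⟨b, hb⟩ := hyq
  have h1 : IsPGroup p (zpowers (⟨x, hx⟩ : N)) := by
    intro z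
    obtain ⟨i, hi⟩ := mem_zpowers_iff.1 z.2
    refine ⟨a, Subtype.ext ?_⟩
    have hxN : (⟨x, hx⟩ : N) ^ p ^ a = 1 := Subtype.ext (by simpa using ha)
    rw [Subgroup.coe_pow, ← hi, ← zpow_natCast, zpow_comm, zpow_natCast, hxN, one_zpow,
      Subgroup.coe_one]
  have h2 : IsPGroup q (zpowers (⟨y, hy⟩ : N)) := by
    intro z
    obtain ⟨i, hi⟩ := mem_zpowers_iff.1 z.2
    refine ⟨b, Subtype.ext ?_⟩
    have hyN : (⟨y, hy⟩ : N) ^ q ^ b = 1 := Subtype.ext (by simpa using hb)
    rw [Subgroup.coe_pow, ← hi, ← zpow_natCast, zpow_comm, zpow_natCast, hyN, one_zpow,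
      Subgroup.coe_one]
  obtain ⟨P, hP⟩ := h1.exists_le_sylow
  obtain ⟨Q, hQ⟩ := h2.exists_le_sylow
  exact congrArg Subtype.val (Subgroup.commute_of_normal_of_disjoint (P : Subgroup N) Q
    inferInstance inferInstance (IsPGroup.disjoint_of_ne p q hpq _ _ P.isPGroup' Q.isPGroup')
    ⟨x, hx⟩ ⟨y, hy⟩ (hP (mem_zpowers _)) (hQ (mem_zpowers _))).eq

variable {M : Subgroup G}

/-- A central element of prime power order for each prime in the order. -/
theorem exists_central (hM : Group.IsNilpotent M) {r : ℕ} (hr : r.Prime) (hd : r ∣ Nat.card M) :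
    ∃ x ∈ M, x ≠ 1 ∧ IsPow r x ∧ ∀ g ∈ M, g * x = x * g := by
  haveI := hM
  haveI : Fact r.Prime := ⟨hr⟩
  obtain ⟨R⟩ : Nonempty (Sylow r M) := inferInstance
  haveI : Nontrivial (R : Subgroup M) :=
    (nontrivial_iff_ne_bot _).2 (R.ne_bot_of_dvd_card hd)
  haveI := R.isPGroup'.center_nontrivial
  obtain ⟨z, hz⟩ := exists_ne (1 : center (R : Subgroup M))
  set x : G := ((z.1.1 : M) : G)
  have hxr : IsPow r x := isPow_of_mem (R.isPGroup'.map M.subtype) ⟨z.1.1, z.1.2, rfl⟩
  refine ⟨x, z.1.1.2, fun e => hz (Subtype.ext (Subtype.ext (Subtype.ext e))), hxr, ?_⟩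
  intro g hg
  refine (mem_centralizer_singleton_iff.1 ((le_of_isPow (H := M) fun s hs u hu hsu => ?_) hg))
  rw [mem_centralizer_singleton_iff]
  by_cases hsr : s = r
  · subst hsr
    have hu' : IsPGroup s (zpowers (⟨u, hu⟩ : M)) := by
      obtain ⟨a, ha⟩ := hsu
      intro w
      obtain ⟨i, hi⟩ := mem_zpowers_iff.1 w.2
      refine ⟨a, Subtype.ext ?_⟩
      have huN : (⟨u, hu⟩ : M) ^ s ^ a = 1 := Subtype.ext (by simpa using ha)
      rw [Subgroup.coe_pow, ← hi, ← zpow_natCast, zpow_comm, zpow_natCast, huN, one_zpow,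
        Subgroup.coe_one]
    obtain ⟨S, hS⟩ := hu'.exists_le_sylow
    haveI := Sylow.unique_of_normal R inferInstance
    obtain rfl : S = R := Subsingleton.elim _ _
    exact congrArg (fun w : (S : Subgroup M) => ((w : M) : G))
      (mem_center_iff.1 z.2 ⟨⟨u, hu⟩, hS (mem_zpowers _)⟩)
  · exact commute_of_isPow hM hs hr hsr hu z.1.1.2 hsu hxr

omit [Finite G] in
/-- A second prime in the order. -/
theorem Mixed.exists_other_prime (hM : Mixed M) (r : ℕ) :
    ∃ s : ℕ, s.Prime ∧ s ≠ r ∧ s ∣ Nat.card M := by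
  obtain ⟨p, q, hp, hq, hpq, hpd, hqd⟩ := hM.two
  by_cases h : p = r
  · exact ⟨q, hq, fun e => hpq (h.trans e.symm), hqd⟩
  · exact ⟨p, hp, h, hpd⟩

omit [Finite G] in
/-- The centraliser of a nontrivial central element is the subgroup. -/
theorem Mixed.centralizer_eq (hG : IsCN G) (hM : Mixed M) {x : G} (hx : x ≠ 1)
    (hc : ∀ g ∈ M, g * x = x * g) : centralizer ({x} : Set G) = M :=
  hM.maximal _ (hG x hx) fun g hg => mem_centralizer_singleton_iff.2 (hc g hg)

/-- **Centralisers stay inside.** -/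
theorem Mixed.centralizer_le (hG : IsCN G) (hM : Mixed M) {y : G} (hy : y ∈ M) (hy1 : y ≠ 1) :
    centralizer ({y} : Set G) ≤ M := by
  refine le_of_isPow fun r hr g hg hgr => ?_
  obtain ⟨s, hs, hsr, hsd⟩ := hM.exists_other_prime r
  obtain ⟨x, hxM, hx1, hxs, hxc⟩ := exists_central hM.nilp hs hsd
  rw [← hM.centralizer_eq hG hx1 hxc, mem_centralizer_singleton_iff]
  exact commute_of_isPow (hG y hy1) hr hs hsr.symm hg
    (mem_centralizer_singleton_iff.2 (hxc y hy).symm) hgr hxs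

/-- **Trivial intersection.** -/
theorem Mixed.eq_of_mem (hG : IsCN G) (hM : Mixed M) {N : Subgroup G} (hN : Mixed N) {y : G}
    (hy1 : y ≠ 1) (hyM : y ∈ M) (hyN : y ∈ N) : M = N := by
  obtain ⟨p, q, hp, -, -, hpd, -⟩ := hM.two
  obtain ⟨x, hxM, hx1, -, hxc⟩ := exists_central hM.nilp hp hpd
  have hxN : x ∈ N :=
    hN.centralizer_le hG hyN hy1 (mem_centralizer_singleton_iff.2 (hxc y hyM).symm)
  have hle : M ≤ N := hM.centralizer_eq hG hx1 hxc ▸ hN.centralizer_le hG hxN hx1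
  exact (hM.maximal N hN.nilp hle).symm

/-- A Sylow subgroup meeting the centre is inside. -/
theorem Mixed.sylow_le (hG : IsCN G) (hM : Mixed M) {p : ℕ} [hp : Fact p.Prime] (P : Sylow p G)
    {x : G} (hxP : x ∈ (P : Subgroup G)) (hxM : x ∈ M) (hx1 : x ≠ 1) :
    (P : Subgroup G) ≤ M := by
  haveI : Nontrivial (P : Subgroup G) :=
    nontrivial_of_ne ⟨x, hxP⟩ 1 fun e => hx1 (congrArg Subtype.val e)
  haveI := P.isPGroup'.center_nontrivial
  obtain ⟨z, hz⟩ := exists_ne (1 : center (P : Subgroup G))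
  have hzc : ∀ u ∈ (P : Subgroup G), u * z.1 = z.1 * u := fun u hu =>
    congrArg Subtype.val (mem_center_iff.1 z.2 ⟨u, hu⟩)
  have hzM : (z.1 : G) ∈ M :=
    hM.centralizer_le hG hxM hx1 (mem_centralizer_singleton_iff.2 (hzc x hxP).symm)
  exact fun u hu => hM.centralizer_le hG hzM (fun e => hz (Subtype.ext (Subtype.ext e)))
    (mem_centralizer_singleton_iff.2 (hzc u hu))

/-- **Hall subgroups.** -/
theorem Mixed.coprime_index (hG : IsCN G) (hM : Mixed M) :
    (Nat.card M).Coprime M.index := by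
  refine Nat.coprime_of_dvd fun p hp hd hi => ?_
  haveI : Fact p.Prime := ⟨hp⟩
  obtain ⟨x, hxM, hx1, ⟨a, hxa⟩, -⟩ := exists_central hM.nilp hp hd
  have hX : IsPGroup p (zpowers x) := by
    intro w
    obtain ⟨i, hi⟩ := mem_zpowers_iff.1 w.2
    refine ⟨a, Subtype.ext ?_⟩
    rw [Subgroup.coe_pow, ← hi, ← zpow_natCast, zpow_comm, zpow_natCast, hxa, one_zpow,
      Subgroup.coe_one]
  obtain ⟨P, hP⟩ := hX.exists_le_sylow
  exact P.not_dvd_index (hi.trans
    (Subgroup.index_dvd_of_le (hM.sylow_le hG P (hP (mem_zpowers x)) hxM hx1)))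

/-- A nilpotent subgroup with two primes lies in a mixed one. -/
theorem exists_mixed {H : Subgroup G} (hH : Group.IsNilpotent H) {p q : ℕ} (hp : p.Prime)
    (hq : q.Prime) (hpq : p ≠ q) (hpd : p ∣ Nat.card H) (hqd : q ∣ Nat.card H) :
    ∃ M : Subgroup G, H ≤ M ∧ Mixed M := by
  obtain ⟨M, hHM, hM⟩ := (Set.toFinite {N : Subgroup G | Group.IsNilpotent N}).exists_le_maximal
    (show H ∈ {N : Subgroup G | Group.IsNilpotent N} from hH)
  exact ⟨M, hHM, hM.prop, fun N hN hle => (hM.eq_of_le hN hle).symm, p, q, hp, hq, hpq,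
    hpd.trans (card_dvd_of_le hHM), hqd.trans (card_dvd_of_le hHM)⟩

omit [Finite G] in
theorem IsPow.map {H : Type*} [Group H] {p : ℕ} {x : G} (h : IsPow p x) (f : G →* H) :
    IsPow p (f x) :=
  h.imp fun k hk => by rw [← map_pow, hk, map_one]

omit [Finite G] in
theorem IsPow.dvd_orderOf {p : ℕ} (hp : p.Prime) {x : G} (h : IsPow p x) (hx : x ≠ 1) :
    p ∣ orderOf x := by
  obtain ⟨k, hk⟩ := h
  obtain ⟨i, -, hi⟩ := (Nat.dvd_prime_pow hp).1 (orderOf_dvd_of_pow_eq_one hk)
  rcases i with _ | i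
  · exact absurd (orderOf_eq_one_iff.1 (by rw [hi, pow_zero])) hx
  · exact hi ▸ dvd_pow_self p (Nat.succ_ne_zero i)

/-- **The mixed case of the dichotomy.** -/
theorem exists_mixed_of_cross (hG : IsCN G) {p : ℕ} [hp : Fact p.Prime] (h : Cross p G)
    (P : Sylow p G) : ∃ M : Subgroup G, (P : Subgroup G) ≤ M ∧ Mixed M := by
  obtain ⟨q, hq, hqp, x, y, hx, hy, hxp, hyq, hxy⟩ := h
  have hX : IsPGroup p (zpowers x) := by
    obtain ⟨a, hxa⟩ := hxp
    intro w
    obtain ⟨i, hi⟩ := mem_zpowers_iff.1 w.2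
    refine ⟨a, Subtype.ext ?_⟩
    rw [Subgroup.coe_pow, ← hi, ← zpow_natCast, zpow_comm, zpow_natCast, hxa, one_zpow,
      Subgroup.coe_one]
  obtain ⟨Q, hQ⟩ := hX.exists_le_sylow
  obtain ⟨c, rfl⟩ := MulAction.exists_smul_eq G Q P
  have hx' : MulAut.conj c x ∈ ((c • Q : Sylow p G) : Subgroup G) :=
    Subgroup.mem_map_of_mem _ (hQ (mem_zpowers x))
  have hx1 : MulAut.conj c x ≠ 1 := fun e =>
    hx ((MulAut.conj c).injective (e.trans (map_one _).symm))
  have hy1 : MulAut.conj c y ≠ 1 := fun e =>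
    hy ((MulAut.conj c).injective (e.trans (map_one _).symm))
  have hcomm : MulAut.conj c x * MulAut.conj c y = MulAut.conj c y * MulAut.conj c x := by
    rw [← map_mul, hxy, map_mul]
  have hH := isNilpotent_of_le (H := centralizer ({MulAut.conj c x} : Set G)) le_rfl (hG _ hx1)
  have hd : ∀ {r : ℕ} {u : G}, r.Prime → IsPow r u → u ≠ 1 →
      u ∈ centralizer ({MulAut.conj c x} : Set G) →
      r ∣ Nat.card (centralizer ({MulAut.conj c x} : Set G)) := fun hr hru hu1 hu =>
    (hru.dvd_orderOf hr hu1).trans ((orderOf_mk _ hu).symm ▸ orderOf_dvd_natCard _)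
  obtain ⟨M, hle, hM⟩ := exists_mixed hH hp.out hq hqp.symm
    (hd hp.out (hxp.map (MulAut.conj c).toMonoidHom) hx1 (mem_centralizer_singleton_iff.2 rfl))
    (hd hq (hyq.map (MulAut.conj c).toMonoidHom) hy1
      (mem_centralizer_singleton_iff.2 hcomm.symm))
  exact ⟨M, hM.sylow_le hG _ hx' (hle (mem_centralizer_singleton_iff.2 rfl)) hx1, hM⟩

/-- Sylow subgroups inside mixed subgroups are TI. -/
theorem sylow_eq_of_cross (hG : IsCN G) {p : ℕ} [hp : Fact p.Prime] (h : Cross p G)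
    {P Q : Sylow p G} {w : G} (hw : w ≠ 1) (hwP : w ∈ (P : Subgroup G))
    (hwQ : w ∈ (Q : Subgroup G)) : P = Q := by
  obtain ⟨M, hPM, hM⟩ := exists_mixed_of_cross hG h P
  have hQM : (Q : Subgroup G) ≤ M := hM.sylow_le hG Q hwQ (hPM hwP) hw
  haveI := hM.nilp
  haveI := Sylow.unique_of_normal (P.subtype hPM) inferInstance
  have he : P.subtype hPM = Q.subtype hQM := Subsingleton.elim _ _
  exact Sylow.subtype_injective he

/-- **The pure case**: centralisers of nontrivial `p`-elements are `p`-groups. -/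
theorem isPGroup_centralizer {p : ℕ} [hp : Fact p.Prime] (h : ¬ Cross p G) {x : G} (hx : x ≠ 1)
    (hxp : IsPow p x) : IsPGroup p (centralizer ({x} : Set G)) := by
  refine IsPGroup.iff_orderOf.2 fun g => ?_
  refine ⟨_, (Nat.eq_prime_pow_of_unique_prime_dvd (orderOf_pos g).ne' fun {d} hd hdg => ?_)⟩
  by_contra hdp
  obtain ⟨n, hn, hnp⟩ := exists_isPow hd (show d ∣ orderOf (g : G) by rwa [Subgroup.orderOf_coe])
  exact h ⟨d, hd, hdp, x, (g : G) ^ n, hx, hn, hxp, hnp,
    ((mem_centralizer_singleton_iff.1 (pow_mem g.2 n))).symm⟩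

end FA.CNGroups
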