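import Fermat.Agent.SuzukiCA.Induced
import Fermat.Agent.CyclotomicSquares.Characters

/-!
# Character values modulo a prime, and sums of their squared absolute values

The values lie in the ring generated by roots of unity; modulo a prime over `r` a value only depends
on the part of the element of order prime to `r`; and an integral sum of `|z| ^ 2` over such `z` is
at least the number of the nonzero ones.
-/

set_option autoImplicit false
set_option linter.style.haveILetI false

noncomputable section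

open Finset FA.FrobeniusGroups FA.CharacterTheory
open scoped Classical ComplexConjugate

namespace FA.CNGroups

/-- The ring generated by the `N`-th roots of unity. -/
def unityRing (N : ℕ) : Subring ℂ := Subring.closure {z : ℂ | z ^ N = 1}

theorem isIntegral_of_mem_unityRing {N : ℕ} (hN : 0 < N) {z : ℂ} (hz : z ∈ unityRing N) :
    IsIntegral ℤ z := by
  have h : unityRing N ≤ (integralClosure ℤ ℂ).toSubring := Subring.closure_le.2 fun w hw =>
    IsIntegral.of_pow hN (by rw [show w ^ N = 1 from hw]; exact isIntegral_one)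
  exact h hz

/-- A residue field above `r`. -/
theorem exists_residue {N r : ℕ} (hN : 0 < N) (hr : r.Prime) :
    ∃ (k : Type) (_ : Field k) (_ : CharP k r), Nonempty (unityRing N →+* k) := by
  have hne : Ideal.span {(r : unityRing N)} ≠ ⊤ := fun h => by
    obtain ⟨u, hu⟩ := isUnit_iff_exists_inv.1 (Ideal.span_singleton_eq_top.1 h)
    have hu' : (r : ℂ) * (u : ℂ) = 1 := by exact_mod_cast congrArg Subtype.val hu
    have hq : algebraMap ℚ ℂ ((1 : ℚ) / r) = (u : ℂ) := by
      rw [map_div₀, map_one, map_natCast, ← hu',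
        mul_div_cancel_left₀ _ (Nat.cast_ne_zero.2 hr.ne_zero)]
    have hi := isIntegral_of_mem_unityRing hN u.2
    rw [← hq, isIntegral_algebraMap_iff (algebraMap ℚ ℂ).injective] at hi
    obtain ⟨m, hm⟩ := IsIntegrallyClosed.isIntegral_iff.1 hi
    rw [eq_intCast, eq_div_iff (Nat.cast_ne_zero.2 hr.ne_zero)] at hm
    have h1 : (r : ℤ) ∣ 1 := ⟨m, by rw [mul_comm]; exact_mod_cast hm.symm⟩
    exact hr.ne_one (Nat.dvd_one.1 (Int.natCast_dvd_natCast.1 h1))
  obtain ⟨P, hP, hle⟩ := Ideal.exists_le_maximal _ hne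
  letI := Ideal.Quotient.field P
  refine ⟨_, inferInstance, (CharP.charP_iff_prime_eq_zero hr).2 ?_, ⟨Ideal.Quotient.mk P⟩⟩
  rw [← map_natCast (Ideal.Quotient.mk P), Ideal.Quotient.eq_zero_iff_mem]
  exact hle (Ideal.mem_span_singleton_self _)

variable {G : Type*} [Group G] [Fintype G]

/-- The values on the powers of an element. -/
theorem exists_eigen {χ : G → ℂ} (hχ : χ ∈ irr G) (x : G) :
    ∃ (s : Finset (Subgroup.zpowers x → ℂ)) (c : (Subgroup.zpowers x → ℂ) → ℤ)
      (w : (Subgroup.zpowers x → ℂ) → ℂ), (∀ i ∈ s, w i ^ Nat.card G = 1) ∧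
        ∀ j : ℕ, χ (x ^ j) = ∑ i ∈ s, (c i : ℂ) * w i ^ j := by
  set C := Subgroup.zpowers x
  have hcomm : ∀ a b : C, a * b = b * a := fun a b => Subtype.ext (by
    obtain ⟨i, hi⟩ := Subgroup.mem_zpowers_iff.1 a.2
    obtain ⟨l, hl⟩ := Subgroup.mem_zpowers_iff.1 b.2
    rw [Subgroup.coe_mul, Subgroup.coe_mul, ← hi, ← hl]
    exact zpow_mul_comm x i l)
  choose! k hk using fun (p : C → ℂ) (hp : p ∈ irr C) =>
    show ∃ k : ℤ, pairing p (fun y : C => χ y) = k by
      obtain ⟨W, -, rfl⟩ := exists_of_mem_irr hχ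
      obtain ⟨V, -, rfl⟩ := exists_of_mem_irr hp
      exact exists_int_pairing V.toRepresentation (W.toRepresentation.comp C.subtype)
  refine ⟨irr C, k, fun p => p ⟨x, Subgroup.mem_zpowers x⟩, fun p hp => ?_, fun j => ?_⟩
  · obtain ⟨ψ, rfl⟩ := exists_hom_of_comm hcomm hp
    simp only
    rw [← Units.val_pow_eq_pow_val, ← map_pow,
      show (⟨x, Subgroup.mem_zpowers x⟩ : C) ^ Nat.card G = 1 from Subtype.ext pow_card_eq_one',
      map_one, Units.val_one]
  · have h := expansion (f := fun y : C => χ y) (fun g y => by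
      rw [hcomm g y, mul_inv_cancel_right]) ((⟨x, Subgroup.mem_zpowers x⟩ : C) ^ j)
    simp only [Subgroup.coe_pow] at h
    rw [h]
    refine sum_congr rfl fun p hp => ?_
    rw [pairing_comm, hk p hp]
    obtain ⟨ψ, rfl⟩ := exists_hom_of_comm hcomm hp
    simp only [map_pow, Units.val_pow_eq_pow_val]

theorem irr_mem_unityRing {χ : G → ℂ} (hχ : χ ∈ irr G) (x : G) :
    χ x ∈ unityRing (Nat.card G) := by
  obtain ⟨s, c, w, hw, h⟩ := exists_eigen hχ x
  rw [← pow_one x, h 1]
  exact sum_mem fun i hi =>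
    mul_mem (intCast_mem _ _)
    (pow_mem (show w i ∈ unityRing (Nat.card G) from Subring.subset_closure (hw i hi)) 1)

/-- **Congruence**: the part of `r`-power order does not count modulo a prime over `r`. -/
theorem residue_eq {r : ℕ} [hr : Fact r.Prime] {k : Type} [Field k] [CharP k r]
    (π : unityRing (Nat.card G) →+* k) {χ : G → ℂ} (hχ : χ ∈ irr G) {a b : G} (hab : Commute a b)
    {j : ℕ} (ha : a ^ r ^ j = 1) :
    π ⟨χ (a * b), irr_mem_unityRing hχ _⟩ = π ⟨χ b, irr_mem_unityRing hχ _⟩ := by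
  have key : ∀ x : G, iterateFrobenius k r j (π ⟨χ x, irr_mem_unityRing hχ _⟩) =
      π ⟨χ (x ^ r ^ j), irr_mem_unityRing hχ _⟩ := by
    intro x
    obtain ⟨s, c, w, hw, h⟩ := exists_eigen hχ x
    let u : (Subgroup.zpowers x → ℂ) → unityRing (Nat.card G) := fun i =>
      if hi : i ∈ s then ⟨w i, Subring.subset_closure (hw i hi)⟩ else 1
    have hval : ∀ n : ℕ, (⟨χ (x ^ n), irr_mem_unityRing hχ _⟩ : unityRing (Nat.card G)) =
        ∑ i ∈ s, (c i : unityRing (Nat.card G)) * u i ^ n := fun n => Subtype.ext (by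
      push_cast
      rw [h n]
      exact sum_congr rfl fun i hi => by simp only [u, dif_pos hi])
    have h1 := hval 1
    simp only [pow_one] at h1
    rw [hval (r ^ j), h1, map_sum, map_sum, map_sum]
    refine sum_congr rfl fun i _ => ?_
    rw [map_mul, map_mul, map_mul, map_intCast, map_intCast, map_pow, iterateFrobenius_def]
  refine (iterateFrobenius k r j).injective ?_
  rw [key, key]
  congr 2
  rw [hab.mul_pow, ha, one_mul]

/-- A root of unity of `r`-power order is `1` modulo a prime over `r`. -/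
theorem residue_eq_one {N r : ℕ} [hr : Fact r.Prime] {k : Type} [Field k] [CharP k r]
    (π : unityRing N →+* k) {z : unityRing N} {j : ℕ} (hz : z ^ r ^ j = 1) : π z = 1 := by
  refine (iterateFrobenius k r j).injective ?_
  rw [iterateFrobenius_def, ← map_pow, hz, map_one, map_one]

/-- The mean over the embeddings. -/
theorem finrank_le_sum {K : Type*} [Field K] [NumberField K] (c : K ≃ₐ[ℚ] K)
    (hc : ∀ (ψ : K →ₐ[ℚ] ℂ) (y : K), ψ (c y) = conj (ψ y)) {x : K} (hx : IsIntegral ℤ x)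
    (hx0 : x ≠ 0) : (Module.finrank ℚ K : ℝ) ≤ ∑ ψ : K →ₐ[ℚ] ℂ, ‖ψ x‖ ^ 2 := by
  by_cases hroot : ∃ m : ℕ, 0 < m ∧ x ^ m = 1
  · obtain ⟨m, hm, hxm⟩ := hroot
    rw [← AlgHom.card ℚ K ℂ, ← card_univ, ← nsmul_one, ← sum_const]
    refine sum_le_sum fun ψ _ => le_of_eq ?_
    rw [Complex.norm_eq_one_of_pow_eq_one (by rw [← map_pow, hxm, map_one]) hm.ne', one_pow]
  · push Not at hroot
    refine le_trans ?_ (FA.CyclotomicSquares.mean_square c hc hx hx0 hroot)
    exact le_mul_of_one_le_left (Nat.cast_nonneg _) (by norm_num)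

/-- **An integral sum of squares counts the nonzero terms.** -/
theorem card_ne_zero_le {ι : Type*} {N : ℕ} (hN : 0 < N) (s : Finset ι) {F : ι → ℂ}
    (hF : ∀ i ∈ s, F i ∈ unityRing N) {T : ℤ} (h : ∑ i ∈ s, F i * conj (F i) = (T : ℂ)) :
    ((s.filter fun i => F i ≠ 0).card : ℤ) ≤ T := by
  have : NeZero N := ⟨hN.ne'⟩
  let K := CyclotomicField N ℚ
  have : NeZero ((N : ℕ) : ℚ) := NeZero.charZero
  have hK : IsCyclotomicExtension {N} ℚ K := CyclotomicField.isCyclotomicExtension N ℚ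
  have : NumberField K := IsCyclotomicExtension.numberField {N} ℚ K
  have : IsAbelianGalois ℚ K := IsCyclotomicExtension.isAbelianGalois {N} ℚ K
  obtain ⟨c, hc⟩ := FA.CyclotomicSquares.exists_conjugation K
  have ψ₀ : K →ₐ[ℚ] ℂ := IsAlgClosed.lift
  have hinj : Function.Injective ψ₀ := fun _ _ e => ψ₀.toRingHom.injective e
  obtain ⟨ζ, hζ⟩ := IsCyclotomicExtension.exists_isPrimitiveRoot ℚ K
    (Set.mem_singleton N) (NeZero.ne _)
  have hle : unityRing N ≤ (integralClosure ℤ K).toSubring.map (ψ₀ : K →+* ℂ) :=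
    Subring.closure_le.2 fun z hz => by
      obtain ⟨i, -, hi⟩ := (hζ.map_of_injective (f := ψ₀) hinj).eq_pow_of_pow_eq_one hz
      refine ⟨ζ ^ i, (hζ.isIntegral hN).pow i, ?_⟩
      show ψ₀ (ζ ^ i) = z
      rw [map_pow, hi]
  choose! x hxint hx using fun i (hi : i ∈ s) => Subring.mem_map.1 (hle (hF i hi))
  have hsum : ∑ i ∈ s, x i * c (x i) = (T : K) := hinj (by
    rw [map_sum, map_intCast, ← h]
    refine sum_congr rfl fun i hi => ?_
    rw [map_mul, hc, show ψ₀ (x i) = F i from hx i hi])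
  have hψ : ∀ ψ : K →ₐ[ℚ] ℂ, ∑ i ∈ s, ‖ψ (x i)‖ ^ 2 = (T : ℝ) := fun ψ => by
    have h' := congrArg ψ hsum
    rw [map_sum, map_intCast] at h'
    simp only [map_mul, hc, Complex.mul_conj, Complex.normSq_eq_norm_sq] at h'
    exact_mod_cast h'
  set s' := s.filter fun i => F i ≠ 0
  have h1 : (s'.card : ℝ) * Module.finrank ℚ K ≤ ∑ i ∈ s', ∑ ψ : K →ₐ[ℚ] ℂ, ‖ψ (x i)‖ ^ 2 := by
    rw [← nsmul_eq_mul, ← sum_const]
    refine sum_le_sum fun i hi => ?_
    obtain ⟨his, hne⟩ := mem_filter.1 hi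
    refine finrank_le_sum c hc (hxint i his) fun e => hne ?_
    rw [← hx i his, e, map_zero]
  have h2 : ∑ i ∈ s', ∑ ψ : K →ₐ[ℚ] ℂ, ‖ψ (x i)‖ ^ 2 ≤ (T : ℝ) * Module.finrank ℚ K := by
    rw [sum_comm, ← AlgHom.card ℚ K ℂ, ← card_univ, mul_comm, ← nsmul_eq_mul, ← sum_const]
    exact sum_le_sum fun ψ _ => (hψ ψ) ▸
      sum_le_sum_of_subset_of_nonneg (filter_subset _ _) fun i _ _ => sq_nonneg _
  have h3 := le_of_mul_le_mul_right (h1.trans h2) (Nat.cast_pos.2 Module.finrank_pos)
  exact_mod_cast h3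

end FA.CNGroups

end
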