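import Fermat.Agent.CNGroups.Linear
import Fermat.Agent.CNGroups.Values

/-!
# The values of an irreducible character on a frame

Off the commutator subgroup a character is compared with the part `P` of its restriction made of
linear characters.  The sum of `|χ x| ^ 2` over the nontrivial elements of `A` is
`|A'| (ā ∑ m ^ 2 - (∑ m) ^ 2)` plus the sum of the squares of the differences, which has at least
`|A'| - 1` nonzero terms when `∑ m` is prime to a prime divisor of `ā = |A : A'|`.
-/

set_option autoImplicit false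
set_option linter.style.haveILetI false

noncomputable section

open Finset FA.FrobeniusGroups FA.CharacterTheory
open FA.SuzukiCA (res mult mult_spec)
open scoped Classical ComplexConjugate

namespace FA.CNGroups

variable {G : Type*} [Group G] [Fintype G] {A : Subgroup G}

/-- The sum of the linear multiplicities. -/
def linSum (A : Subgroup G) (ψ : G → ℂ) : ℤ := ∑ p ∈ allLin A, mult A ψ p

/-- `ā ∑ m ^ 2 - (∑ m) ^ 2`. -/
def linExcess (A : Subgroup G) (ψ : G → ℂ) : ℤ :=
  (abCard A : ℤ) * ∑ p ∈ allLin A, mult A ψ p ^ 2 - linSum A ψ ^ 2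

/-- The linear part of the restriction. -/
def linPart (A : Subgroup G) (ψ : G → ℂ) (x : A) : ℂ :=
  ∑ p ∈ allLin A, (mult A ψ p : ℂ) * p x

/-- The differences. -/
def linDiff (A : Subgroup G) (ψ : G → ℂ) (x : A) : ℂ :=
  if x ∈ commutator A then (if x = 1 then 0 else ψ x) else ψ x - linPart A ψ x

theorem linPart_of_mem {ψ : G → ℂ} {x : A} (hx : x ∈ commutator A) :
    linPart A ψ x = (linSum A ψ : ℂ) := by
  rw [linPart, linSum, Int.cast_sum]
  refine sum_congr rfl fun p hp => ?_
  obtain ⟨φ, rfl⟩ := (mem_filter.1 hp).2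
  have h : φ x = 1 := Abelianization.commutator_subset_ker φ hx
  simp [h]

theorem allLin_mem_unityRing {p : A → ℂ} (hp : p ∈ allLin A) (x : A) :
    p x ∈ unityRing (Nat.card G) := by
  obtain ⟨φ, rfl⟩ := (mem_filter.1 hp).2
  refine Subring.subset_closure ?_
  show ((φ x : ℂˣ) : ℂ) ^ Nat.card G = 1
  rw [← Units.val_pow_eq_pow_val, ← map_pow,
    show x ^ Nat.card G = 1 from Subtype.ext (by push_cast; exact pow_card_eq_one'), map_one,
    Units.val_one]

theorem linPart_mem_unityRing (ψ : G → ℂ) (x : A) : linPart A ψ x ∈ unityRing (Nat.card G) :=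
  sum_mem fun _ hp => mul_mem (intCast_mem _ _) (allLin_mem_unityRing hp x)

theorem linDiff_mem_unityRing {ψ : G → ℂ} (hψ : ψ ∈ irr G) (x : A) :
    linDiff A ψ x ∈ unityRing (Nat.card G) := by
  unfold linDiff
  split_ifs
  · exact zero_mem _
  · exact irr_mem_unityRing hψ _
  · exact sub_mem (irr_mem_unityRing hψ _) (linPart_mem_unityRing ψ x)

theorem linDiff_inv {ψ : G → ℂ} (hψ : ψ ∈ irr G) (x : A) :
    linDiff A ψ x⁻¹ = conj (linDiff A ψ x) := by
  have hP : linPart A ψ x⁻¹ = conj (linPart A ψ x) := by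
    rw [linPart, linPart, map_sum]
    refine sum_congr rfl fun p hp => ?_
    rw [map_mul, map_intCast, FA.FrobeniusCounting.irr_inv (allLin_irr hp)]
  have hψx : ψ ((x⁻¹ : A) : G) = conj (ψ (x : G)) := by
    rw [Subgroup.coe_inv, FA.FrobeniusCounting.irr_inv hψ]
  unfold linDiff
  simp only [inv_mem_iff, inv_eq_one]
  split_ifs
  · rw [map_zero]
  · exact hψx
  · rw [map_sub, hψx, hP]

/-- The sum of the squares of the values is an integer. -/
theorem exists_sum_sq (A : Subgroup G) {ψ : G → ℂ} (hψ : ψ ∈ irr G) :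
    ∃ T : ℤ, ∑ x ∈ (univ : Finset G).filter (fun x => x ∈ A ∧ x ≠ 1), ψ x * ψ x⁻¹ = (T : ℂ) := by
  obtain ⟨k, hk⟩ : ∃ k : ℤ, pairing (res A ψ) (res A ψ) = k := by
    obtain ⟨W, -, rfl⟩ := exists_of_mem_irr hψ
    exact exists_int_pairing (W.toRepresentation.comp A.subtype)
      (W.toRepresentation.comp A.subtype)
  obtain ⟨d, -, hd⟩ := irr_one hψ
  refine ⟨(Nat.card A : ℤ) * k - (d : ℤ) * d, ?_⟩
  rw [pairing, inv_mul_eq_iff_eq_mul₀ (Nat.cast_ne_zero.2 Nat.card_pos.ne')] at hk
  have hsplit : ∑ x : A, res A ψ x * res A ψ x⁻¹ = ψ 1 * ψ 1 +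
      ∑ x ∈ (univ : Finset G).filter (fun x => x ∈ A ∧ x ≠ 1), ψ x * ψ x⁻¹ := by
    rw [show ∑ x : A, res A ψ x * res A ψ x⁻¹ = ∑ x : A, ψ (x : G) * ψ (x : G)⁻¹ from rfl,
      ← sum_subtype ((univ : Finset G).filter (· ∈ A)) (by simp) fun x => ψ x * ψ x⁻¹,
      ← add_sum_erase _ _ (show (1 : G) ∈ (univ : Finset G).filter (· ∈ A) by
        simp [A.one_mem]), inv_one]
    congr 1
    refine sum_congr ?_ fun _ _ => rfl
    ext x
    simp [and_comm]
  rw [hk, hd] at hsplit
  push_cast
  linear_combination -hsplit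

/-- **The decomposition.** -/
theorem sum_linDiff {ψ : G → ℂ} (hψ : ψ ∈ irr G) {T : ℤ}
    (hT : ∑ x ∈ (univ : Finset G).filter (fun x => x ∈ A ∧ x ≠ 1), ψ x * ψ x⁻¹ = (T : ℂ)) :
    ∑ x : A, linDiff A ψ x * conj (linDiff A ψ x) =
      ((T - (Nat.card (commutator A) : ℤ) * linExcess A ψ : ℤ) : ℂ) := by
  set S := linSum A ψ with hS
  set Q := ∑ p ∈ allLin A, mult A ψ p ^ 2
  set C := (univ : Finset A).filter (· ∈ commutator A)
  have hCc : (C.card : ℂ) = Nat.card (commutator A) := by
    rw [← Fintype.card_subtype, ← Nat.card_eq_fintype_card]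
  have hpsi : ∀ p ∈ allLin A, ∑ x : A, p x * ψ (x : G)⁻¹ = (Nat.card A : ℂ) * mult A ψ p := by
    intro p hp
    have h := mult_spec hψ (allLin_irr hp)
    rw [pairing, inv_mul_eq_iff_eq_mul₀ (Nat.cast_ne_zero.2 Nat.card_pos.ne')] at h
    exact h
  have hpsi' : ∀ p ∈ allLin A, ∑ x : A, ψ (x : G) * p x⁻¹ = (Nat.card A : ℂ) * mult A ψ p := by
    intro p hp
    rw [← hpsi p hp]
    exact Fintype.sum_equiv (Equiv.inv A) _ _ fun x => by simp [mul_comm]
  -- sums over the whole of `A`
  have hPψ : ∑ x : A, linPart A ψ x * ψ (x : G)⁻¹ = (Nat.card A : ℂ) * Q := by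
    simp only [linPart, sum_mul, mul_assoc]
    rw [sum_comm, Int.cast_sum, mul_sum]
    refine sum_congr rfl fun p hp => ?_
    rw [← mul_sum, hpsi p hp, Int.cast_pow]
    ring
  have hψP : ∑ x : A, ψ (x : G) * linPart A ψ x⁻¹ = (Nat.card A : ℂ) * Q := by
    rw [← hPψ]
    exact Fintype.sum_equiv (Equiv.inv A) _ _ fun x => by simp [mul_comm]
  have hPP : ∑ x : A, linPart A ψ x * linPart A ψ x⁻¹ = (Nat.card A : ℂ) * Q := by
    simp only [linPart, sum_mul]
    rw [sum_comm, Int.cast_sum, mul_sum]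
    refine sum_congr rfl fun p hp => ?_
    simp only [mul_sum]
    rw [sum_comm]
    have hpq : ∀ q ∈ allLin A, ∑ x : A, p x * q x⁻¹ =
        (Nat.card A : ℂ) * (if p = q then 1 else 0) := fun q hq => by
      have h := pairing_irr (allLin_irr hp) (allLin_irr hq)
      rw [pairing, inv_mul_eq_iff_eq_mul₀ (Nat.cast_ne_zero.2 Nat.card_pos.ne')] at h
      exact h
    rw [sum_congr rfl fun q hq => by
      rw [sum_congr rfl fun x _ => show (mult A ψ p : ℂ) * p x * ((mult A ψ q : ℂ) * q x⁻¹) =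
        (mult A ψ p : ℂ) * mult A ψ q * (p x * q x⁻¹) by ring, ← mul_sum, hpq q hq]]
    simp only [mul_ite, mul_one, mul_zero]
    rw [sum_ite_eq, if_pos hp, Int.cast_pow]
    ring
  -- sums over the commutator subgroup
  have hC1 : ∑ x ∈ C, ψ (x : G)⁻¹ = (Nat.card (commutator A) : ℂ) * S := by
    have h : (Nat.card A : ℂ) * S = (abCard A : ℂ) * ∑ x ∈ C, ψ (x : G)⁻¹ := by
      rw [hS, linSum, Int.cast_sum, mul_sum, ← sum_congr rfl hpsi, sum_comm, mul_sum,
        sum_filter]
      refine sum_congr rfl fun x _ => ?_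
      rw [← sum_mul, sum_allLin]
      split_ifs <;> simp
    rw [← abCard_mul, Nat.cast_mul, mul_assoc] at h
    exact (mul_left_cancel₀ (Nat.cast_ne_zero.2
      (Nat.card_pos (α := Abelianization A)).ne') h).symm
  have hC2 : ∑ x ∈ C, ψ (x : G) = (Nat.card (commutator A) : ℂ) * S := by
    rw [← hC1]
    exact sum_nbij' (·⁻¹) (·⁻¹) (fun x hx => by simpa [C] using hx)
      (fun x hx => by simpa [C] using hx) (fun x _ => inv_inv x) (fun x _ => inv_inv x)
      fun x _ => by simp
  have hP : ∀ x ∈ C, linPart A ψ x = (S : ℂ) ∧ linPart A ψ x⁻¹ = (S : ℂ) := fun x hx =>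
    ⟨linPart_of_mem (mem_filter.1 hx).2, linPart_of_mem (inv_mem (mem_filter.1 hx).2)⟩
  -- the sum of `ψ ψ*` over `A`
  obtain ⟨d, -, hd⟩ := irr_one hψ
  have hψψ : ∑ x : A, ψ (x : G) * ψ (x : G)⁻¹ = (T : ℂ) + ψ 1 * ψ 1 := by
    rw [← sum_subtype ((univ : Finset G).filter (· ∈ A)) (by simp) fun x => ψ x * ψ x⁻¹,
      ← add_sum_erase _ _ (show (1 : G) ∈ (univ : Finset G).filter (· ∈ A) by simp [A.one_mem]),
      inv_one, ← hT, add_comm]
    congr 1
    refine sum_congr ?_ fun _ _ => rfl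
    ext x
    simp [and_comm]
  -- the expansion
  have hterm : ∀ x : A, linDiff A ψ x * conj (linDiff A ψ x) =
      ψ (x : G) * ψ (x : G)⁻¹ - (linPart A ψ x * ψ (x : G)⁻¹ + ψ (x : G) * linPart A ψ x⁻¹ -
        linPart A ψ x * linPart A ψ x⁻¹) +
      ((if x ∈ commutator A then linPart A ψ x * ψ (x : G)⁻¹ + ψ (x : G) * linPart A ψ x⁻¹ -
        linPart A ψ x * linPart A ψ x⁻¹ else 0) - if x = 1 then ψ 1 * ψ 1 else 0) := by
    intro x
    rw [← linDiff_inv hψ]
    unfold linDiff
    simp only [inv_mem_iff, inv_eq_one, Subgroup.coe_inv]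
    by_cases hc : x ∈ commutator A
    · rw [if_pos hc, if_pos hc, if_pos hc]
      rcases eq_or_ne x 1 with rfl | hx
      · rw [if_pos rfl, if_pos rfl, if_pos rfl, Subgroup.coe_one, inv_one, inv_one]
        ring
      · rw [if_neg hx, if_neg hx, if_neg hx]
        ring
    · rw [if_neg hc, if_neg hc, if_neg hc, if_neg fun h : x = 1 => hc (h ▸ one_mem _)]
      ring
  rw [sum_congr rfl fun x _ => hterm x, sum_add_distrib, sum_sub_distrib, sum_sub_distrib,
    sum_sub_distrib, sum_add_distrib, hPψ, hψP, hPP, hψψ, ← sum_filter, sum_ite_eq',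
    if_pos (mem_univ _)]
  rw [sum_sub_distrib, sum_add_distrib,
    sum_congr rfl fun (x : A) hx => show linPart A ψ x * ψ (x : G)⁻¹ = (S : ℂ) * ψ (x : G)⁻¹ by
      rw [(hP x hx).1],
    sum_congr rfl fun (x : A) hx => show ψ (x : G) * linPart A ψ x⁻¹ = ψ (x : G) * (S : ℂ) by
      rw [(hP x hx).2],
    sum_congr rfl fun (x : A) hx => show linPart A ψ x * linPart A ψ x⁻¹ = (S : ℂ) * S by
      rw [(hP x hx).1, (hP x hx).2],
    ← mul_sum, ← sum_mul, hC1, hC2, sum_const, nsmul_eq_mul, hCc, linExcess, ← hS,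
    ← abCard_mul, Nat.cast_mul]
  simp only [Q]
  push_cast
  ring

/-- **The lower bound.** -/
theorem linExcess_le {ψ : G → ℂ} (hψ : ψ ∈ irr G) {T : ℤ}
    (hT : ∑ x ∈ (univ : Finset G).filter (fun x => x ∈ A ∧ x ≠ 1), ψ x * ψ x⁻¹ = (T : ℂ)) :
    (Nat.card (commutator A) : ℤ) * linExcess A ψ ≤ T := by
  have := card_ne_zero_le Nat.card_pos univ (fun x _ => linDiff_mem_unityRing hψ x)
    (sum_linDiff hψ hT)
  omega

omit [Fintype G] in
theorem commute_of_reg [Finite G] (hA : Group.IsNilpotent A) {r : ℕ} (hr : r.Prime) {y b : A}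
    (hy : IsPow r y) (hb : FA.Thompson.Reg r b) : y * b = b * y := by
  haveI := hA
  have h := le_of_isPow (H := Subgroup.zpowers b) (K := Subgroup.centralizer ({y} : Set A))
    fun s hs u hu hsu => Subgroup.mem_centralizer_singleton_iff.2 (by
      rcases eq_or_ne u 1 with rfl | hu1
      · rw [one_mul, mul_one]
      refine commute_of_isPow (N := (⊤ : Subgroup A)) inferInstance hs hr (fun e => ?_)
        (Subgroup.mem_top u) (Subgroup.mem_top y) hsu hy
      subst e
      exact hb ((hsu.dvd_orderOf hs hu1).trans (orderOf_dvd_of_mem_zpowers hu)))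
  exact (Subgroup.mem_centralizer_singleton_iff.1 (h (Subgroup.mem_zpowers b))).symm

omit [Fintype G] in
theorem isPow_mul [Finite G] (hA : Group.IsNilpotent A) {r : ℕ} [Fact r.Prime] {y a : A}
    (hy : IsPow r y) (ha : IsPow r a) : IsPow r (y * a) := by
  haveI := hA
  obtain ⟨R⟩ : Nonempty (Sylow r A) := inferInstance
  haveI := Sylow.unique_of_normal R inferInstance
  have hmem : ∀ z : A, IsPow r z → z ∈ (R : Subgroup A) := by
    rintro z ⟨j, hj⟩
    obtain ⟨S, hS⟩ := (IsPGroup.of_card_dvd_pow (n := j) (p := r) (G := Subgroup.zpowers z)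
      (by rw [Nat.card_zpowers]; exact orderOf_dvd_of_pow_eq_one hj)).exists_le_sylow
    obtain rfl : S = R := Subsingleton.elim _ _
    exact hS (Subgroup.mem_zpowers z)
  exact isPow_of_mem R.isPGroup' (mul_mem (hmem y hy) (hmem a ha))

/-- **The lower bound with the commutator subgroup.** -/
theorem linExcess_add_le (hA : Group.IsNilpotent A) {r : ℕ} (hr : r.Prime) (hrA : r ∣ abCard A)
    {ψ : G → ℂ} (hψ : ψ ∈ irr G) (hs : ¬ (r : ℤ) ∣ linSum A ψ) {T : ℤ}
    (hT : ∑ x ∈ (univ : Finset G).filter (fun x => x ∈ A ∧ x ≠ 1), ψ x * ψ x⁻¹ = (T : ℂ)) :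
    (Nat.card (commutator A) : ℤ) * linExcess A ψ + ((Nat.card (commutator A) : ℤ) - 1) ≤ T := by
  haveI := hA
  haveI : Fact r.Prime := ⟨hr⟩
  obtain ⟨k, _, _, ⟨π⟩⟩ := exists_residue (N := Nat.card G) Nat.card_pos hr
  -- an `r`-element outside the commutator subgroup
  obtain ⟨q, hq⟩ := exists_prime_orderOf_dvd_card' (G := Abelianization A) r hrA
  obtain ⟨g, rfl⟩ := QuotientGroup.mk_surjective q
  obtain ⟨y, z, -, -, hyz, hy, hz⟩ := FA.Thompson.exists_decomp (p := r) g
  have hy' : y ∉ commutator A := fun hc => by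
    have h1 : Abelianization.of g = Abelianization.of z := by
      rw [hyz, map_mul, MonoidHom.mem_ker.1 ((Abelianization.ker_of A).symm ▸ hc), one_mul]
    refine (hz.map (Abelianization.of (G := A))) ?_
    rw [← h1]
    exact hq.symm.dvd
  choose a b _ha' _hb' hab hak hbr using fun w : A => FA.Thompson.exists_decomp (p := r) w
  let v : A → k := fun w => π ⟨ψ ((b w : A) : G), irr_mem_unityRing hψ _⟩
  set Φ : A → A := fun w => if v w = 0 then y * w else w
  set W := (univ : Finset A).filter fun w => w ∈ commutator A ∧ w ≠ 1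
  have hΦ : ∀ w ∈ W, linDiff A ψ (Φ w) ≠ 0 := by
    intro w hw
    obtain ⟨hwc, hw1⟩ := (mem_filter.1 hw).2
    obtain ⟨i, hi⟩ := hak w
    by_cases hv : v w = 0
    · have hyb : y * b w = b w * y := commute_of_reg hA hr hy (hbr w)
      have hwab : y * w = y * a w * b w := by rw [mul_assoc, ← hab w]
      obtain ⟨l, hl⟩ := isPow_mul hA hy ⟨i, hi⟩
      have hc2 : Commute ((y * a w : A) : G) ((b w : A) : G) := by
        have h1 : Commute (a w) (b w) :=
          commute_of_reg hA hr ⟨i, hi⟩ (hbr w)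
        exact ((show Commute y (b w) from hyb).mul_left h1).map A.subtype
      have hn : y * w ∉ commutator A := fun h => hy' (by
        have := mul_mem h (inv_mem hwc)
        rwa [mul_inv_cancel_right] at this)
      intro h0
      rw [show Φ w = y * w from if_pos hv, linDiff, if_neg hn, sub_eq_zero] at h0
      have h1 := congrArg π (Subtype.ext h0 :
        (⟨ψ ((y * w : A) : G), irr_mem_unityRing hψ _⟩ : unityRing (Nat.card G)) =
          ⟨linPart A ψ (y * w), linPart_mem_unityRing ψ _⟩)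
      have h2 : (⟨ψ ((y * w : A) : G), irr_mem_unityRing hψ _⟩ : unityRing (Nat.card G)) =
          ⟨ψ (((y * a w : A) : G) * ((b w : A) : G)), irr_mem_unityRing hψ _⟩ := by
        apply Subtype.ext
        show ψ ((y * w : A) : G) = ψ _
        rw [hwab, Subgroup.coe_mul]
      rw [h2, residue_eq π hψ hc2 (j := l) (by rw [← Subgroup.coe_pow, hl, Subgroup.coe_one]),
        show π ⟨ψ ((b w : A) : G), _⟩ = 0 from hv] at h1
      have h3 : (⟨linPart A ψ (y * w), linPart_mem_unityRing ψ _⟩ : unityRing (Nat.card G)) =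
          ∑ p ∈ (allLin A).attach, (mult A ψ p.1 : unityRing (Nat.card G)) *
            ⟨p.1 y, allLin_mem_unityRing p.2 y⟩ := Subtype.ext (by
        push_cast
        rw [sum_attach (allLin A) fun p => (mult A ψ p : ℂ) * p y, linPart]
        refine sum_congr rfl fun p hp => ?_
        obtain ⟨φ, rfl⟩ := (mem_filter.1 hp).2
        have hwker : φ w = 1 := Abelianization.commutator_subset_ker φ hwc
        simp [hwker])
      obtain ⟨l', hl'⟩ := hy
      rw [h3, map_sum, sum_congr rfl fun p _ => by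
        rw [map_mul, map_intCast, residue_eq_one π (j := l') (Subtype.ext (by
          obtain ⟨φ, hφ⟩ := (mem_filter.1 p.2).2
          push_cast
          rw [← hφ]
          simp only
          rw [← Units.val_pow_eq_pow_val, ← map_pow, hl', map_one, Units.val_one])), mul_one],
        ← Int.cast_sum, sum_attach (allLin A) fun p => mult A ψ p] at h1
      exact hs ((CharP.intCast_eq_zero_iff k r _).1 h1.symm)
    · intro h0
      rw [show Φ w = w from if_neg hv, linDiff, if_pos hwc, if_neg hw1] at h0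
      refine hv ?_
      have hc3 : Commute ((a w : A) : G) ((b w : A) : G) :=
        (show Commute (a w) (b w) from commute_of_reg hA hr ⟨i, hi⟩ (hbr w)).map A.subtype
      have h2 : (⟨ψ (((a w : A) : G) * ((b w : A) : G)), irr_mem_unityRing hψ _⟩ :
          unityRing (Nat.card G)) = 0 := Subtype.ext (by
        push_cast
        rw [← Subgroup.coe_mul, ← hab w, h0])
      show π ⟨ψ ((b w : A) : G), _⟩ = 0
      rw [← residue_eq π hψ hc3 (j := i) (by rw [← Subgroup.coe_pow, hi, Subgroup.coe_one]), h2,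
        map_zero]
  have hinj : Set.InjOn Φ W := fun w hw w' hw' he => by
    have hwc := (mem_filter.1 hw).2.1
    have hwc' := (mem_filter.1 hw').2.1
    simp only [Φ] at he
    split_ifs at he
    · exact mul_left_cancel he
    · refine absurd ?_ hy'
      rw [show y = w' * w⁻¹ by rw [← he, mul_inv_cancel_right]]
      exact mul_mem hwc' (inv_mem hwc)
    · refine absurd ?_ hy'
      rw [show y = w * w'⁻¹ by rw [he, mul_inv_cancel_right]]
      exact mul_mem hwc (inv_mem hwc')
    · exact he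
  have hcard : W.card + 1 = Nat.card (commutator A) := by
    rw [Nat.card_eq_fintype_card, Fintype.card_subtype,
      show W = ((univ : Finset A).filter fun w => w ∈ commutator A).erase 1 by
        ext w; simp [W, and_comm], card_erase_add_one (by simp [one_mem])]
  have h1 : W.card ≤ ((univ : Finset A).filter fun x => linDiff A ψ x ≠ 0).card :=
    card_le_card_of_injOn Φ (fun w hw => mem_filter.2 ⟨mem_univ _, hΦ w hw⟩) hinj
  have h2 := card_ne_zero_le Nat.card_pos univ (fun x _ => linDiff_mem_unityRing hψ x)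
    (sum_linDiff hψ hT)
  omega

end FA.CNGroups

end
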