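import Fermat.Agent.CNGroups.Exceptional
import Fermat.Agent.CNGroups.Norm
import Fermat.Agent.SuzukiCA.Main

/-!
# No group of odd order is covered by frames

Take the frame `A` with the smallest abelianisation, of order `ā = w e + 1`, and an exceptional
character `χ` of it.  On every other frame either `χ` is large enough or the family of that frame
enters the column bound of `A`; with the norm of `χ` and the class equation this leaves no room.
Only linear characters of the frames are used, so no coherence theorem is needed.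
-/

set_option autoImplicit false
set_option linter.style.haveILetI false

noncomputable section

open Finset FA.FrobeniusGroups FA.CharacterTheory
open FA.SuzukiCA (mult en index_mul_en_mul_card card_filter_ne_one)
open scoped Classical

namespace FA.CNGroups

variable {G : Type*} [Group G] [Fintype G] {A B : Subgroup G}

omit [Fintype G] in
/-- A frame contains a Sylow subgroup for each prime in its order. -/
theorem Frame.exists_sylow_le [Finite G] (hA : Frame A) {q : ℕ} [hq : Fact q.Prime]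
    (hd : q ∣ Nat.card A) : ∃ P : Sylow q G, (P : Subgroup G) ≤ A := by
  obtain ⟨R⟩ : Nonempty (Sylow q A) := inferInstance
  refine ⟨(R.isPGroup'.map A.subtype).toSylow (fun h => ?_), Subgroup.map_subtype_le _⟩
  rw [Subgroup.index_map_subtype] at h
  exact (hq.out.dvd_mul.1 h).elim R.not_dvd_index
    fun h' => hq.out.ne_one (Nat.eq_one_of_dvd_coprimes hA.coprime hd h')

/-- Separated frames have different abelianisations. -/
theorem Frame.abCard_ne (hA : Frame A) (hB : Frame B) (hAB : Sep A B) :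
    abCard B ≠ abCard A := by
  intro he
  obtain ⟨q, hq, hqd⟩ := Nat.exists_prime_and_dvd hA.one_lt_abCard.ne'
  haveI : Fact q.Prime := ⟨hq⟩
  obtain ⟨P, hP⟩ := hA.exists_sylow_le (hqd.trans ⟨_, abCard_mul.symm⟩)
  obtain ⟨Q, hQ⟩ := hB.exists_sylow_le
    ((he.symm ▸ hqd : q ∣ abCard B).trans ⟨_, abCard_mul.symm⟩)
  obtain ⟨c, rfl⟩ := MulAction.exists_smul_eq G P Q
  have hne : (P : Subgroup G) ≠ ⊥ := P.ne_bot_of_dvd_card
    ((hqd.trans ⟨_, abCard_mul.symm⟩).trans A.card_subgroup_dvd_card)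
  obtain ⟨x, hx, hx1⟩ := (Subgroup.bot_or_exists_ne_one (P : Subgroup G)).resolve_left hne
  exact hAB c x (hP hx) hx1 (hQ (show MulAut.conj c x ∈ ((c • P : Sylow q G) : Subgroup G) from
    Subgroup.mem_map_of_mem _ hx))

/-- An integer `d ≠ 0` makes the sum of the squares at least `|B| - 1`. -/
theorem Exc.card_sub_one_le (F : Exc B) (hB : Frame B) {ψ : G → ℂ} (hψ : ψ ∈ irr G)
    (hψF : ψ ∉ F.fam) (hd : F.dd ψ ≠ 0) {T : ℤ}
    (hT : ∑ x ∈ (univ : Finset G).filter (fun x => x ∈ B ∧ x ≠ 1), ψ x * ψ x⁻¹ = (T : ℂ)) :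
    (Nat.card B : ℤ) - 1 ≤ T := by
  obtain ⟨hs, hE⟩ := F.sum_allLin_mult hB hψ
  rw [if_neg hψF, zero_mul, add_zero] at hs
  rw [if_neg hψF] at hE
  have hb : (Nat.card B : ℤ) = abCard B * Nat.card (commutator B) := by
    exact_mod_cast (abCard_mul (A := B)).symm
  have hm : (1 : ℤ) ≤ Nat.card (commutator B) := by exact_mod_cast Nat.card_pos
  have hb1 : (2 : ℤ) ≤ abCard B := by exact_mod_cast hB.one_lt_abCard
  by_cases h1 : F.dd ψ ^ 2 = 1
  · obtain ⟨r, hr, hrd⟩ := Nat.exists_prime_and_dvd hB.one_lt_abCard.ne'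
    have h := linExcess_add_le hB.nilp hr hrd hψ (fun hdvd => ?_) hT
    · rw [linExcess, linSum, hE, h1] at h
      rw [hb]
      linarith
    rw [linSum, hs] at hdvd
    have h2 : (r : ℤ) ∣ F.dd ψ :=
      (dvd_add_right (dvd_mul_of_dvd_left (Int.natCast_dvd_natCast.2 hrd) _)).1 hdvd
    have h3 : (r : ℤ) ∣ 1 := h1 ▸ dvd_pow h2 two_ne_zero
    exact hr.ne_one (Nat.dvd_one.1 (Int.natCast_dvd_natCast.1 h3))
  · have h4 : 4 ≤ F.dd ψ ^ 2 := by
      have h0 : F.dd ψ ≠ 1 ∧ F.dd ψ ≠ -1 := ⟨fun e => h1 (by rw [e]; rfl),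
        fun e => h1 (by rw [e]; rfl)⟩
      rcases (show F.dd ψ ≤ -2 ∨ 2 ≤ F.dd ψ by omega) with h | h <;> nlinarith
    have h := linExcess_le hψ hT
    rw [linExcess, linSum, hE] at h
    rw [hb]
    nlinarith [mul_le_mul_of_nonneg_left h4 (mul_nonneg (by linarith : (0 : ℤ) ≤
      Nat.card (commutator B)) (by linarith : (0 : ℤ) ≤ (abCard B : ℤ) - 1))]

/-- The final inequality has no solutions. -/
theorem no_room {e a m w d ε U T L : ℤ} (he : 3 ≤ e) (ha : a = w * e + 1) (hm : 1 ≤ m)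
    (hε : ε = 1 ∨ ε = -1) (hU : U + (d - ε) ^ 2 + d ^ 2 ≤ e)
    (hT : m * (a * (d ^ 2 + e) - (d + ε * e) ^ 2) ≤ T) (hw : 2 ≤ w)
    (hmain : L * (T - (m * a - 1)) ≤ e * (m * a) * U)
    (hcase : (4 ≤ w ∧ L = a - 1) ∨
      (w = 2 ∧ L = a + 1 ∧ m * (a * (d ^ 2 + e) - (d + ε * e) ^ 2) + (m - 1) ≤ T) ∨
      (w = 2 ∧ L = a - 1 ∧ ∃ q : ℤ, 3 ≤ q ∧ q ∣ d + ε * e ∧ q ∣ a)) : False := by
  have hkey : e * (a - e) ≤ a * (d ^ 2 + e) - (d + ε * e) ^ 2 := by
    have hk : 0 ≤ w * d ^ 2 - 2 * ε * d := by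
      rcases hε with rfl | rfl <;> rcases lt_trichotomy d 0 with h | h | h <;> nlinarith
    have he2 : ε ^ 2 = 1 := by rcases hε with rfl | rfl <;> norm_num
    subst ha
    linear_combination e * hk + e ^ 2 * he2
  have hT' := (mul_le_mul_of_nonneg_left hkey (by linarith : (0 : ℤ) ≤ m)).trans hT
  have hsq : 1 ≤ (d - ε) ^ 2 + d ^ 2 := by
    rcases hε with rfl | rfl <;> nlinarith
  have hU' : U ≤ e - 1 := by linarith
  have hma : 0 ≤ e * (m * a) := by
    subst ha
    positivity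
  have hU2 := mul_le_mul_of_nonneg_left hU' hma
  rcases hcase with ⟨hw4, rfl⟩ | ⟨rfl, rfl, hT2⟩ | ⟨rfl, rfl, q, hq, hqd, hqa⟩
  · subst ha
    have h1 : (w * e) * (m * (e * (w * e + 1 - e)) - (m * (w * e + 1) - 1)) ≤
        e * (m * (w * e + 1)) * (e - 1) := by
      refine le_trans ?_ (hmain.trans hU2)
      rw [show w * e + 1 - 1 = w * e by ring]
      exact mul_le_mul_of_nonneg_left (by linarith) (by positivity)
    have h2 : e ≤ (w - 1) * (e - 1) - 1 := by nlinarith
    have h3 : (m * e) * ((e - 1) * (w - 1) * (w * e + 1) - w * e ^ 2) + e * w ≤ 0 := by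
      linarith
    have h4 : 0 ≤ (e - 1) * (w - 1) * (w * e + 1) - w * e ^ 2 := by
      have h5 := mul_le_mul_of_nonneg_left h2 (by positivity : 0 ≤ w * e)
      nlinarith
    nlinarith [mul_nonneg (by positivity : (0 : ℤ) ≤ m * e) h4]
  · subst ha
    have hT2' := (add_le_add_left (mul_le_mul_of_nonneg_left hkey
      (by linarith : (0 : ℤ) ≤ m)) (m - 1)).trans (by linarith : _ ≤ T)
    have h1 : (2 * e + 1 + 1) * (m * ((e - 1) * e)) ≤ e * (m * (2 * e + 1)) * (e - 1) := by
      refine le_trans ?_ (hmain.trans hU2)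
      exact mul_le_mul_of_nonneg_left (by linarith) (by linarith)
    nlinarith [mul_pos (mul_pos (by linarith : (0 : ℤ) < m) (by linarith : (0 : ℤ) < e - 1))
      (by linarith : (0 : ℤ) < e)]
  · subst ha
    have hqe : q ∣ 2 * ε * d - 1 := by
      have he2 : ε * ε = 1 := by rcases hε with rfl | rfl <;> norm_num
      have h := dvd_sub (hqd.mul_left (2 * ε)) hqa
      have hrw : 2 * ε * (d + ε * e) - (2 * e + 1) = 2 * ε * d - 1 := by
        linear_combination 2 * e * he2
      rwa [hrw] at h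
    have h9 : 3 ≤ |2 * ε * d - 1| := by
      have hne : 2 * ε * d - 1 ≠ 0 := by rcases hε with rfl | rfl <;> omega
      have := Int.le_of_dvd (abs_pos.2 hne) ((dvd_abs _ _).2 hqe)
      linarith
    have h5 : 5 ≤ (d - ε) ^ 2 + d ^ 2 := by
      have := mul_self_le_mul_self (by norm_num) h9
      rw [abs_mul_abs_self] at this
      rcases hε with rfl | rfl <;> nlinarith
    have hU5 := mul_le_mul_of_nonneg_left (show U ≤ e - 5 by linarith) hma
    have h1 : (2 * e + 1 - 1) * (m * (e * (2 * e + 1 - e)) - (m * (2 * e + 1) - 1)) ≤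
        e * (m * (2 * e + 1)) * (e - 5) := by
      refine le_trans ?_ (hmain.trans hU5)
      exact mul_le_mul_of_nonneg_left (by linarith) (by linarith)
    nlinarith [mul_pos (by linarith : (0 : ℤ) < m) (by linarith : (0 : ℤ) < e)]

/-- **No group of odd order is covered by frames.** -/
theorem false_of_frames [Nontrivial G] (hodd : Odd (Nat.card G)) {R : Finset (Subgroup G)}
    (hR : ∀ B ∈ R, Frame B)
    (hcov : ∀ y : G, y ≠ 1 → ∃! B, B ∈ R ∧ ∃ c : G, c * y * c⁻¹ ∈ B) : False := by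
  obtain ⟨y, hy⟩ := exists_ne (1 : G)
  obtain ⟨B₀, ⟨hB₀, -⟩, -⟩ := hcov y hy
  obtain ⟨A, hAR, hmin⟩ := exists_min_image R abCard ⟨B₀, hB₀⟩
  have hA := hR A hAR
  let Fs : ∀ B : R, Exc (B : Subgroup G) := fun B => ((hR B B.2).exists_exc hodd).some
  set FA' : Exc A := Fs ⟨A, hAR⟩
  obtain ⟨p, hp, -⟩ := hA.exists_not_rel hodd
  set χ := FA'.f p
  have hχ : χ ∈ irr G := FA'.mem p hp
  have hχA : χ ∈ FA'.fam := mem_image_of_mem _ hp
  obtain ⟨x, hx0, hx⟩ := irr_one hχ
  set idx : Subgroup G → ℤ := fun B => (Subgroup.normalizer (B : Set G)).index with hidx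
  have hprod : ∀ B : Subgroup G, idx B * ((en B : ℤ) * Nat.card B) = Nat.card G := fun B => by
    simp only [hidx]
    exact_mod_cast index_mul_en_mul_card (A := B)
  choose! T hT using fun (B : Subgroup G) (_ : B ∈ R) => exists_sum_sq B hχ
  have hnorm : (Nat.card G : ℤ) = (x : ℤ) ^ 2 + ∑ B ∈ R, idx B * T B := by
    have h1 := pairing_irr hχ hχ
    rw [if_pos rfl, pairing, inv_mul_eq_iff_eq_mul₀ (Nat.cast_ne_zero.2 Nat.card_pos.ne'), mul_one,
      ← add_sum_erase _ _ (mem_univ (1 : G)), inv_one, hx,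
      sum_ne_one hR hcov (fun z => χ z * χ z⁻¹) (fun g z => by
        rw [show (g * z * g⁻¹)⁻¹ = g * z⁻¹ * g⁻¹ by group, irr_conj hχ, irr_conj hχ]),
      sum_congr rfl fun B hB => by rw [hT B hB]] at h1
    have h2 : (((x : ℤ) ^ 2 + ∑ B ∈ R, idx B * T B : ℤ) : ℂ) = ((Nat.card G : ℤ) : ℂ) := by
      push_cast
      rw [← h1, hidx]
      push_cast
      ring
    exact (Int.cast_inj.1 h2).symm
  have hclasses : (Nat.card G : ℤ) - 1 = ∑ B ∈ R, idx B * ((Nat.card B : ℤ) - 1) := by
    have h1 := sum_ne_one hR hcov (fun _ => (1 : ℂ)) fun _ _ => rfl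
    have hpre : ((univ : Finset G).erase 1).card + 1 = Nat.card G := by
      rw [card_erase_add_one (mem_univ _), card_univ, Nat.card_eq_fintype_card]
    have h2 : ((((univ : Finset G).erase 1).card : ℤ) : ℂ) =
        ((∑ B ∈ R, idx B *
          (((univ : Finset G).filter fun z => z ∈ B ∧ z ≠ 1).card : ℤ) : ℤ) : ℂ) := by
      simp only [sum_const, nsmul_one] at h1
      push_cast
      rw [h1, hidx]
      push_cast
      rfl
    rw [← hpre, Nat.cast_add, Nat.cast_one, add_sub_cancel_right, Int.cast_inj.1 h2]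
    exact sum_congr rfl fun B _ => by rw [card_filter_ne_one]
  set e := (en A : ℤ)
  set ab := (abCard A : ℤ) with hab
  set m := (Nat.card (commutator A) : ℤ)
  set w := (FA'.fam.card : ℤ)
  have habw : ab = w * e + 1 := by
    simp only [ab, w, e]
    exact_mod_cast (FA'.card_fam_mul hA).symm
  have hw2 : (2 : ℤ) ≤ w := by
    simp only [w]
    exact_mod_cast FA'.two_le_card hA hodd
  have he3 : (3 : ℤ) ≤ e := by
    simp only [e]
    exact_mod_cast hA.three_le_en hodd
  have hweven : w ≠ 3 := fun h3 => by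
    obtain ⟨i, hi⟩ := odd_abCard (A := A) hodd
    obtain ⟨j, hj⟩ := odd_en (A := A) hodd
    have h := FA'.card_fam_mul hA
    rw [show FA'.fam.card = 3 from Int.natCast_inj.1 h3] at h
    omega
  obtain ⟨hs, hE⟩ := FA'.sum_allLin_mult hA hχ
  rw [if_pos hχA] at hs hE
  have hTA : m * (ab * (FA'.dd χ ^ 2 + e) - (FA'.dd χ + FA'.eps * e) ^ 2) ≤ T A := by
    have := linExcess_le hχ (hT A hAR)
    rwa [linExcess, linSum, hE] at this
  set O := (R.erase A).attach
  have hO : ∀ B : {B // B ∈ R.erase A}, (B : Subgroup G) ∈ R ∧ Sep A (B : Subgroup G) :=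
    fun B => ⟨(mem_erase.1 B.2).2,
      sep_of_unique hcov hAR (mem_erase.1 B.2).2 (mem_erase.1 B.2).1.symm⟩
  let F : ∀ B : {B // B ∈ R.erase A}, Exc (B : Subgroup G) := fun B => Fs ⟨B, (hO B).1⟩
  choose q hq _hq' using fun B : {B // B ∈ R.erase A} => (hR B (hO B).1).exists_not_rel hodd
  set U := ∑ B ∈ O, ((F B).fam.card : ℤ) * FA'.dd ((F B).f (q B)) ^ 2
  have hcol : U + (FA'.dd χ - FA'.eps) ^ 2 + FA'.dd χ ^ 2 ≤ e := by
    have hd : Set.PairwiseDisjoint (↑O) fun B => (F B).fam := fun B _ B' _ hne =>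
      (F B).disjoint_fam (hR B (hO B).1) (F B') (hR B' (hO B').1)
        (sep_of_unique hcov (hO B).1 (hO B').1 fun e => hne (Subtype.ext e)) hodd
    have h := FA'.sum_dd_sq_le hA hodd (S := O.biUnion fun B => (F B).fam)
      (biUnion_subset.2 fun B _ => (F B).fam_subset)
      (fun h => by obtain ⟨B, -, hB⟩ := mem_biUnion.1 h; exact (F B).one_notMem hB)
      (disjoint_biUnion_left _ _ _ |>.2 fun B _ =>
        (FA'.disjoint_fam hA (F B) (hR B (hO B).1) (hO B).2 hodd).symm) hp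
    rw [sum_biUnion hd] at h
    refine le_trans (le_of_eq ?_) h
    congr 2
    refine sum_congr rfl fun B _ => ?_
    rw [sum_congr rfl fun ψ hψ => show FA'.dd ψ ^ 2 = FA'.dd ((F B).f (q B)) ^ 2 by
      obtain ⟨r, hr, rfl⟩ := mem_image.1 hψ
      rw [FA'.dd_other hA (F B) (hR B (hO B).1) (hO B).2 hodd hr (hq B)], sum_const, nsmul_eq_mul]
  -- the inequality for a lower bound `L` of the other `|B : B'| - 1`
  have hmain : ∀ L : ℤ, 0 ≤ L → (∀ B ∈ R.erase A, L + 1 ≤ abCard B) →
      L * (T A - (m * ab - 1)) ≤ e * (m * ab) * U := by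
    intro L hL0 hL
    have hterm : ∀ B ∈ O, L * (idx B * ((Nat.card B.1 : ℤ) - 1)) ≤
        L * (idx B * T B) +
          (Nat.card G : ℤ) * (((F B).fam.card : ℤ) * FA'.dd ((F B).f (q B)) ^ 2) := by
      intro B _
      have hB := hR B (hO B).1
      have hi : 0 ≤ idx B := Int.natCast_nonneg _
      have hF : 0 ≤ ((F B).fam.card : ℤ) * FA'.dd ((F B).f (q B)) ^ 2 := by positivity
      have hnot : χ ∉ (F B).fam := fun h =>
        disjoint_left.1 (FA'.disjoint_fam hA (F B) hB (hO B).2 hodd) hχA h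
      by_cases hd : (F B).dd χ = 0
      · have hodd' := FA'.odd_dd_add hA (F B) hB (hO B).2 hodd hp (hq B)
        rw [hd, add_zero] at hodd'
        have h1 : 1 ≤ FA'.dd ((F B).f (q B)) ^ 2 := Int.add_one_le_iff.2
          (pow_two_pos_of_ne_zero fun h0 => by rw [h0] at hodd'; exact Int.not_odd_zero hodd')
        have hw : (abCard B.1 : ℤ) = (F B).fam.card * en B.1 + 1 := by
          exact_mod_cast ((F B).card_fam_mul hB).symm
        have hT0 : 0 ≤ T B := by
          have h := linExcess_le hχ (hT B (hO B).1)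
          rw [linExcess, linSum, ((F B).sum_allLin_mult hB hχ).2, if_neg hnot, hd] at h
          simpa using h
        have hb1 : (L : ℤ) ≤ (F B).fam.card * en B.1 := by have := hL B B.2; linarith
        have hb : 0 ≤ (Nat.card B.1 : ℤ) := Int.natCast_nonneg _
        calc L * (idx B * ((Nat.card B.1 : ℤ) - 1)) ≤ L * (idx B * Nat.card B.1) := by
              gcongr; linarith
          _ ≤ ((F B).fam.card * en B.1) * (idx B * Nat.card B.1) := by gcongr
          _ = (Nat.card G : ℤ) * ((F B).fam.card * 1) := by rw [← hprod B.1]; ring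
          _ ≤ (Nat.card G : ℤ) * ((F B).fam.card * FA'.dd ((F B).f (q B)) ^ 2) := by gcongr
          _ ≤ _ := le_add_of_nonneg_left (mul_nonneg hL0 (mul_nonneg hi hT0))
      · refine le_add_of_le_of_nonneg ?_ (mul_nonneg (Int.natCast_nonneg _) hF)
        gcongr
        exact (F B).card_sub_one_le hB hχ hnot hd (hT B (hO B).1)
    have hsum := sum_le_sum hterm
    rw [← mul_sum, sum_add_distrib, ← mul_sum, ← mul_sum,
      sum_attach (R.erase A) fun B => idx B * ((Nat.card B : ℤ) - 1),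
      sum_attach (R.erase A) fun B => idx B * T B] at hsum
    rw [← add_sum_erase _ _ hAR] at hnorm hclasses
    have ha : (Nat.card A : ℤ) = m * ab := by
      rw [mul_comm]
      simp only [ab, m]
      exact_mod_cast (abCard_mul (A := A)).symm
    have hx1 : (1 : ℤ) ≤ (x : ℤ) ^ 2 := one_le_pow₀ (by omega)
    have h2 := mul_le_mul_of_nonneg_left hx1 hL0
    have hfin : idx A * (L * (T A - (m * ab - 1))) ≤ idx A * (e * (m * ab) * U) := by
      have h3 : (Nat.card G : ℤ) * U = idx A * (e * (m * ab) * U) := by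
        rw [← hprod A, ha]; ring
      rw [← h3, ← ha]
      linear_combination hsum + h2 - L * hnorm + L * hclasses
    refine le_of_mul_le_mul_left hfin ?_
    simp only [hidx]
    exact_mod_cast Nat.pos_of_ne_zero Subgroup.index_ne_zero_of_finite
  have hm1 : (1 : ℤ) ≤ m := Int.natCast_pos.2 Nat.card_pos
  have hε := FA'.eps_eq
  have hLab : ∀ B ∈ R.erase A, ab - 1 + 1 ≤ (abCard B : ℤ) := fun B hB => by
    have := hmin B (mem_erase.1 hB).2
    rw [sub_add_cancel, hab]
    exact_mod_cast this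
  have hL0 : 0 ≤ ab - 1 := by rw [habw]; nlinarith
  rcases (show 4 ≤ w ∨ w = 2 by omega) with h4 | h2
  · exact no_room he3 habw hm1 hε hcol hTA hw2 (hmain _ hL0 hLab) (Or.inl ⟨h4, rfl⟩)
  obtain ⟨r, hr, hrd⟩ := Nat.exists_prime_and_dvd hA.one_lt_abCard.ne'
  by_cases hdiv : (r : ℤ) ∣ linSum A χ
  · refine no_room he3 habw hm1 hε hcol hTA hw2 (hmain _ hL0 hLab) (Or.inr (Or.inr ⟨h2, rfl,
      (r : ℤ), ?_, ?_, Int.natCast_dvd_natCast.2 hrd⟩))
    · obtain ⟨i, hi⟩ := (odd_abCard (A := A) hodd).of_dvd_nat hrd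
      have := hr.two_le
      omega
    · rw [linSum, hs, add_assoc, mul_comm e] at hdiv
      exact (dvd_add_right (dvd_mul_of_dvd_left (Int.natCast_dvd_natCast.2 hrd) _)).1 hdiv
  · have hTA2 := linExcess_add_le hA.nilp hr hrd hχ hdiv (hT A hAR)
    rw [linExcess, linSum, hE] at hTA2
    refine no_room he3 habw hm1 hε hcol hTA hw2 (hmain (ab + 1) (by linarith) fun B hB => ?_)
      (Or.inr (Or.inl ⟨h2, rfl, hTA2⟩))
    have hBR := (mem_erase.1 hB).2
    have hne : abCard B ≠ abCard A := hA.abCard_ne (hR B hBR)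
      (sep_of_unique hcov hAR hBR (mem_erase.1 hB).1.symm)
    obtain ⟨i, hi⟩ := odd_abCard (A := A) hodd
    obtain ⟨j, hj⟩ := odd_abCard (A := B) hodd
    have := hmin B hBR
    rw [hab]
    omega

end FA.CNGroups

end
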