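import Fermat.Agent.CNGroups.Linear
import Fermat.Agent.SuzukiCA.Exceptional

/-!
# The exceptional characters of a frame

The construction for self-centralising subgroups works with the linear characters of a frame: one
exceptional character for each orbit, the column bound, and for two separated frames disjoint
families and a parity relation.
-/

set_option autoImplicit false
set_option linter.style.haveILetI false

noncomputable section

open Finset FA.FrobeniusGroups FA.CharacterTheory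
open FA.SuzukiCA (mult mult_one mult_inv Rel ind en pm exists_pm exists_flower sum_pm_mul)
open scoped Classical

namespace FA.CNGroups

variable {G : Type*} [Group G] [Fintype G] {A B : Subgroup G}

omit [Fintype G] in
theorem inv_eq_of_hom (ψ : A →* ℂˣ) : (fun x => (ψ x⁻¹ : ℂ)) = fun x => ((ψ⁻¹ : A →* ℂˣ) x : ℂ) :=
  funext fun x => by simp

theorem inv_mem_allLin {p : A → ℂ} (hp : p ∈ allLin A) : (fun x => p x⁻¹) ∈ allLin A := by
  obtain ⟨ψ, rfl⟩ := (mem_filter.1 hp).2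
  rw [inv_eq_of_hom]
  exact mem_allLin _

/-- **The exceptional characters** of `A`. -/
structure Exc (A : Subgroup G) where
  /-- the sign -/
  eps : ℤ
  /-- the exceptional character of a linear character -/
  f : (A → ℂ) → G → ℂ
  /-- the common multiplicity -/
  m : (G → ℂ) → ℤ
  eps_eq : eps = 1 ∨ eps = -1
  mem : ∀ p ∈ linC A, f p ∈ irr G
  ne_one : ∀ p ∈ linC A, f p ≠ fun _ => 1
  fibre : ∀ p ∈ linC A, ∀ q ∈ linC A, f p = f q ↔ Rel p q
  mult_eq : ∀ ψ ∈ irr G, ∀ p ∈ linC A, mult A ψ p = m ψ + if ψ = f p then eps else 0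

theorem Frame.exists_exc (hA : Frame A) (hodd : Odd (Nat.card G)) : Nonempty (Exc A) := by
  obtain ⟨p₀, hp₀, p₁, hp₁, hp₀₁⟩ := hA.exists_not_rel hodd
  set P := (linC A).filter fun p => ¬ Rel p₀ p
  choose! d hd0 hd using fun (χ : G → ℂ) (hχ : χ ∈ irr G) => irr_one hχ
  set u : (A → ℂ) → (G → ℂ) → ℤ := fun p ψ => mult A ψ p - mult A ψ p₀
  have hu : ∀ p ∈ P, ∀ q ∈ P,
      ∑ ψ ∈ irr G, u p ψ * u q ψ = (if Rel p q then 1 else 0) + 1 := fun p hp q hq => by
    obtain ⟨hpL, hpn⟩ := mem_filter.1 hp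
    obtain ⟨hqL, hqn⟩ := mem_filter.1 hq
    rw [hA.gram hpL hp₀ hqL hp₀, ind, ind, ind, ind,
      if_neg (fun e : Rel p p₀ => hpn (FA.SuzukiCA.Rel.symm e)), if_neg hqn,
      if_pos (FA.SuzukiCA.Rel.refl p₀), sub_zero, sub_zero]
  choose! a ha b hb hab hu' using fun p (hp : p ∈ P) =>
    exists_pm (s := irr G) (d := d) hd0 (u := u p)
      (by rw [hu p hp p hp, if_pos (FA.SuzukiCA.Rel.refl p)]; rfl)
      (by
        have h := gram_degree (mem_erase.1 (mem_filter.1 hp).1).2 (mem_erase.1 hp₀).2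
        rw [sum_congr rfl fun ψ hψ => by rw [hd ψ hψ]] at h
        exact_mod_cast h)
  obtain ⟨ε, c, f, hε, hc, hf, hff⟩ := exists_flower (κ := A → ℂ) (P := P)
    ⟨p₁, mem_filter.2 ⟨hp₁, hp₀₁⟩⟩ (E := Rel) a b ha hb hab fun j hj k hk => by
      rw [← hu j hj k hk]
      exact sum_congr rfl fun i hi => by rw [hu' j hj i hi, hu' k hk i hi]
  have huf : ∀ p ∈ P, ∀ ψ ∈ irr G, mult A ψ p = mult A ψ p₀ + ε * pm (f p) c ψ :=
    fun p hp ψ hψ => by
      rw [← (hf p hp).2.2 ψ, ← hu' p hp ψ hψ]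
      simp only [u]
      ring
  have hm1 : ∀ p ∈ linC A, mult A (fun _ => (1 : ℂ)) p = 0 := fun p hp => by
    rw [mult_one (linC_irr hp), if_neg (mem_erase.1 hp).1]
  refine ⟨{
    eps := ε
    f := fun p => if Rel p₀ p then c else f p
    m := fun ψ => mult A ψ p₀ - if ψ = c then ε else 0
    eps_eq := hε
    mem := fun p hp => ?_
    ne_one := fun p hp => ?_
    fibre := fun p hp q hq => ?_
    mult_eq := fun ψ hψ p hp => ?_ }⟩
  · split_ifs with h
    · exact hc
    · exact (hf p (mem_filter.2 ⟨hp, h⟩)).1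
  · have key : ∀ q ∈ P, f q ≠ (fun _ => 1) ∧ c ≠ fun _ => 1 := fun q hq => by
      have h := huf q hq _ one_mem_irr
      rw [hm1 q (mem_filter.1 hq).1, hm1 p₀ hp₀, zero_add, eq_comm, mul_eq_zero,
        or_iff_right (by rcases hε with h' | h' <;> rw [h'] <;> norm_num)] at h
      have hne := (hf q hq).2.1
      unfold pm at h
      constructor
      · intro e
        rw [if_pos e.symm, if_neg fun e' => hne (e.trans e')] at h
        exact one_ne_zero (h.trans rfl : (1 : ℤ) = 0)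
      · intro e
        rw [if_neg fun e' => hne (e'.symm.trans e.symm), if_pos e.symm] at h
        norm_num at h
    split_ifs with h
    · exact (key p₁ (mem_filter.2 ⟨hp₁, hp₀₁⟩)).2
    · exact (key p (mem_filter.2 ⟨hp, h⟩)).1
  · split_ifs with h h' h'
    · exact iff_of_true rfl (FA.SuzukiCA.Rel.trans (FA.SuzukiCA.Rel.symm h) h')
    · exact iff_of_false (hf q (mem_filter.2 ⟨hq, h'⟩)).2.1.symm
        fun e => h' (FA.SuzukiCA.Rel.trans h e)
    · exact iff_of_false (hf p (mem_filter.2 ⟨hp, h⟩)).2.1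
        fun e => h (FA.SuzukiCA.Rel.trans h' (FA.SuzukiCA.Rel.symm e))
    · exact hff p (mem_filter.2 ⟨hp, h⟩) q (mem_filter.2 ⟨hq, h'⟩)
  · by_cases h : Rel p₀ p
    · rw [if_pos h]
      obtain ⟨n, rfl⟩ := h
      rw [mult_tw hψ (mem_erase.1 hp₀).2]
      ring
    · rw [if_neg h, huf p (mem_filter.2 ⟨hp, h⟩) ψ hψ]
      unfold pm
      split_ifs <;> ring

namespace Exc

variable (F : Exc A) (hA : Frame A)

/-- The exceptional family. -/
def fam : Finset (G → ℂ) := (linC A).image F.f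

/-- The value on the nontrivial elements of `A`, outside the family. -/
def dd (ψ : G → ℂ) : ℤ := mult A ψ (fun _ => 1) - F.m ψ

theorem eps_sq : F.eps * F.eps = 1 := by
  rcases F.eps_eq with h | h <;> rw [h] <;> norm_num

theorem fam_subset : F.fam ⊆ irr G := image_subset_iff.2 F.mem

theorem one_notMem : (fun _ => 1) ∉ F.fam := fun h => by
  obtain ⟨p, hp, he⟩ := mem_image.1 h
  exact F.ne_one p hp he

include hA

theorem card_fibre {p : A → ℂ} (hp : p ∈ linC A) :
    ((linC A).filter fun q => F.f p = F.f q).card = en A := by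
  rw [filter_congr fun q hq => F.fibre p hp q hq]
  exact hA.card_orbit hp

theorem card_fam_mul : F.fam.card * en A + 1 = abCard A := by
  rw [← card_linC (A := A), card_eq_sum_card_image F.f (linC A), sum_congr rfl fun χ hχ => ?_,
    sum_const, smul_eq_mul]
  · rfl
  · obtain ⟨p, hp, rfl⟩ := mem_image.1 hχ
    rw [filter_congr fun q _ => eq_comm]
    exact F.card_fibre hA hp

theorem two_le_card (hodd : Odd (Nat.card G)) : 2 ≤ F.fam.card := by
  obtain ⟨p, hp, q, hq, h⟩ := hA.exists_not_rel hodd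
  exact one_lt_card.2 ⟨F.f p, mem_image_of_mem _ hp, F.f q, mem_image_of_mem _ hq,
    fun e => h ((F.fibre p hp q hq).1 e)⟩

theorem sum_linC {ψ : G → ℂ} (hψ : ψ ∈ irr G) (g : ℤ → ℤ) :
    ∑ p ∈ linC A, g (mult A ψ p) = ((abCard A : ℤ) - 1) * g (F.m ψ) +
      (if ψ ∈ F.fam then (en A : ℤ) else 0) * (g (F.m ψ + F.eps) - g (F.m ψ)) := by
  have hterm : ∀ p ∈ linC A, g (mult A ψ p) =
      g (F.m ψ) + if ψ = F.f p then g (F.m ψ + F.eps) - g (F.m ψ) else 0 := fun p hp => by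
    rw [F.mult_eq ψ hψ p hp]
    split_ifs <;> simp
  rw [sum_congr rfl hterm, sum_add_distrib, sum_const, nsmul_eq_mul, ← sum_filter, sum_const,
    nsmul_eq_mul]
  congr 1
  · rw [show (abCard A : ℤ) = ((linC A).card : ℤ) + 1 by exact_mod_cast card_linC (A := A).symm]
    ring
  · congr 1
    split_ifs with h
    · obtain ⟨p, hp, rfl⟩ := mem_image.1 h
      exact_mod_cast congrArg (Nat.cast (R := ℤ)) (F.card_fibre hA hp)
    · rw [filter_eq_empty_iff.2 fun p hp e => h (mem_image.2 ⟨p, hp, e.symm⟩)]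
      rfl

theorem dd_one : F.dd (fun _ => 1) = 1 := by
  obtain ⟨p, hp⟩ : (linC A).Nonempty := card_pos.1 (by
    have := card_linC (A := A)
    have := hA.one_lt_abCard
    omega)
  have h := F.mult_eq _ one_mem_irr p hp
  rw [mult_one (linC_irr hp), if_neg (mem_erase.1 hp).1,
    if_neg fun e => F.ne_one p hp e.symm, add_zero] at h
  rw [dd, mult_one one_mem_irr, if_pos rfl, ← h, sub_zero]

/-- **`dd` is invariant under complex conjugation.** -/
theorem dd_inv (hodd : Odd (Nat.card G)) {ψ : G → ℂ} (hψ : ψ ∈ irr G) :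
    F.dd (fun x => ψ x⁻¹) = F.dd ψ := by
  have h1 : mult A (fun x => ψ x⁻¹) (fun _ => 1) = mult A ψ (fun _ => 1) :=
    mult_inv hψ one_mem_irr
  have hinvol : ∀ p ∈ linC A, (fun x => p x⁻¹) ∈ linC A := fun p hp => by
    refine mem_erase.2 ⟨fun e => (mem_erase.1 hp).1 (funext fun x => ?_),
      inv_mem_allLin (mem_erase.1 hp).2⟩
    simpa using congrFun e x⁻¹
  have hsum : ∑ p ∈ linC A, mult A (fun x => ψ x⁻¹) p = ∑ p ∈ linC A, mult A ψ p :=
    sum_nbij' (fun p x => p x⁻¹) (fun p x => p x⁻¹) hinvol hinvol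
      (fun p _ => funext fun x => by simp) (fun p _ => funext fun x => by simp) fun p hp => by
        rw [← mult_inv hψ (inv_mem_irr (linC_irr hp))]
        simp
  have s1 := F.sum_linC hA (inv_mem_irr hψ) id
  have s2 := F.sum_linC hA hψ id
  simp only [id] at s1 s2
  rw [s1, s2] at hsum
  have hw : (abCard A : ℤ) - 1 = F.fam.card * en A := by
    rw [← F.card_fam_mul hA]; push_cast; ring
  have hw2 : (2 : ℤ) ≤ F.fam.card := by exact_mod_cast F.two_le_card hA hodd
  have he : (en A : ℤ) ≠ 0 := fun e => by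
    have := F.card_fam_mul hA
    rw [Int.natCast_eq_zero.1 e, mul_zero, zero_add] at this
    exact hA.one_lt_abCard.ne this
  rw [hw] at hsum
  set k := F.m (fun x => ψ x⁻¹) - F.m ψ with hk
  set r : ℤ := (if ψ ∈ F.fam then 1 else 0) - (if (fun x => ψ x⁻¹) ∈ F.fam then 1 else 0) with hr
  have h2 : (F.fam.card : ℤ) * k = F.eps * r := by
    refine mul_left_cancel₀ he ?_
    rw [hk, hr]
    split_ifs at hsum ⊢ <;> linear_combination hsum
  have h3 : -1 ≤ F.eps * r ∧ F.eps * r ≤ 1 := by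
    rw [hr]
    rcases F.eps_eq with h | h <;> rw [h] <;> constructor <;> split_ifs <;> norm_num
  have hk0 : k = 0 := by
    rcases lt_trichotomy k 0 with hneg | h0 | hpos
    · nlinarith
    · exact h0
    · nlinarith
  rw [dd, dd, h1]
  linarith

/-- `dd` is constant on the family. -/
theorem dd_fam {p q : A → ℂ} (hp : p ∈ linC A) (hq : q ∈ linC A) :
    F.dd (F.f p) = F.dd (F.f q) := by
  rcases eq_or_ne (F.f p) (F.f q) with h | h
  · rw [h]
  have e := hA.gram_one hp hp hq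
  rw [sum_congr rfl fun ψ hψ => by
    rw [show mult A ψ (fun _ => 1) - mult A ψ p = F.dd ψ - if ψ = F.f p then F.eps else 0 by
        rw [dd, F.mult_eq ψ hψ p hp]; ring,
      show mult A ψ p - mult A ψ q = pm (F.f p) (F.f q) ψ * F.eps by
        rw [F.mult_eq ψ hψ p hp, F.mult_eq ψ hψ q hq, pm]; split_ifs <;> ring,
      mul_comm, mul_assoc], sum_pm_mul (F.mem p hp) (F.mem q hq), if_pos rfl, if_neg h.symm,
    ind, ind, if_pos (FA.SuzukiCA.Rel.refl p), if_neg fun r => h ((F.fibre p hp q hq).2 r),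
    sub_zero] at e
  have := F.eps_sq
  rcases F.eps_eq with h1 | h1 <;> rw [h1] at e <;> linarith

/-- **The column bound.** -/
theorem sum_dd_sq_le (hodd : Odd (Nat.card G)) {S : Finset (G → ℂ)} (hS : S ⊆ irr G)
    (h1 : (fun _ => 1) ∉ S) (h2 : Disjoint S F.fam) {p : A → ℂ} (hp : p ∈ linC A) :
    ∑ ψ ∈ S, F.dd ψ ^ 2 + (F.dd (F.f p) - F.eps) ^ 2 + F.dd (F.f p) ^ 2 ≤ en A := by
  obtain ⟨q, hq, hpq⟩ : ∃ q ∈ linC A, ¬ Rel p q := by
    obtain ⟨χ, hχ, hne⟩ := exists_mem_ne (F.two_le_card hA hodd) (F.f p)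
    obtain ⟨q, hq, rfl⟩ := mem_image.1 hχ
    exact ⟨q, hq, fun h => hne ((F.fibre p hp q hq).2 h).symm⟩
  have hne : F.f p ≠ F.f q := fun e => hpq ((F.fibre p hp q hq).1 e)
  have e := hA.gram_one_one hp
  rw [sum_congr rfl fun ψ hψ => by
    rw [show mult A ψ (fun _ => 1) - mult A ψ p = F.dd ψ - if ψ = F.f p then F.eps else 0 by
      rw [dd, F.mult_eq ψ hψ p hp]; ring]] at e
  set g : (G → ℂ) → ℤ := fun ψ => (F.dd ψ - if ψ = F.f p then F.eps else 0) ^ 2
  have hnot : ∀ ψ ∈ S, ψ ≠ F.f p ∧ ψ ≠ F.f q := fun ψ hψ =>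
    ⟨fun h => disjoint_left.1 h2 hψ (h ▸ mem_image_of_mem _ hp),
      fun h => disjoint_left.1 h2 hψ (h ▸ mem_image_of_mem _ hq)⟩
  have hle : ∑ ψ ∈ insert (fun _ => 1) (insert (F.f p) (insert (F.f q) S)), g ψ ≤
      ∑ ψ ∈ irr G, g ψ := by
    refine sum_le_sum_of_subset_of_nonneg ?_ fun ψ _ _ => sq_nonneg _
    exact insert_subset one_mem_irr (insert_subset (F.mem p hp) (insert_subset (F.mem q hq) hS))
  rw [sum_insert, sum_insert, sum_insert fun h => (hnot _ h).2 rfl,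
    sum_congr rfl fun ψ hψ => show g ψ = F.dd ψ ^ 2 by simp [g, (hnot ψ hψ).1],
    show g (fun _ => 1) = 1 by simp [g, (F.ne_one p hp).symm, F.dd_one hA],
    show g (F.f p) = (F.dd (F.f p) - F.eps) ^ 2 by simp [g],
    show g (F.f q) = F.dd (F.f p) ^ 2 by simp [g, hne.symm, F.dd_fam hA hp hq], e] at hle
  · linarith
  · simp only [mem_insert, not_or]
    exact ⟨hne, fun h => (hnot _ h).1 rfl⟩
  · simp only [mem_insert, not_or]
    exact ⟨(F.ne_one p hp).symm, (F.ne_one q hq).symm, h1⟩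

variable (F' : Exc B) (hB : Frame B) (hAB : Sep A B)

include hB hAB

theorem disjoint_fam (hodd : Odd (Nat.card G)) : Disjoint F.fam F'.fam := by
  rw [disjoint_left]
  intro χ h h'
  obtain ⟨p, hp, rfl⟩ := mem_image.1 h
  obtain ⟨q, hq, he⟩ := mem_image.1 h'
  obtain ⟨p', hp', hpp'⟩ : ∃ p' ∈ linC A, F.f p' ≠ F.f p := by
    obtain ⟨χ, hχ, hne⟩ := exists_mem_ne (F.two_le_card hA hodd) (F.f p)
    obtain ⟨p', hp', rfl⟩ := mem_image.1 hχ
    exact ⟨p', hp', hne⟩
  obtain ⟨q', hq', hqq'⟩ : ∃ q' ∈ linC B, F'.f q' ≠ F'.f q := by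
    obtain ⟨χ, hχ, hne⟩ := exists_mem_ne (F'.two_le_card hB hodd) (F'.f q)
    obtain ⟨q', hq', rfl⟩ := mem_image.1 hχ
    exact ⟨q', hq', hne⟩
  have e := gram_sep hAB (mem_erase.1 hp).2 (mem_erase.1 hp').2 (mem_erase.1 hq).2
    (mem_erase.1 hq').2
  rw [sum_congr rfl fun ψ hψ => by
    rw [show mult A ψ p - mult A ψ p' = pm (F.f p) (F.f p') ψ * F.eps by
        rw [F.mult_eq ψ hψ p hp, F.mult_eq ψ hψ p' hp', pm]; split_ifs <;> ring,
      show mult B ψ q - mult B ψ q' = pm (F'.f q) (F'.f q') ψ * F'.eps by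
        rw [F'.mult_eq ψ hψ q hq, F'.mult_eq ψ hψ q' hq', pm]; split_ifs <;> ring,
      mul_assoc], sum_pm_mul (F.mem p hp) (F.mem p' hp'), he] at e
  simp only [pm, if_true, if_neg hpp'] at e
  rw [if_neg (he ▸ hqq').symm] at e
  rcases F.eps_eq with h1 | h1 <;> rcases F'.eps_eq with h2 | h2 <;> rw [h1, h2] at e <;>
    split_ifs at e <;> omega

/-- `dd` is constant on another family. -/
theorem dd_other (hodd : Odd (Nat.card G)) {q q' : B → ℂ} (hq : q ∈ linC B) (hq' : q' ∈ linC B) :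
    F.dd (F'.f q) = F.dd (F'.f q') := by
  obtain ⟨p, hp, -⟩ := hA.exists_not_rel hodd
  have hd := F.disjoint_fam hA F' hB hAB hodd
  have hn : ∀ r ∈ linC B, F'.f r ≠ F.f p := fun r hr h =>
    disjoint_left.1 hd (mem_image_of_mem _ hp) (h ▸ mem_image_of_mem F'.f hr)
  have e := gram_sep hAB one_mem_allLin (mem_erase.1 hp).2 (mem_erase.1 hq).2
    (mem_erase.1 hq').2
  rw [sum_congr rfl fun ψ hψ => by
    rw [show mult A ψ (fun _ => 1) - mult A ψ p = F.dd ψ - if ψ = F.f p then F.eps else 0 by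
        rw [dd, F.mult_eq ψ hψ p hp]; ring,
      show mult B ψ q - mult B ψ q' = pm (F'.f q) (F'.f q') ψ * F'.eps by
        rw [F'.mult_eq ψ hψ q hq, F'.mult_eq ψ hψ q' hq', pm]; split_ifs <;> ring,
      mul_comm, mul_assoc], sum_pm_mul (F'.mem q hq) (F'.mem q' hq'), if_neg (hn q hq),
    if_neg (hn q' hq'), sub_zero, sub_zero] at e
  rcases F'.eps_eq with h | h <;> rw [h] at e <;> linarith


/-- **The parity relation.** -/
theorem odd_dd_add (hodd : Odd (Nat.card G)) {p : A → ℂ} (hp : p ∈ linC A) {q : B → ℂ}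
    (hq : q ∈ linC B) : Odd (F.dd (F'.f q) + F'.dd (F.f p)) := by
  have hd := F.disjoint_fam hA F' hB hAB hodd
  have hne : F.f p ≠ F'.f q := fun h => disjoint_left.1 hd (mem_image_of_mem _ hp)
    (h ▸ mem_image_of_mem F'.f hq)
  have e := gram_sep hAB one_mem_allLin (mem_erase.1 hp).2 one_mem_allLin (mem_erase.1 hq).2
  rw [sum_congr rfl fun ψ hψ => by
    rw [show mult A ψ (fun _ => 1) - mult A ψ p = F.dd ψ - if ψ = F.f p then F.eps else 0 by
        rw [dd, F.mult_eq ψ hψ p hp]; ring,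
      show mult B ψ (fun _ => 1) - mult B ψ q = F'.dd ψ - if ψ = F'.f q then F'.eps else 0 by
        rw [dd, F'.mult_eq ψ hψ q hq]; ring]] at e
  rw [sum_congr rfl fun ψ _ => show _ = F.dd ψ * F'.dd ψ -
      ((if ψ = F.f p then F.eps * F'.dd ψ else 0) + if ψ = F'.f q then F'.eps * F.dd ψ else 0) by
    rcases eq_or_ne ψ (F.f p) with h | h
    · have h' : ψ ≠ F'.f q := fun h' => hne (h.symm.trans h')
      rw [if_pos h, if_pos h, if_neg h', if_neg h']
      ring
    · rw [if_neg h, if_neg h]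
      split_ifs <;> ring, sum_sub_distrib, sum_add_distrib, sum_ite_eq', sum_ite_eq',
    if_pos (F.mem p hp), if_pos (F'.mem q hq), ← add_sum_erase _ _ (one_mem_irr (G := G)),
    F.dd_one hA, F'.dd_one hB, one_mul] at e
  have hz : ∑ ψ ∈ (irr G).erase (fun _ => 1), ((F.dd ψ * F'.dd ψ : ℤ) : ZMod 2) = 0 := by
    refine sum_involution (fun ψ _ => fun x => ψ x⁻¹) (fun ψ hψ => ?_) (fun ψ hψ _ heq => ?_)
      (fun ψ hψ => ?_) fun ψ _ => funext fun x => by simp
    · rw [F.dd_inv hA hodd (mem_erase.1 hψ).2, F'.dd_inv hB hodd (mem_erase.1 hψ).2]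
      exact CharTwo.add_self_eq_zero _
    · exact (mem_erase.1 hψ).1
        (eq_one_of_inv_eq hodd (mem_erase.1 hψ).2 fun x => congrFun heq x)
    · refine mem_erase.2 ⟨fun e => (mem_erase.1 hψ).1 (funext fun x => ?_),
        inv_mem_irr (mem_erase.1 hψ).2⟩
      simpa using congrFun e x⁻¹
  rw [← Int.cast_sum] at hz
  obtain ⟨k, hk⟩ := (ZMod.intCast_zmod_eq_zero_iff_dvd _ 2).1 hz
  push_cast at hk
  rw [hk] at e
  rcases F.eps_eq with h1 | h1 <;> rcases F'.eps_eq with h2 | h2 <;> rw [h1, h2] at e <;>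
    rw [Int.odd_iff] <;> omega

omit hB hAB

/-- The sum of the linear multiplicities and of their squares. -/
theorem sum_allLin_mult {ψ : G → ℂ} (hψ : ψ ∈ irr G) :
    (∑ p ∈ allLin A, mult A ψ p = (abCard A : ℤ) * F.m ψ + F.dd ψ +
      (if ψ ∈ F.fam then (en A : ℤ) else 0) * F.eps) ∧
    (abCard A : ℤ) * ∑ p ∈ allLin A, mult A ψ p ^ 2 - (∑ p ∈ allLin A, mult A ψ p) ^ 2 =
      if ψ ∈ F.fam then (abCard A : ℤ) * (F.dd ψ ^ 2 + en A) - (F.dd ψ + F.eps * en A) ^ 2
      else ((abCard A : ℤ) - 1) * F.dd ψ ^ 2 := by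
  rw [← add_sum_erase _ _ (one_mem_allLin (A := A)), ← add_sum_erase _ _ (one_mem_allLin (A := A)),
    ← linC, F.sum_linC hA hψ (· ^ 2), show ∑ p ∈ linC A, mult A ψ p = _ from F.sum_linC hA hψ id,
    dd]
  simp only [id]
  refine ⟨by ring, ?_⟩
  have := F.eps_sq
  split_ifs
  · linear_combination (abCard A : ℤ) * (en A : ℤ) * this
  · ring

end Exc

end FA.CNGroups

end
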