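import Fermat.Agent.CNGroups.Structure
import Fermat.Agent.SuzukiCA.Basic

/-!
# The frames of a simple CN-group

The properties of the maximal nilpotent subgroups used with characters: trivial intersections, a
set of representatives of their classes, and the fixed-point-free action of the normaliser on the
abelianisation.
-/

set_option autoImplicit false
set_option linter.style.haveILetI false

noncomputable section

namespace FA.CNGroups

open Subgroup
open FA.SuzukiCA (Cj en conj_mem_of_normalizer index_mul_en_mul_card en_mul_card)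

variable {G : Type*} [Group G]

/-- A nilpotent TI Hall subgroup, containing centralisers and proper in its normaliser. -/
structure Frame (A : Subgroup G) : Prop where
  ne_bot : A ≠ ⊥
  nilp : Group.IsNilpotent A
  cent : ∀ y ∈ A, y ≠ 1 → centralizer ({y} : Set G) ≤ A
  ti : ∀ g x : G, x ∈ A → x ≠ 1 → g * x * g⁻¹ ∈ A → g ∈ normalizer (A : Set G)
  coprime : (Nat.card A).Coprime A.index
  proper : ¬ normalizer (A : Set G) ≤ A

/-- No nontrivial element of `A` is conjugate into `B`. -/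
def Sep (A B : Subgroup G) : Prop := ∀ g x : G, x ∈ A → x ≠ 1 → g * x * g⁻¹ ∉ B

/-- Conjugation by an element of the normaliser. -/
def conjHom {A : Subgroup G} (n : normalizer (A : Set G)) : A →* A where
  toFun x := ⟨n * x * (n : G)⁻¹, conj_mem_of_normalizer n.2 x.2⟩
  map_one' := Subtype.ext (by simp)
  map_mul' x y := Subtype.ext (by push_cast; group)

variable [Finite G]

/-- Maximal nilpotent subgroups are frames. -/
theorem MaxNil.frame [IsSimpleGroup G] (hodd : Odd (Nat.card G)) (hG : IsCN G)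
    (hns : ¬ Group.IsSolvable G) (hprop : ∀ H : Subgroup G, H ≠ ⊤ → Group.IsSolvable H)
    {M : Subgroup G} (hM : MaxNil M) : Frame M := by
  refine ⟨hM.ne_bot, hM.nilp, fun y hy hy1 => hM.centralizer_le hodd hG hns hprop hy hy1,
    fun g x hx hx1 hg => mem_normalizer_iff_map_conj_eq.2 ?_, hM.coprime_index hG,
    fun h => (hM.lt_normalizer hodd hG hns hprop).not_ge h⟩
  exact (hM.conj g).eq_of_mem hodd hG hns hprop hM
    (fun e => hx1 ((MulAut.conj g).injective (e.trans (map_one _).symm))) ⟨x, hx, rfl⟩ hg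

open scoped Classical in
/-- **Representatives** of the maximal nilpotent subgroups. -/
theorem exists_frames [IsSimpleGroup G] [Fintype G] (hodd : Odd (Nat.card G)) (hG : IsCN G)
    (hns : ¬ Group.IsSolvable G) (hprop : ∀ H : Subgroup G, H ≠ ⊤ → Group.IsSolvable H) :
    ∃ R : Finset (Subgroup G), (∀ B ∈ R, Frame B) ∧
      ∀ y : G, y ≠ 1 → ∃! B, B ∈ R ∧ ∃ c : G, c * y * c⁻¹ ∈ B := by
  haveI := Fintype.ofFinite (Subgroup G)
  let s : Setoid (Subgroup G) :=
    ⟨Cj, ⟨FA.SuzukiCA.Cj.refl, FA.SuzukiCA.Cj.symm, FA.SuzukiCA.Cj.trans⟩⟩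
  set rep : Subgroup G → Subgroup G := fun M => (Quotient.mk s M).out
  have hrep : ∀ M, Cj (rep M) M := fun M => Quotient.exact (Quotient.out_eq (Quotient.mk s M))
  have hrep' : ∀ M M', Cj M M' → rep M = rep M' := fun M M' hMM' =>
    congrArg Quotient.out (Quotient.sound hMM')
  choose M hxM hM using fun x : G => exists_maxNil x
  have hcj : ∀ (B : Subgroup G) (N : Subgroup G) (c : G), (∀ x, x ∈ N ↔ c * x * c⁻¹ ∈ B) →
      N.map (MulAut.conj c).toMonoidHom = B := fun B N c h => Subgroup.ext fun x => by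
    constructor
    · rintro ⟨y, hy, rfl⟩
      exact (h y).1 hy
    · intro hx
      exact ⟨c⁻¹ * x * c, (h _).2 (by rwa [show c * (c⁻¹ * x * c) * c⁻¹ = x by group]),
        by simp [mul_assoc]⟩
  have hmax : ∀ x : G, MaxNil (rep (M x)) := fun x => by
    obtain ⟨c, hc⟩ := hrep (M x)
    exact hcj _ _ c hc ▸ (hM x).conj c
  refine ⟨((Finset.univ : Finset G).filter (· ≠ 1)).image fun x => rep (M x), fun B hB => ?_,
    fun y hy => ⟨rep (M y), ⟨Finset.mem_image.2 ⟨y, by simp [hy], rfl⟩, ?_⟩, ?_⟩⟩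
  · obtain ⟨x, -, rfl⟩ := Finset.mem_image.1 hB
    exact (hmax x).frame hodd hG hns hprop
  · obtain ⟨c, hc⟩ := hrep (M y)
    exact ⟨c, (hc y).1 (hxM y)⟩
  · rintro B ⟨hB, c, hc⟩
    obtain ⟨x, -, rfl⟩ := Finset.mem_image.1 hB
    have h1 : (M y).map (MulAut.conj c).toMonoidHom = rep (M x) :=
      ((hM y).conj c).eq_of_mem hodd hG hns hprop (hmax x)
        (fun e => hy (conj_eq_one_iff.1 e)) ⟨y, hxM y, rfl⟩ hc
    refine hrep' _ _ ((hrep (M x)).symm.trans ⟨c, fun z => ?_⟩)
    rw [← h1]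
    exact (mem_map_iff_mem (f := (MulAut.conj c).toMonoidHom) (MulAut.conj c).injective).symm

variable {A B : Subgroup G}

omit [Finite G] in
/-- Distinct representatives are separated. -/
theorem sep_of_unique {R : Finset (Subgroup G)}
    (hcov : ∀ y : G, y ≠ 1 → ∃! B, B ∈ R ∧ ∃ c : G, c * y * c⁻¹ ∈ B) (hA : A ∈ R) (hB : B ∈ R)
    (hne : A ≠ B) : Sep A B := fun g x hx hx1 hg =>
  hne ((hcov x hx1).unique ⟨hA, 1, by simpa using hx⟩ ⟨hB, g, hg⟩)

omit [Finite G] in
theorem Frame.conj_set (hA : Frame A) {x c : G} (hx : x ≠ 1) (hc : c * x * c⁻¹ ∈ A) (g : G) :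
    g * x * g⁻¹ ∈ A ↔ g * c⁻¹ ∈ normalizer (A : Set G) := by
  constructor
  · intro h
    refine hA.ti _ _ hc (fun e => hx (conj_eq_one_iff.1 e)) ?_
    rwa [show g * c⁻¹ * (c * x * c⁻¹) * (g * c⁻¹)⁻¹ = g * x * g⁻¹ by group]
  · intro h
    have := conj_mem_of_normalizer h hc
    rwa [show g * c⁻¹ * (c * x * c⁻¹) * (g * c⁻¹)⁻¹ = g * x * g⁻¹ by group] at this

open scoped Classical in
/-- **Summing a class function** over the nontrivial elements. -/
theorem sum_ne_one [Fintype G] {R : Finset (Subgroup G)} (hR : ∀ B ∈ R, Frame B)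
    (hcov : ∀ y : G, y ≠ 1 → ∃! B, B ∈ R ∧ ∃ c : G, c * y * c⁻¹ ∈ B) (F : G → ℂ)
    (hF : ∀ g x, F (g * x * g⁻¹) = F x) :
    ∑ y ∈ (Finset.univ : Finset G).erase 1, F y =
      ∑ B ∈ R, ((normalizer (B : Set G)).index : ℂ) *
        ∑ x ∈ (Finset.univ : Finset G).filter (fun x => x ∈ B ∧ x ≠ 1), F x := by
  set U : Subgroup G → Finset G := fun B =>
    (Finset.univ : Finset G).filter fun y => y ≠ 1 ∧ ∃ c : G, c * y * c⁻¹ ∈ B
  have hd : Set.PairwiseDisjoint (↑R) U := fun B hB B' hB' hne => Finset.disjoint_left.2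
    fun y hy hy' => hne ((hcov y (Finset.mem_filter.1 hy).2.1).unique
      ⟨hB, (Finset.mem_filter.1 hy).2.2⟩ ⟨hB', (Finset.mem_filter.1 hy').2.2⟩)
  have hU : (Finset.univ : Finset G).erase 1 = R.biUnion U := by
    ext y
    simp only [Finset.mem_erase, Finset.mem_univ, and_true, Finset.mem_biUnion, U,
      Finset.mem_filter, true_and]
    exact ⟨fun hy => (hcov y hy).exists.imp fun B hB => ⟨hB.1, hy, hB.2⟩,
      fun ⟨_, _, hy, _⟩ => hy⟩
  rw [hU, Finset.sum_biUnion hd]
  refine Finset.sum_congr rfl fun B hB => ?_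
  set N := normalizer (B : Set G)
  have hN : (Nat.card N : ℂ) ≠ 0 := Nat.cast_ne_zero.2 Nat.card_pos.ne'
  refine mul_left_cancel₀ hN ?_
  rw [← mul_assoc, ← Nat.cast_mul, mul_comm (Nat.card N), index_mul_card]
  -- count the pairs `(g, x)` through `y = g⁻¹ x g`
  calc (Nat.card N : ℂ) * ∑ y ∈ U B, F y
      = ∑ y ∈ U B, ∑ _g ∈ (Finset.univ : Finset G).filter (fun g => g * y * g⁻¹ ∈ B), F y := by
        rw [Finset.mul_sum]
        refine Finset.sum_congr rfl fun y hy => ?_
        obtain ⟨hy1, c, hc⟩ := (Finset.mem_filter.1 hy).2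
        rw [Finset.sum_const, nsmul_eq_mul]
        congr 2
        rw [← Fintype.card_subtype, ← Nat.card_eq_fintype_card]
        exact Nat.card_congr
          { toFun := fun n => ⟨n * c, ((hR B hB).conj_set hy1 hc _).2 (by simp)⟩
            invFun := fun g => ⟨g * c⁻¹, ((hR B hB).conj_set hy1 hc _).1 g.2⟩
            left_inv := fun n => Subtype.ext (mul_inv_cancel_right _ _)
            right_inv := fun g => Subtype.ext (inv_mul_cancel_right _ _) }
    _ = ∑ g : G, ∑ y ∈ (U B).filter (fun y => g * y * g⁻¹ ∈ B), F y := by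
        simp only [Finset.sum_filter]
        exact Finset.sum_comm
    _ = ∑ _g : G, ∑ x ∈ (Finset.univ : Finset G).filter (fun x => x ∈ B ∧ x ≠ 1), F x := by
        refine Finset.sum_congr rfl fun g _ => Finset.sum_nbij' (fun y => g * y * g⁻¹)
          (fun x => g⁻¹ * x * g) (fun y hy => ?_) (fun x hx => ?_) (fun y _ => by group)
          (fun x _ => by group) fun y _ => (hF g y).symm
        · obtain ⟨hy, hgy⟩ := Finset.mem_filter.1 hy
          refine Finset.mem_filter.2 ⟨Finset.mem_univ _, hgy, fun e => ?_⟩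
          exact (Finset.mem_filter.1 hy).2.1 (conj_eq_one_iff.1 e)
        · obtain ⟨hxB, hx1⟩ := (Finset.mem_filter.1 hx).2
          have he : g * (g⁻¹ * x * g) * g⁻¹ = x := by group
          refine Finset.mem_filter.2 ⟨Finset.mem_filter.2 ⟨Finset.mem_univ _, fun e => hx1 ?_, g,
            he.symm ▸ hxB⟩, he.symm ▸ hxB⟩
          rw [← he, e, mul_one, mul_inv_cancel]
    _ = (Nat.card G : ℂ) * _ := by
        rw [Finset.sum_const, Finset.card_univ, nsmul_eq_mul, Nat.card_eq_fintype_card]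

omit [Finite G] in
theorem odd_card_frame (hodd : Odd (Nat.card G)) : Odd (Nat.card A) :=
  hodd.of_dvd_nat A.card_subgroup_dvd_card

omit [Finite G] in
theorem odd_en (hodd : Odd (Nat.card G)) : Odd (en A) :=
  hodd.of_dvd_nat (Dvd.intro_left _ (by rw [← index_mul_en_mul_card (A := A)]; ring :
    (normalizer (A : Set G)).index * Nat.card A * en A = Nat.card G))

omit [Finite G] in
theorem Frame.three_le_en (hA : Frame A) (hodd : Odd (Nat.card G)) : 3 ≤ en A := by
  obtain ⟨j, hj⟩ := odd_en (A := A) hodd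
  have h1 : en A ≠ 1 := fun h => hA.proper (relIndex_eq_one.1 h)
  omega

/-- A power of prime order prime to `|A|`, outside `A`. -/
theorem Frame.exists_prime_power (hA : Frame A) {n : G} (hn : n ∈ normalizer (A : Set G))
    (hnA : n ∉ A) : ∃ (r k : ℕ), r.Prime ∧ ¬ r ∣ Nat.card A ∧ orderOf (n ^ k) = r := by
  set N := normalizer (A : Set G)
  haveI : (A.subgroupOf N).Normal := (normal_subgroupOf_iff_le_normalizer le_normalizer).2 le_rfl
  set q : N ⧸ A.subgroupOf N := ((⟨n, hn⟩ : N) : N ⧸ A.subgroupOf N)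
  have hq : orderOf q ≠ 1 := fun h => hnA (by
    rw [orderOf_eq_one_iff, QuotientGroup.eq_one_iff] at h
    exact h)
  obtain ⟨r, hr, hrq⟩ := Nat.exists_prime_and_dvd hq
  have h1 : r ∣ A.index := hrq.trans ((orderOf_dvd_natCard q).trans
    (Subgroup.relIndex_dvd_index_of_le le_normalizer))
  have h2 : r ∣ orderOf n := hrq.trans ((orderOf_map_dvd (QuotientGroup.mk' _) (⟨n, hn⟩ : N)).trans
    (orderOf_mk n hn).dvd)
  refine ⟨r, orderOf n / r, hr, fun h => ?_, ?_⟩
  · exact hr.ne_one (Nat.eq_one_of_dvd_coprimes hA.coprime h h1)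
  · rw [orderOf_pow_orderOf_div (orderOf_pos n).ne' h2]

/-- **The normaliser acts without fixed points on the abelianisation.** -/
theorem Frame.mem_commutator_of_fix (hA : Frame A) (n : normalizer (A : Set G))
    (hn : (n : G) ∉ A) {x : A} (h : conjHom n x * x⁻¹ ∈ commutator A) : x ∈ commutator A := by
  by_contra hx
  obtain ⟨r, k, hr, hrA, hm⟩ := hA.exists_prime_power n.2 hn
  haveI : Fact r.Prime := ⟨hr⟩
  set X : Set A := {y | y * x⁻¹ ∈ commutator A}
  have hfix : ∀ y ∈ X, conjHom n y ∈ X := fun y hy => by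
    show conjHom n y * x⁻¹ ∈ commutator A
    have h1 : conjHom n y * x⁻¹ = conjHom n (y * x⁻¹) * (conjHom n x * x⁻¹) := by
      rw [map_mul, map_inv]; group
    rw [h1]
    refine mul_mem ?_ h
    have h2 : conjHom n (y * x⁻¹) ∈ (commutator A).map (conjHom n) :=
      mem_map_of_mem (conjHom n) (show y * x⁻¹ ∈ commutator A from hy)
    rw [_root_.commutator_def, map_commutator] at h2
    rw [_root_.commutator_def]
    exact commutator_mono le_top le_top h2
  have hpow : ∀ (j : ℕ) (y : A), y ∈ X →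
      ∃ y' ∈ X, (y' : G) = (n : G) ^ j * y * ((n : G) ^ j)⁻¹ := by
    intro j
    induction j with
    | zero => exact fun y hy => ⟨y, hy, by simp⟩
    | succ j ih =>
      intro y hy
      obtain ⟨y', hy', he⟩ := ih y hy
      exact ⟨conjHom n y', hfix y' hy', by
        show (n : G) * y' * (n : G)⁻¹ = _
        rw [he, pow_succ']; group⟩
  set m := (n : G) ^ k
  have hZ : IsPGroup r (zpowers m) := IsPGroup.of_card (n := 1) (by
    rw [Nat.card_zpowers, hm, pow_one])
  let Y : Set G := Subtype.val '' X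
  have hY : ∀ g ∈ zpowers m, ∀ y ∈ Y, g * y * g⁻¹ ∈ Y := by
    intro g hg y hy
    obtain ⟨i, rfl⟩ := (Submonoid.mem_powers_iff _ _).1 (mem_powers_iff_mem_zpowers.2 hg)
    obtain ⟨y, hy, rfl⟩ := hy
    obtain ⟨y', hy', he⟩ := hpow (k * i) y hy
    exact ⟨y', hy', by rw [he, pow_mul]⟩
  letI : MulAction (zpowers m) Y :=
    { smul := fun g y => ⟨g * y * (g : G)⁻¹, hY g g.2 y y.2⟩
      one_smul := fun y => Subtype.ext (show ((1 : zpowers m) : G) * y * ((1 : zpowers m) : G)⁻¹ = y
        by simp)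
      mul_smul := fun g g' y => Subtype.ext (show ((g * g' : zpowers m) : G) * y *
          ((g * g' : zpowers m) : G)⁻¹ = g * (g' * y * (g' : G)⁻¹) * (g : G)⁻¹ by
            push_cast; group) }
  have hmA : m ∉ A := fun h => hrA (hm ▸ A.orderOf_dvd_natCard h)
  haveI : IsEmpty (MulAction.fixedPoints (zpowers m) Y) := ⟨fun ⟨⟨y, hy⟩, hfp⟩ => by
    obtain ⟨y, hyX, rfl⟩ := hy
    have h1 : m * y * m⁻¹ = y := congrArg Subtype.val (hfp ⟨m, mem_zpowers m⟩)
    have hy1 : (y : G) ≠ 1 := fun e => hx (by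
      have h2 : y * x⁻¹ ∈ commutator A := hyX
      rw [show y = 1 from Subtype.ext e, one_mul] at h2
      exact inv_mem_iff.1 h2)
    exact hmA (hA.cent _ y.2 hy1 (mem_centralizer_singleton_iff.2
      (mul_inv_eq_iff_eq_mul.1 h1)))⟩
  have hmod := hZ.card_modEq_card_fixedPoints Y
  rw [Nat.card_of_isEmpty (α := MulAction.fixedPoints (zpowers m) Y),
    Nat.modEq_zero_iff_dvd] at hmod
  have hcard : Nat.card Y = Nat.card (commutator A) :=
    (Nat.card_image_of_injective Subtype.val_injective X).trans (Nat.card_congr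
      { toFun := fun y => ⟨(y : A) * x⁻¹, y.2⟩
        invFun := fun c => ⟨(c : A) * x, show (c : A) * x * x⁻¹ ∈ _ by
          rw [mul_inv_cancel_right]; exact c.2⟩
        left_inv := fun y => Subtype.ext (inv_mul_cancel_right _ _)
        right_inv := fun c => Subtype.ext (mul_inv_cancel_right _ _) })
  exact hrA ((hcard ▸ hmod).trans (commutator A).card_subgroup_dvd_card)

end FA.CNGroups
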