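import Fermat.Agent.CNGroups.Frames
import Fermat.Agent.SuzukiCA.Induced
import Mathlib.GroupTheory.FiniteAbelian.Duality

/-!
# Functions induced from differences of linear characters of a frame

The linear characters of a frame `A` are those of its abelianisation, the normaliser acts on the
nontrivial ones with stabiliser `A`, and the inner products of the induced differences are counted
by the orbits.
-/

set_option autoImplicit false
set_option linter.style.haveILetI false

noncomputable section

open Finset FA.FrobeniusGroups FA.CharacterTheory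
open FA.SuzukiCA (res mult mult_spec mult_one mult_inv tw tw_mul tw_one tw_const tw_eq_iff Rel ind
  ind_comm avg avg_sub avg_one_one en en_mul_card hom_mem_irr induced_conj induced_one gram_cast
  coeff conj_mem_of_normalizer pairing_sub_right)
open scoped Classical

namespace FA.CNGroups

variable {G : Type*} [Group G] [Fintype G] {A B : Subgroup G}

/-- The linear characters. -/
def allLin (A : Subgroup G) : Finset (A → ℂ) :=
  (irr A).filter fun p => ∃ ψ : A →* ℂˣ, (fun x => (ψ x : ℂ)) = p

/-- The nontrivial linear characters. -/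
def linC (A : Subgroup G) : Finset (A → ℂ) := (allLin A).erase fun _ => 1

/-- The order of the abelianisation. -/
def abCard (A : Subgroup G) : ℕ := Nat.card (Abelianization A)

theorem mem_allLin (ψ : A →* ℂˣ) : (fun x => (ψ x : ℂ)) ∈ allLin A :=
  mem_filter.2 ⟨hom_mem_irr ψ, ψ, rfl⟩

theorem one_mem_allLin : (fun _ => (1 : ℂ)) ∈ allLin A := by
  simpa using mem_allLin (1 : A →* ℂˣ)

theorem allLin_irr {p : A → ℂ} (hp : p ∈ allLin A) : p ∈ irr A := (mem_filter.1 hp).1

theorem linC_irr {p : A → ℂ} (hp : p ∈ linC A) : p ∈ irr A :=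
  allLin_irr (mem_erase.1 hp).2

theorem allLin_one {p : A → ℂ} (hp : p ∈ allLin A) : p 1 = 1 := by
  obtain ⟨ψ, rfl⟩ := (mem_filter.1 hp).2
  simp

theorem card_allLin : (allLin A).card = abCard A := by
  obtain ⟨e⟩ := CommGroup.monoidHom_mulEquiv_of_hasEnoughRootsOfUnity (Abelianization A) ℂ
  rw [abCard, ← Nat.card_congr e.toEquiv, ← Nat.card_congr Abelianization.lift,
    ← Fintype.card_coe, ← Nat.card_eq_fintype_card]
  refine (Nat.card_eq_of_bijective
    (fun ψ : A →* ℂˣ => (⟨_, mem_allLin ψ⟩ : allLin A)) ⟨fun ψ φ h => ?_, fun p => ?_⟩).symm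
  · exact MonoidHom.ext fun x => Units.ext (congrFun (congrArg Subtype.val h) x)
  · obtain ⟨ψ, hψ⟩ := (mem_filter.1 p.2).2
    exact ⟨ψ, Subtype.ext hψ⟩

theorem card_linC : (linC A).card + 1 = abCard A := by
  rw [linC, card_erase_add_one one_mem_allLin, card_allLin]

omit [Fintype G] in
theorem abCard_mul : abCard A * Nat.card (commutator A) = Nat.card A :=
  (Subgroup.card_eq_card_quotient_mul_card_subgroup (commutator A)).symm

omit [Fintype G] in
/-- A linear character outside the commutator subgroup. -/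
theorem exists_lin_ne_one [Finite G] {x : A} (hx : x ∉ commutator A) :
    ∃ ψ : A →* ℂˣ, ψ x ≠ 1 := by
  have h1 : Abelianization.of x ≠ 1 := fun h => hx (by
    rwa [← Abelianization.ker_of A, MonoidHom.mem_ker])
  obtain ⟨φ, hφ⟩ := CommGroup.exists_apply_ne_one_of_hasEnoughRootsOfUnity (Abelianization A) ℂ h1
  exact ⟨φ.comp Abelianization.of, hφ⟩

/-- **Column orthogonality** for the linear characters. -/
theorem sum_allLin (x : A) :
    ∑ p ∈ allLin A, p x = if x ∈ commutator A then (abCard A : ℂ) else 0 := by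
  split_ifs with hx
  · rw [← card_allLin, sum_congr rfl fun p hp => ?_, sum_const, nsmul_one]
    obtain ⟨ψ, rfl⟩ := (mem_filter.1 hp).2
    have h : ψ x = 1 := Abelianization.commutator_subset_ker ψ hx
    simp only [h, Units.val_one]
  · obtain ⟨ψ, hψ⟩ := exists_lin_ne_one hx
    have hinv : ∀ (φ : A →* ℂˣ), ∀ p ∈ allLin A, (fun y => (φ y : ℂ) * p y) ∈ allLin A := by
      intro φ p hp
      obtain ⟨θ, rfl⟩ := (mem_filter.1 hp).2
      have := mem_allLin (φ * θ)
      simpa using this
    have h : (ψ x : ℂ) * ∑ p ∈ allLin A, p x = ∑ p ∈ allLin A, p x := by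
      rw [mul_sum]
      refine sum_nbij' (fun p y => (ψ y : ℂ) * p y) (fun p y => (ψ⁻¹ y : ℂ) * p y)
        (hinv ψ) (hinv ψ⁻¹) (fun p _ => ?_) (fun p _ => ?_) fun p _ => rfl
      · funext y
        simp
      · funext y
        simp
    refine (mul_eq_zero.1 (show ((ψ x : ℂ) - 1) * ∑ p ∈ allLin A, p x = 0 by
      rw [sub_mul, h, one_mul, sub_self])).resolve_left (sub_ne_zero.2 fun e => hψ ?_)
    exact Units.ext e

variable (hA : Frame A)

theorem tw_mem_allLin {p : A → ℂ} (hp : p ∈ allLin A) (n : Subgroup.normalizer (A : Set G)) :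
    tw n p ∈ allLin A := by
  obtain ⟨ψ, rfl⟩ := (mem_filter.1 hp).2
  exact mem_allLin (ψ.comp (conjHom n))

theorem tw_mem_linC {p : A → ℂ} (hp : p ∈ linC A) (n : Subgroup.normalizer (A : Set G)) :
    tw n p ∈ linC A := by
  refine mem_erase.2 ⟨fun h => (mem_erase.1 hp).1 ?_, tw_mem_allLin (mem_erase.1 hp).2 n⟩
  rw [(tw_eq_iff n p _).1 h, tw_const]

include hA

/-- **The stabiliser of a nontrivial linear character is `A`.** -/
theorem Frame.tw_eq_self_iff {p : A → ℂ} (hp : p ∈ linC A)
    (n : Subgroup.normalizer (A : Set G)) : tw n p = p ↔ (n : G) ∈ A := by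
  obtain ⟨hne, hp⟩ := mem_erase.1 hp
  obtain ⟨ψ, rfl⟩ := (mem_filter.1 hp).2
  constructor
  · intro h
    by_contra hn
    let D : Abelianization A →* Abelianization A :=
      Abelianization.lift (Abelianization.of.comp (conjHom n) / Abelianization.of)
    have hinj : Function.Injective D := by
      rw [← MonoidHom.ker_eq_bot_iff, Subgroup.eq_bot_iff_forall]
      intro q hq
      obtain ⟨x, rfl⟩ := QuotientGroup.mk_surjective q
      refine (QuotientGroup.eq_one_iff x).2 (hA.mem_commutator_of_fix n hn ?_)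
      rw [← Abelianization.ker_of A, MonoidHom.mem_ker, map_mul, map_inv, ← div_eq_mul_inv]
      exact hq
    refine hne (funext fun x => ?_)
    obtain ⟨q, hq⟩ := (Finite.injective_iff_surjective.1 hinj) (Abelianization.of x)
    obtain ⟨y, rfl⟩ := QuotientGroup.mk_surjective q
    have hy : ψ (conjHom n y) = ψ y := Units.ext (congrFun h y)
    have h1 := congrArg (Abelianization.lift ψ) hq
    rw [show D (QuotientGroup.mk y) =
        Abelianization.of (conjHom n y) / Abelianization.of y from rfl,
      map_div, Abelianization.lift_apply_of, Abelianization.lift_apply_of,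
      Abelianization.lift_apply_of, hy, div_self'] at h1
    show ((ψ x : ℂˣ) : ℂ) = 1
    rw [← h1, Units.val_one]
  · intro h
    funext x
    show ((ψ (conjHom n x) : ℂˣ) : ℂ) = _
    rw [show conjHom n x = ⟨n, h⟩ * x * (⟨n, h⟩ : A)⁻¹ from Subtype.ext rfl, map_mul, map_mul,
      map_inv, mul_comm (ψ ⟨n, h⟩), mul_inv_cancel_right]

theorem Frame.card_twists {p : A → ℂ} (hp : p ∈ linC A) (q : A → ℂ) :
    ((univ : Finset (Subgroup.normalizer (A : Set G))).filter fun n => tw n p = q).card =
      if Rel p q then Nat.card A else 0 := by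
  split_ifs with h
  · obtain ⟨m, rfl⟩ := h
    rw [← Fintype.card_subtype, ← Nat.card_eq_fintype_card]
    have key : ∀ n : Subgroup.normalizer (A : Set G), tw n p = tw m p ↔ ((n * m⁻¹ : _) : G) ∈ A :=
      fun n => by
      rw [← hA.tw_eq_self_iff hp, ← tw_mul, tw_eq_iff m⁻¹, inv_inv]
    exact Nat.card_congr
      { toFun := fun n => ⟨_, (key n).1 n.2⟩
        invFun := fun a => ⟨⟨a, Subgroup.le_normalizer a.2⟩ * m, (key _).2 (by simp)⟩
        left_inv := fun n => Subtype.ext (Subtype.ext (by simp))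
        right_inv := fun a => Subtype.ext (by simp) }
  · exact card_eq_zero.2 (filter_eq_empty_iff.2 fun n _ hn => h ⟨n, hn⟩)

theorem Frame.card_orbit {p : A → ℂ} (hp : p ∈ linC A) :
    ((linC A).filter (Rel p)).card = en A := by
  have h := card_eq_sum_card_fiberwise (f := fun n : Subgroup.normalizer (A : Set G) => tw n p)
    (s := univ) (t := linC A) fun n _ => tw_mem_linC hp n
  rw [card_univ, ← Nat.card_eq_fintype_card, sum_congr rfl fun q _ => hA.card_twists hp q,
    ← sum_filter, sum_const, smul_eq_mul, ← en_mul_card] at h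
  exact Nat.eq_of_mul_eq_mul_right Nat.card_pos h.symm

theorem Frame.one_lt_abCard : 1 < abCard A := by
  haveI := hA.nilp
  haveI : Nontrivial A := (Subgroup.nontrivial_iff_ne_bot A).2 hA.ne_bot
  have h := Group.IsSolvable.commutator_lt_top_of_nontrivial A
  refine Finite.one_lt_card_iff_nontrivial.2 ?_
  exact (QuotientGroup.nontrivial_iff (N := commutator A)).2 h.ne

omit hA [Fintype G] in
theorem odd_abCard (hodd : Odd (Nat.card G)) : Odd (abCard A) :=
  (odd_card_frame (A := A) hodd).of_dvd_nat ⟨_, abCard_mul.symm⟩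

/-- An odd index and an even number of linear characters: two orbits at least. -/
theorem Frame.exists_not_rel (hodd : Odd (Nat.card G)) :
    ∃ p₀ ∈ linC A, ∃ p ∈ linC A, ¬ Rel p₀ p := by
  have h1 := hA.one_lt_abCard
  obtain ⟨i, hi⟩ := odd_abCard (A := A) hodd
  obtain ⟨j, hj⟩ := odd_en (A := A) hodd
  have hcard := card_linC (A := A)
  obtain ⟨p₀, hp₀⟩ : (linC A).Nonempty := card_pos.1 (by omega)
  refine ⟨p₀, hp₀, ?_⟩
  by_contra hall
  push Not at hall
  have h := hA.card_orbit hp₀
  rw [filter_true_of_mem hall] at h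
  omega

/-- **Inner products of induced functions.** -/
theorem Frame.pairing_induced_induced (φ : A → ℂ) {φ' : A → ℂ} (h : φ' 1 = 0) :
    pairing (induced A φ) (induced A φ') = avg φ φ' := by
  rw [pairing_induced A φ (induced_conj φ')]
  have hres : (fun x : A => induced A φ' x) =
      fun x => (Nat.card A : ℂ)⁻¹ * ∑ n : Subgroup.normalizer (A : Set G), tw n φ' x := by
    funext x
    rcases eq_or_ne x 1 with rfl | hx
    · rw [Subgroup.coe_one, induced_one h, sum_eq_zero fun n _ => ?_, mul_zero]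
      simp only [tw]
      rw [show (⟨(n : G) * ((1 : A) : G) * (n : G)⁻¹, _⟩ : A) = 1 from Subtype.ext (by simp), h]
    · have hx' : (x : G) ≠ 1 := fun e => hx (Subtype.ext e)
      rw [induced]
      congr 1
      rw [← sum_filter_add_sum_filter_not univ (· ∈ Subgroup.normalizer (A : Set G)),
        sum_eq_zero (s := univ.filter fun g => ¬ g ∈ Subgroup.normalizer (A : Set G)) ?_, add_zero,
        sum_subtype _ (p := (· ∈ Subgroup.normalizer (A : Set G))) (by simp)]
      · exact sum_congr rfl fun n _ => dif_pos (conj_mem_of_normalizer n.2 x.2)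
      · exact fun g hg => dif_neg fun hm => (mem_filter.1 hg).2 (hA.ti g x x.2 hx' hm)
  rw [hres, avg, pairing_comm]
  simp only [mul_sum]
  rw [pairing_sum_left univ (fun _ => (Nat.card A : ℂ)⁻¹) fun n => tw n φ']
  exact sum_congr rfl fun n _ => by rw [pairing_comm]

omit hA in
/-- **Separated subgroups.** -/
theorem pairing_induced_sep (hAB : Sep A B) (φ : A → ℂ) {φ' : B → ℂ} (h : φ' 1 = 0) :
    pairing (induced A φ) (induced B φ') = 0 := by
  rw [pairing_induced A φ (induced_conj φ'), pairing, sum_eq_zero fun x _ => ?_, mul_zero]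
  rcases eq_or_ne x 1 with rfl | hx
  · rw [inv_one, Subgroup.coe_one, induced_one h, mul_zero]
  have hx' : ((x⁻¹ : A) : G) ≠ 1 := fun e => hx (inv_eq_one.1 (Subtype.ext e))
  rw [induced, sum_eq_zero fun g _ => ?_, mul_zero, mul_zero]
  exact dif_neg (hAB g _ (x⁻¹).2 hx')

theorem Frame.avg_linC {p q : A → ℂ} (hp : p ∈ linC A) (hq : q ∈ linC A) :
    avg p q = ind p q := by
  rw [avg, sum_congr rfl fun n _ => pairing_irr (linC_irr hp) (linC_irr (tw_mem_linC hq n)),
    sum_boole, filter_congr fun n _ => eq_comm, hA.card_twists hq p, ind_comm p q, ind]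
  split_ifs with h
  · rw [inv_mul_cancel₀ (Nat.cast_ne_zero.2 Nat.card_pos.ne'), Int.cast_one]
  · rw [Nat.cast_zero, mul_zero, Int.cast_zero]

omit hA in
theorem avg_linC_one {p : A → ℂ} (hp : p ∈ linC A) :
    avg p (fun _ => 1) = 0 ∧ avg (fun _ => 1) p = 0 := by
  refine ⟨?_, ?_⟩
  · rw [avg, sum_congr rfl fun n _ => by
      rw [tw_const, pairing_irr (linC_irr hp) one_mem_irr, if_neg (mem_erase.1 hp).1],
      sum_const_zero, mul_zero]
  · rw [avg, sum_congr rfl fun n _ => by
      rw [pairing_irr one_mem_irr (linC_irr (tw_mem_linC hp n)),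
        if_neg fun h => (mem_erase.1 (tw_mem_linC hp n)).1 h.symm], sum_const_zero, mul_zero]

/-- **Inner products of the differences.** -/
theorem Frame.gram {p p' q q' : A → ℂ} (hp : p ∈ linC A) (hp' : p' ∈ linC A) (hq : q ∈ linC A)
    (hq' : q' ∈ linC A) :
    ∑ ψ ∈ irr G, (mult A ψ p - mult A ψ p') * (mult A ψ q - mult A ψ q') =
      ind p q - ind p q' - ind p' q + ind p' q' := by
  have h := gram_cast (linC_irr hp) (linC_irr hp') (linC_irr hq) (linC_irr hq')
  rw [hA.pairing_induced_induced _ (by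
      rw [allLin_one (mem_erase.1 hq).2, allLin_one (mem_erase.1 hq').2, sub_self]),
    avg_sub, hA.avg_linC hp hq, hA.avg_linC hp hq', hA.avg_linC hp' hq, hA.avg_linC hp' hq'] at h
  exact_mod_cast h

theorem Frame.gram_one {p q q' : A → ℂ} (hp : p ∈ linC A) (hq : q ∈ linC A) (hq' : q' ∈ linC A) :
    ∑ ψ ∈ irr G, (mult A ψ (fun _ => 1) - mult A ψ p) * (mult A ψ q - mult A ψ q') =
      ind p q' - ind p q := by
  have h := gram_cast (one_mem_irr (G := A)) (linC_irr hp) (linC_irr hq) (linC_irr hq')
  rw [hA.pairing_induced_induced _ (by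
      rw [allLin_one (mem_erase.1 hq).2, allLin_one (mem_erase.1 hq').2, sub_self]),
    avg_sub, (avg_linC_one hq).2, (avg_linC_one hq').2, hA.avg_linC hp hq,
    hA.avg_linC hp hq', sub_zero, zero_sub, ← Int.cast_neg, ← Int.cast_add] at h
  rw [Int.cast_inj.1 h]
  ring

theorem Frame.gram_one_one {p : A → ℂ} (hp : p ∈ linC A) :
    ∑ ψ ∈ irr G, (mult A ψ (fun _ => 1) - mult A ψ p) ^ 2 = en A + 1 := by
  have h := gram_cast (one_mem_irr (G := A)) (linC_irr hp) (one_mem_irr (G := A)) (linC_irr hp)
  rw [hA.pairing_induced_induced _ (by rw [allLin_one (mem_erase.1 hp).2, sub_self]),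
    avg_sub, avg_one_one, (avg_linC_one hp).1, (avg_linC_one hp).2, hA.avg_linC hp hp,
    sub_zero, sub_zero, show ind p p = 1 from if_pos (FA.SuzukiCA.Rel.refl p)] at h
  simp only [sq]
  exact_mod_cast h

omit hA in
theorem gram_sep (hAB : Sep A B) {p p' : A → ℂ} (hp : p ∈ allLin A) (hp' : p' ∈ allLin A)
    {q q' : B → ℂ} (hq : q ∈ allLin B) (hq' : q' ∈ allLin B) :
    ∑ ψ ∈ irr G, (mult A ψ p - mult A ψ p') * (mult B ψ q - mult B ψ q') = 0 := by
  have h := gram_cast (allLin_irr hp) (allLin_irr hp') (allLin_irr hq) (allLin_irr hq')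
  rw [pairing_induced_sep hAB _ (by rw [allLin_one hq, allLin_one hq', sub_self])] at h
  exact_mod_cast h

omit hA in
theorem gram_degree {p p' : A → ℂ} (hp : p ∈ allLin A) (hp' : p' ∈ allLin A) :
    ∑ ψ ∈ irr G, ((mult A ψ p - mult A ψ p' : ℤ) : ℂ) * ψ 1 = 0 := by
  rw [← induced_one (φ := fun x => p x - p' x) (by
    rw [allLin_one hp, allLin_one hp', sub_self]), expansion (induced_conj _) 1]
  exact sum_congr rfl fun ψ hψ => by rw [coeff hψ (allLin_irr hp) (allLin_irr hp')]

omit hA in
theorem mult_tw {ψ : G → ℂ} (hψ : ψ ∈ irr G) {p : A → ℂ} (hp : p ∈ allLin A)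
    (n : Subgroup.normalizer (A : Set G)) : mult A ψ (tw n p) = mult A ψ p := by
  have e : pairing (tw n p) (res A ψ) = pairing p (res A ψ) := by
    simp only [pairing]
    congr 1
    let c : A ≃ A :=
      { toFun := fun x => ⟨n * x * (n : G)⁻¹, conj_mem_of_normalizer n.2 x.2⟩
        invFun := fun x => ⟨(n : G)⁻¹ * x * n, by
          simpa using conj_mem_of_normalizer (inv_mem n.2) x.2⟩
        left_inv := fun x => Subtype.ext (by group)
        right_inv := fun x => Subtype.ext (by group) }
    refine Fintype.sum_equiv c _ _ fun x => ?_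
    show p _ * ψ ((x⁻¹ : A) : G) = p _ * ψ _
    congr 1
    rw [← irr_conj hψ (n : G)]
    congr 1
    show _ = ((c x)⁻¹ : A).1
    rw [show c x = ⟨n * x * (n : G)⁻¹, conj_mem_of_normalizer n.2 x.2⟩ from rfl]
    push_cast
    group
  rw [mult_spec hψ (allLin_irr (tw_mem_allLin hp n)), mult_spec hψ (allLin_irr hp)] at e
  exact_mod_cast e

end FA.CNGroups

end
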