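import Fermat.Agent.CNGroups.Reduction
import Fermat.Agent.ThompsonTransfer.Stability
import Fermat.Agent.ThompsonTransfer.Replacement
import Fermat.Agent.ThompsonTransfer.Frobenius

/-!
# Solvable groups with a pure prime

Let `L` be solvable, with no nontrivial `p`-element commuting with a nontrivial element of order
prime to `p`, and with a nontrivial normal `p`-subgroup.  Write `U` for the largest one.  Then
`L / U` has a cyclic normal subgroup of order prime to `p`, so `p`-elements among its commutators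
are trivial, two Sylow `p`-subgroups of `L` meet inside `U`, and, for odd `p`, the Thompson
subgroup of a Sylow `p`-subgroup is normal in `L`.
-/

set_option autoImplicit false
set_option linter.style.haveILetI false

noncomputable section

namespace FA.CNGroups

open Subgroup
open FA.Thompson (Ab abMax J Z Reg)
open scoped commutatorElement

/-- Nontrivial `p`-elements commute with no nontrivial element of order prime to `p`. -/
def Pure (p : ℕ) (G : Type*) [Group G] : Prop :=
  ∀ x y : G, IsPow p x → Reg p y → x * y = y * x → x = 1 ∨ y = 1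

/-- The intersection of the Sylow `p`-subgroups. -/
def pcore (p : ℕ) (G : Type*) [Group G] : Subgroup G := ⨅ S : Sylow p G, (S : Subgroup G)

variable {p : ℕ} [hp : Fact p.Prime] {L : Type*} [Group L]

theorem pure_of_not_cross [Finite L] (h : ¬ Cross p L) : Pure p L := by
  intro x y hx hy hxy
  by_contra! hne
  obtain ⟨d, n, hd, hn, hnd⟩ := exists_prime_power hne.2
  refine h ⟨d, hd, fun e => ?_, x, y ^ n, hne.1, hn, hx, ⟨1, by rwa [pow_one]⟩,
    (Commute.pow_right hxy n).eq⟩
  subst e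
  exact hn (Reg.eq_one_of_pow (p := d) (fun h' => hy (h'.trans (orderOf_pow_dvd n))) (k := 1)
    (by rwa [pow_one]))

omit hp in
theorem Pure.subgroup (h : Pure p L) (H : Subgroup L) : Pure p H := fun x y hx hy hxy =>
  (h x y (hx.map H.subtype) ((FA.Thompson.reg_map_iff H.subtype_injective).2 hy)
    (congrArg Subtype.val hxy)).imp (fun e => Subtype.ext e) fun e => Subtype.ext e

theorem IsPow.eq_one {x : L} (h : IsPow p x) (hr : Reg p x) : x = 1 :=
  h.elim fun _ hk => hr.eq_one_of_pow hk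

variable [Finite L]

/-- The quotient by a normal `p`-subgroup is again pure. -/
theorem Pure.quotient (h : Pure p L) {X : Subgroup L} [X.Normal] (hX : IsPGroup p X) :
    Pure p (L ⧸ X) := by
  intro q c hq hc hqc
  by_contra! hne
  obtain ⟨d, n, hd, hn, hnd⟩ := exists_prime_power hne.2
  have hdp : d ≠ p := fun e => by
    subst e
    exact hn (Reg.eq_one_of_pow (p := d) (fun h' => hc (h'.trans (orderOf_pow_dvd n))) (k := 1)
      (by rwa [pow_one]))
  obtain ⟨y, hy, hyd⟩ := exists_lift_prime hX hd hdp hnd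
  have hyX : y ∉ X := fun e => hn (hy ▸ (QuotientGroup.eq_one_iff y).2 e)
  obtain ⟨g, rfl⟩ := QuotientGroup.mk_surjective q
  obtain ⟨g', hg', hgg'⟩ := exists_centralizing_lift hX hd hdp hyd hyX (g := g)
    (by rw [hy]; exact (Commute.pow_right hqc n).eq)
  obtain ⟨a, b, ha, -, hab, hak, hb⟩ := FA.Thompson.exists_decomp (p := p) g'
  have hy1 : y ≠ 1 := fun e => hyX (e ▸ one_mem X)
  have hyr : Reg p y := fun h' =>
    hdp ((Nat.prime_dvd_prime_iff_eq hp.out hd).1 (h'.trans (orderOf_dvd_of_pow_eq_one hyd))).symm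
  have hay : a * y = y * a := mem_centralizer_singleton_iff.1 ((zpowers_le.2 hg') ha)
  rcases h a y hak hyr hay with ha1 | hy1'
  · refine hne.1 (IsPow.eq_one hq ?_)
    rw [← hgg', hab, ha1, one_mul]
    exact hb.map (QuotientGroup.mk' X)
  · exact hy1 hy1'

/-- Centralisers of nontrivial `p`-elements are `p`-groups. -/
theorem Pure.isPGroup_centralizer (h : Pure p L) {x : L} (hx : IsPow p x) (hx1 : x ≠ 1) :
    IsPGroup p (centralizer ({x} : Set L)) := by
  intro g
  obtain ⟨a, b, -, hb, hab, ⟨k, hk⟩, hbr⟩ := FA.Thompson.exists_decomp (p := p) (g : L)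
  have hb1 : b = 1 := (h x b hx hbr
    (mem_centralizer_singleton_iff.1 ((zpowers_le.2 g.2) hb)).symm).resolve_left hx1
  refine ⟨k, Subtype.ext ?_⟩
  rw [Subgroup.coe_pow, hab, hb1, mul_one, hk, Subgroup.coe_one]

omit hp [Finite L] in
theorem pcore_le (S : Sylow p L) : pcore p L ≤ S := iInf_le _ S

omit hp [Finite L] in
theorem isPGroup_pcore : IsPGroup p (pcore p L) := by
  obtain ⟨S⟩ : Nonempty (Sylow p L) := inferInstance
  exact S.isPGroup'.to_le (pcore_le S)

instance pcore_normal : (pcore p L).Normal := ⟨fun x hx g => by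
  rw [pcore, mem_iInf] at hx ⊢
  intro S
  have h1 : x ∈ (g⁻¹ • S : Sylow p L) := hx (g⁻¹ • S)
  rwa [FA.Thompson.mem_conj_smul, inv_inv] at h1⟩

omit hp [Finite L] in
theorem le_pcore {X : Subgroup L} [X.Normal] (hX : IsPGroup p X) : X ≤ pcore p L :=
  le_iInf fun S => hX.le_sylow_of_normal S

omit [Finite L] in
theorem mulAut_comm {C : Type*} [Group C] [IsCyclic C] (σ τ : MulAut C) : σ * τ = τ * σ := by
  obtain ⟨g, hg⟩ := IsCyclic.exists_generator (α := C)
  obtain ⟨a, ha⟩ := mem_zpowers_iff.1 (hg (σ g))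
  obtain ⟨b, hb⟩ := mem_zpowers_iff.1 (hg (τ g))
  ext x
  obtain ⟨k, rfl⟩ := mem_zpowers_iff.1 (hg x)
  rw [MulAut.mul_apply, MulAut.mul_apply, map_zpow, map_zpow, map_zpow, map_zpow, ← ha, ← hb,
    map_zpow, map_zpow, ← ha, ← hb, ← zpow_mul, ← zpow_mul, ← zpow_mul, ← zpow_mul]
  ring_nf

variable (hpure : Pure p L) [hsol : Group.IsSolvable L] (hU : pcore p L ≠ ⊥)

include hpure hU

/-- **The quotient by the core has a cyclic normal subgroup of order prime to `p`.** -/
theorem exists_normal_cyclic [Nontrivial (L ⧸ pcore p L)] :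
    ∃ X : Subgroup (L ⧸ pcore p L), X.Normal ∧ IsCyclic X ∧ ∃ x ∈ X, x ≠ 1 ∧ Reg p x := by
  set f := QuotientGroup.mk' (pcore p L)
  haveI : Group.IsSolvable (L ⧸ pcore p L) :=
    Group.isSolvable_of_surjective (QuotientGroup.mk'_surjective (pcore p L))
  obtain ⟨r, X₀, hr, hX₀, hX₀1, hX₀r⟩ := exists_normal_pGroup
    (⊤ : Subgroup (L ⧸ pcore p L)) top_ne_bot inferInstance
  haveI := hX₀
  haveI : Fact r.Prime := ⟨hr⟩
  set X := (center X₀).map X₀.subtype with hXdef
  haveI : X.Normal := normal_center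
  haveI : Nontrivial X₀ := (nontrivial_iff_ne_bot X₀).2 hX₀1
  have hXr : IsPGroup r X := (hX₀r.to_subgroup _).map _
  have hXab : ∀ a ∈ X, ∀ b ∈ X, a * b = b * a := by
    rintro _ ⟨a, ha, rfl⟩ _ ⟨b, -, rfl⟩
    exact congrArg Subtype.val (mem_center_iff.1 ha b).symm
  haveI := hX₀r.center_nontrivial
  obtain ⟨z, hz⟩ := exists_ne (1 : center X₀)
  set x : L ⧸ pcore p L := ((z.1 : X₀) : L ⧸ pcore p L)
  have hxX : x ∈ X := ⟨z.1, z.2, rfl⟩
  have hx1 : x ≠ 1 := fun e => hz (Subtype.ext (Subtype.ext e))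
  have hrp : r ≠ p := by
    rintro rfl
    have h1 : X.comap f ≤ pcore r L := le_pcore (hXr.comap_of_ker_isPGroup f (by
      rw [QuotientGroup.ker_mk']; exact isPGroup_pcore))
    obtain ⟨g, hg⟩ := QuotientGroup.mk_surjective x
    refine hx1 (hg ▸ (QuotientGroup.eq_one_iff g).2 (h1 ?_))
    show f g ∈ X
    rw [show f g = x from hg]
    exact hxX
  refine ⟨X, inferInstance, ?_, x, hxX, hx1, fun hd => ?_⟩
  swap
  · obtain ⟨k, hk⟩ := isPow_of_mem hXr hxX
    exact hrp ((Nat.prime_dvd_prime_iff_eq hp.out hr).1 (hp.out.dvd_of_dvd_pow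
      (hd.trans (orderOf_dvd_of_pow_eq_one hk)))).symm
  -- a lift of `X` acts without fixed points on the core
  obtain ⟨R⟩ : Nonempty (Sylow r L) := inferInstance
  set R₀ : Subgroup L := (R : Subgroup L) ⊓ X.comap f
  have hR₀map : R₀.map f = X := by
    refine le_antisymm (map_le_iff_le_comap.2 inf_le_right) fun y hy => ?_
    have h1 := hXr.le_sylow_of_normal (R.mapSurjective (QuotientGroup.mk'_surjective _)) hy
    rw [Sylow.coe_mapSurjective] at h1
    obtain ⟨w, hw, rfl⟩ := h1
    exact ⟨w, ⟨hw, hy⟩, rfl⟩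
  have hR₀ab : ∀ a b : R₀, a * b = b * a := fun a b => by
    refine Subtype.ext ?_
    have h1 : f ((a : L) * b) = f ((b : L) * a) := by
      rw [map_mul, map_mul]; exact hXab _ a.2.2 _ b.2.2
    have h2 : ((a : L) * b)⁻¹ * ((b : L) * a) ∈ pcore p L := QuotientGroup.eq.1 h1
    have h3 : ((a : L) * b)⁻¹ * ((b : L) * a) ∈ (R : Subgroup L) :=
      mul_mem (inv_mem (mul_mem a.2.1 b.2.1)) (mul_mem b.2.1 a.2.1)
    exact inv_mul_eq_one.1 (disjoint_def.1
      (IsPGroup.disjoint_of_ne r p hrp _ _ R.isPGroup' isPGroup_pcore) h3 h2)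
  haveI : Nontrivial (pcore p L) := (nontrivial_iff_ne_bot _).2 hU
  let φ : R₀ →* MulAut (pcore p L) :=
    (MulAut.conjNormal (H := pcore p L)).comp R₀.subtype
  have hφ : ∀ h : R₀, h ≠ 1 → ∀ k : pcore p L, φ h k = k → k = 1 := by
    intro h hh k hk
    have h1 : (h : L) * k * (h : L)⁻¹ = k := by
      have := congrArg Subtype.val hk
      rwa [MonoidHom.comp_apply, MulAut.conjNormal_apply] at this
    have hreg : Reg p (h : L) := fun hd => by
      obtain ⟨j, hj⟩ := isPow_of_mem R.isPGroup' h.2.1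
      exact hrp ((Nat.prime_dvd_prime_iff_eq hp.out hr).1 (hp.out.dvd_of_dvd_pow
        (hd.trans (orderOf_dvd_of_pow_eq_one hj)))).symm
    exact Subtype.ext ((hpure k h (isPow_of_mem isPGroup_pcore k.2) hreg
      (mul_inv_eq_iff_eq_mul.1 h1).symm).resolve_right fun e => hh (Subtype.ext e))
  haveI := FA.FrobeniusComplements.Summary.complement_abelian_cyclic φ hφ ⊤
    fun a _ b _ => hR₀ab a b
  haveI : IsCyclic R₀ := isCyclic_of_surjective (Subgroup.topEquiv (G := R₀))
    (Subgroup.topEquiv (G := R₀)).surjective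
  haveI : IsCyclic (R₀.map f) :=
    isCyclic_of_surjective (f.subgroupMap R₀) (f.subgroupMap_surjective R₀)
  exact hR₀map ▸ inferInstance

/-- **`p`-elements among the commutators of the quotient are trivial.** -/
theorem commutator_mem_pcore {a b : L} (h : IsPow p ⁅a, b⁆) : ⁅a, b⁆ ∈ pcore p L := by
  rcases subsingleton_or_nontrivial (L ⧸ pcore p L) with hs | hn
  · exact (QuotientGroup.eq_one_iff _).1 (Subsingleton.elim _ _)
  obtain ⟨X, hX, hXc, x, hx, hx1, hxr⟩ := exists_normal_cyclic hpure hU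
  haveI := hX
  haveI := hXc
  set f := QuotientGroup.mk' (pcore p L)
  set c := f ⁅a, b⁆ with hc
  set ψ : L ⧸ pcore p L →* MulAut X := MulAut.conjNormal
  have h1 : ψ c = 1 := by
    rw [hc, map_commutatorElement, map_commutatorElement, commutatorElement_eq_one_iff_commute]
    exact mulAut_comm _ _
  have h2 : c * x * c⁻¹ = x := by
    have := congrArg (fun σ : MulAut X => ((σ ⟨x, hx⟩ : X) : L ⧸ pcore p L)) h1
    simpa [ψ, MulAut.conjNormal_apply] using this
  exact (QuotientGroup.eq_one_iff _).1 (((hpure.quotient isPGroup_pcore) c x (h.map f) hxr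
    (mul_inv_eq_iff_eq_mul.1 h2)).resolve_right hx1)

/-- **Two Sylow subgroups meet inside the core.** -/
theorem inf_le_pcore {S T : Sylow p L} (hne : S ≠ T) :
    (S : Subgroup L) ⊓ T ≤ pcore p L := by
  rintro x ⟨hxS, hxT⟩
  by_contra hxU
  set f := QuotientGroup.mk' (pcore p L)
  have hx1 : f x ≠ 1 := fun e => hxU ((QuotientGroup.eq_one_iff x).1 e)
  have hC := (hpure.quotient isPGroup_pcore).isPGroup_centralizer
    ((isPow_of_mem S.isPGroup' hxS).map f) hx1
  have key : ∀ R : Sylow p L, x ∈ (R : Subgroup L) →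
      (R : Subgroup L).map f = centralizer ({f x} : Set (L ⧸ pcore p L)) := by
    intro R hxR
    refine (((R.mapSurjective (QuotientGroup.mk'_surjective _))).3 hC ?_).symm
    rintro _ ⟨w, hw, rfl⟩
    refine mem_centralizer_singleton_iff.2 ?_
    rw [← map_mul, ← map_mul]
    refine QuotientGroup.eq.2 ?_
    have h2 : (w * x)⁻¹ * (x * w) = ⁅x⁻¹, w⁻¹⁆ := by rw [commutatorElement_def]; group
    rw [h2]
    refine commutator_mem_pcore hpure hU (isPow_of_mem R.isPGroup' ?_)
    rw [← h2]
    exact mul_mem (inv_mem (mul_mem hw hxR)) (mul_mem hxR hw)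
  refine hne (Sylow.ext (S.3 T.isPGroup' fun s hs => ?_).symm)
  have hst : f s ∈ (T : Subgroup L).map f := by
    rw [key T hxT, ← key S hxS]
    exact mem_map_of_mem f hs
  obtain ⟨t, ht, hts⟩ := hst
  have := mul_mem ht (pcore_le T (QuotientGroup.eq.1 hts))
  rwa [mul_inv_cancel_left] at this

/-- A `p`-element acting quadratically on the centre of the core lies in it. -/
theorem mem_pcore_of_quadratic (hp2 : p ≠ 2) {a : L} (ha : IsPow p a)
    (hquad : ∀ v ∈ Z (pcore p L), Commute a (a * v * a⁻¹ * v⁻¹)) : a ∈ pcore p L := by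
  by_contra haU
  set U := pcore p L with hUdef
  haveI : Nontrivial (L ⧸ U) :=
    nontrivial_of_ne (a : L ⧸ U) 1 fun e => haU ((QuotientGroup.eq_one_iff a).1 e)
  obtain ⟨X, hX, hXc, x, hx, hx1, hxr⟩ := exists_normal_cyclic hpure hU
  haveI := hX
  haveI := hXc
  set f := QuotientGroup.mk' U
  obtain ⟨g₀, rfl⟩ := QuotientGroup.mk_surjective x
  obtain ⟨g, hgr, hg⟩ := FA.Thompson.exists_reg_lift f (x := g₀) hxr
  set V := Z U
  haveI : V.Normal := normalizer_eq_top_iff.1 (eq_top_iff.2
    ((normalizer_eq_top (H := U)).ge.trans (FA.Thompson.normalizer_le_normalizer_Z U)))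
  have hVU : V ≤ U := inf_le_left
  have hUV : U ≤ centralizer (V : Set L) := fun u hu =>
    mem_centralizer_iff.2 fun v hv => (mem_centralizer_iff.1 hv.2 u hu).symm
  have hab : Ab V := fun v hv w hw => mem_centralizer_iff.1 hw.2 v hv.1
  have hc : ∀ b : L, ⁅g, b * g * b⁻¹⁆ ∈ centralizer (V : Set L) := fun b => hUV (by
    refine (QuotientGroup.eq_one_iff _).1 ?_
    show f ⁅g, b * g * b⁻¹⁆ = 1
    have h1 : f g ∈ X := hg ▸ hx
    have h2 : f (b * g * b⁻¹) ∈ X := by
      rw [map_mul, map_mul, map_inv]; exact hX.conj_mem _ h1 _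
    rw [map_commutatorElement, commutatorElement_eq_one_iff_mul_comm]
    letI := IsCyclic.commGroup (α := X)
    exact congrArg Subtype.val (mul_comm (⟨f g, h1⟩ : X) ⟨f (b * g * b⁻¹), h2⟩))
  have hcom := FA.Thompson.commutator_mem_centralizer_of_quadratic hp2 V hab
    (isPGroup_pcore.to_le hVU) hquad hgr hc
  have hC : centralizer (V : Set L) ≤ U := by
    haveI : (centralizer (V : Set L)).Normal := inferInstance
    obtain ⟨v, hv, hv1⟩ := (bot_or_exists_ne_one V).resolve_left
      (FA.Thompson.Z_ne_bot isPGroup_pcore hU)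
    refine le_pcore ((hpure.isPGroup_centralizer (isPow_of_mem isPGroup_pcore (hVU hv)) hv1).to_le
      fun c hc' => mem_centralizer_singleton_iff.2 (mem_centralizer_iff.1 hc' v hv).symm)
  have h3 : f a * f g = f g * f a := by
    rw [← commutatorElement_eq_one_iff_mul_comm, ← map_commutatorElement]
    exact (QuotientGroup.eq_one_iff _).2 (hC hcom)
  rcases (hpure.quotient isPGroup_pcore) (f a) (f g) (ha.map f) (hgr.map f) h3 with h4 | h4
  · exact haU ((QuotientGroup.eq_one_iff a).1 h4)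
  · exact hx1 (hg.symm.trans h4)

/-- **The Thompson subgroup of a Sylow subgroup is normal.** -/
theorem normalizer_J_eq_top (hp2 : p ≠ 2) (S : Sylow p L) :
    normalizer (J (S : Subgroup L) : Set L) = ⊤ := by
  set U := pcore p L
  set V := Z U
  have hVU : V ≤ U := inf_le_left
  have hVS : V ≤ S := hVU.trans (pcore_le S)
  have hVn : normalizer (V : Set L) = ⊤ := eq_top_iff.2
    ((normalizer_eq_top (H := U)).ge.trans (FA.Thompson.normalizer_le_normalizer_Z U))
  have hab : Ab V := fun v hv w hw => mem_centralizer_iff.1 hw.2 v hv.1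
  have hnorm : ∀ A ∈ abMax (S : Subgroup L), V ≤ normalizer (A : Set L) →
      A ≤ U ∧ V ≤ A := by
    intro A hA hVA
    have hAU : A ≤ U := fun a ha => mem_pcore_of_quadratic hpure hU hp2
      (isPow_of_mem S.isPGroup' (hA.1 ha)) fun v hv => by
        refine hA.2.1 a ha _ ?_
        have h1 := (mem_normalizer_iff.1 (hVA hv) a⁻¹).1 (inv_mem ha)
        have h2 := mul_mem ha h1
        rwa [← mul_assoc, ← mul_assoc] at h2
    refine ⟨hAU, ?_⟩
    have h1 := hA.2.2 (A ⊔ V) (sup_le hA.1 hVS) (FA.Thompson.ab_sup hA.2.1 hab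
      fun a ha v hv => mem_centralizer_iff.1 hv.2 a (hAU ha))
    exact le_trans le_sup_right (eq_of_le_of_card_ge le_sup_left h1).ge
  have hall : ∀ A ∈ abMax (S : Subgroup L), V ≤ normalizer (A : Set L) := by
    suffices ∀ n, ∀ A ∈ abMax (S : Subgroup L),
        Nat.card L - Nat.card (A ⊓ V : Subgroup L) = n → V ≤ normalizer (A : Set L) from
      fun A hA => this _ A hA rfl
    intro n
    induction n using Nat.strong_induction_on with
    | _ n ih =>
      intro A hA hn
      by_contra hVA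
      have hc1 : ∀ c ∈ ⁅V, V⁆, c = 1 := fun c hc => by
        rw [commutator_eq_bot_iff_le_centralizer.2 fun v hv => mem_centralizer_iff.2
          fun w hw => hab w hw v hv] at hc
        exact mem_bot.1 hc
      obtain ⟨A', hA', hlt, hA'N⟩ := FA.Thompson.exists_replacement hp2 S.isPGroup' hVS
        (le_top.trans hVn.ge) hA (fun c hc a _ => by rw [hc1 c hc, one_mul, mul_one])
        (fun c hc a _ => by rw [hc1 c hc, one_mul, mul_one]) hVA
      have h1 : Nat.card (A ⊓ V : Subgroup L) < Nat.card (A' ⊓ V : Subgroup L) :=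
        Set.ncard_lt_ncard hlt (Set.toFinite _)
      have h2 : Nat.card (A' ⊓ V : Subgroup L) ≤ Nat.card L := card_le_card_group _
      exact hVA ((hnorm A' hA' (ih _ (by omega) A' hA' rfl)).2.trans hA'N)
  have heq : abMax (S : Subgroup L) = abMax U := by
    obtain ⟨A₀, hA₀⟩ := FA.Thompson.exists_mem_abMax (S : Subgroup L)
    refine Set.ext fun A => ⟨fun hA => ⟨(hnorm A hA (hall A hA)).1, hA.2.1, fun B hB hB' =>
      hA.2.2 B (hB.trans (pcore_le S)) hB'⟩, fun hA => ⟨hA.1.trans (pcore_le S), hA.2.1,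
      fun B hB hB' => (hA₀.2.2 B hB hB').trans (hA.2.2 A₀ (hnorm A₀ hA₀ (hall A₀ hA₀)).1 hA₀.2.1)⟩⟩
  rw [show J (S : Subgroup L) = J U from congrArg sSup heq]
  exact eq_top_iff.2 ((normalizer_eq_top (H := U)).ge.trans
    (FA.Thompson.normalizer_le_normalizer_J U))

end FA.CNGroups
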