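import Fermat.Agent.CNGroups.Basic
import Fermat.Agent.Root.SummaryFrobeniusComplements

/-!
# CN-groups of odd order: reduction to simple groups

A nontrivial abelian normal `p`-subgroup either lies in a normal mixed subgroup `M`, whose quotient
acts without fixed points on the centre of `M`, or has a quotient that is again CN.
-/

set_option autoImplicit false
set_option linter.style.haveILetI false

noncomputable section

universe u

namespace FA.CNGroups

open Subgroup

variable {G : Type*} [Group G] [Finite G]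

omit [Finite G] in
/-- The centre of `M` inside `G`. -/
theorem normal_center {M : Subgroup G} [M.Normal] :
    ((center M).map M.subtype).Normal :=
  inferInstance

/-- The quotient by a normal mixed subgroup is solvable in odd order. -/
theorem Mixed.solvable_of_normal (hG : IsCN G) (hodd : Odd (Nat.card G)) {M : Subgroup G}
    [M.Normal] (hM : Mixed M) : Group.IsSolvable G := by
  haveI := hM.nilp
  set Z := (center M).map M.subtype
  haveI : Z.Normal := normal_center
  have hZM : Z ≤ M := map_subtype_le _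
  have hker : M ≤ (MulAut.conjNormal (H := Z) : G →* MulAut Z).ker := fun g hg => by
    refine MonoidHom.mem_ker.2 (MulEquiv.ext fun k => Subtype.ext ?_)
    obtain ⟨c, hc, hck⟩ := k.2
    show g * k * g⁻¹ = k
    rw [← hck, mul_inv_eq_iff_eq_mul]
    exact congrArg Subtype.val (mem_center_iff.1 hc ⟨g, hg⟩)
  obtain ⟨r, -, hr, -, -, hrd, -⟩ := hM.two
  obtain ⟨x, hxM, hx1, -, hxc⟩ := exists_central hM.nilp hr hrd
  have hxZ : x ∈ Z := ⟨⟨x, hxM⟩, mem_center_iff.2 fun g => Subtype.ext (hxc g g.2), rfl⟩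
  haveI : Nontrivial Z := nontrivial_of_ne ⟨x, hxZ⟩ 1 fun e => hx1 (congrArg Subtype.val e)
  have hfpf : ∀ q : G ⧸ M, q ≠ 1 → ∀ k : Z,
      QuotientGroup.lift M (MulAut.conjNormal (H := Z)) hker q k = k → k = 1 := by
    intro q
    obtain ⟨g, rfl⟩ := QuotientGroup.mk_surjective q
    intro hq k hk
    by_contra hne
    have h1 : g * (k : G) * g⁻¹ = k := congrArg Subtype.val hk
    exact hq ((QuotientGroup.eq_one_iff g).2 (hM.centralizer_le hG (hZM k.2)
      (fun e => hne (Subtype.ext e))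
      (mem_centralizer_singleton_iff.2 (mul_inv_eq_iff_eq_mul.1 h1))))
  haveI := (FA.FrobeniusComplements.Summary.complement_odd_metacyclic _ hfpf
    (hodd.of_dvd_nat M.card_quotient_dvd_card)).2.1
  exact (Group.isSolvable_iff_subgroup_quotient M).2 ⟨inferInstance, inferInstance⟩

/-- A prime order lift of an element of prime order in the quotient by a `p`-group. -/
theorem exists_lift_prime {p : ℕ} [hp : Fact p.Prime] {X : Subgroup G} [X.Normal]
    (hX : IsPGroup p X) {r : ℕ} (hr : r.Prime) (hrp : r ≠ p) {q : G ⧸ X} (hq : q ^ r = 1) :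
    ∃ y : G, (y : G ⧸ X) = q ∧ y ^ r = 1 := by
  obtain ⟨g, rfl⟩ := QuotientGroup.mk_surjective q
  rw [← QuotientGroup.mk_pow, QuotientGroup.eq_one_iff] at hq
  obtain ⟨s, hs⟩ := IsPGroup.iff_card.1 hX
  have h1 : (g ^ r) ^ p ^ s = 1 := by
    have := congrArg Subtype.val (pow_card_eq_one' (x := (⟨g ^ r, hq⟩ : X)))
    rwa [hs, Subgroup.coe_pow] at this
  obtain ⟨j, -, hj⟩ := Nat.exists_mul_mod_eq_one_of_coprime
    ((Nat.coprime_primes hp.out hr).2 hrp.symm |>.pow_left s) hr.one_lt
  refine ⟨g ^ (p ^ s * j), ?_, ?_⟩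
  · rw [QuotientGroup.mk_pow]
    have hgr : (g : G ⧸ X) ^ r = 1 := by rwa [← QuotientGroup.mk_pow, QuotientGroup.eq_one_iff]
    have := pow_eq_pow_mod (p ^ s * j) hgr
    rw [hj, pow_one] at this
    exact this
  · rw [← pow_mul, show p ^ s * j * r = r * p ^ s * j by ring, pow_mul, pow_mul, h1, one_pow]

/-- Centralisers of elements of prime order lift to the quotient. -/
theorem exists_centralizing_lift {p : ℕ} [hp : Fact p.Prime] {X : Subgroup G} [hn : X.Normal]
    (hX : IsPGroup p X) {r : ℕ} (hr : r.Prime) (hrp : r ≠ p) {y : G} (hy : y ^ r = 1)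
    (hy1 : y ∉ X) {g : G} (hg : (g : G ⧸ X) * (y : G ⧸ X) = (y : G ⧸ X) * (g : G ⧸ X)) :
    ∃ g' ∈ centralizer ({y} : Set G), (g' : G ⧸ X) = g := by
  haveI : Fact r.Prime := ⟨hr⟩
  set K := X ⊔ zpowers y
  set y' := g * y * g⁻¹
  have hy' : (y' : G ⧸ X) = y := by
    rw [show y' = g * y * g⁻¹ from rfl, QuotientGroup.mk_mul, QuotientGroup.mk_mul, hg,
      QuotientGroup.mk_inv, mul_inv_cancel_right]
  have hy'K : y' ∈ K := by
    have h : y⁻¹ * y' ∈ X := QuotientGroup.eq.1 hy'.symm
    have := mul_mem (mem_sup_right (S := X) (mem_zpowers y))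
      (mem_sup_left (T := zpowers y) h)
    rwa [mul_inv_cancel_left] at this
  have hord : orderOf y = r := orderOf_eq_prime hy fun e => hy1 (e ▸ one_mem X)
  have hord' : orderOf y' = r := by
    rw [← hord]
    exact orderOf_injective (MulAut.conj g).toMonoidHom (MulAut.conj g).injective y
  obtain ⟨s, hs⟩ := IsPGroup.iff_card.1 hX
  have hKcard : ¬ r ^ 2 ∣ Nat.card K := fun h => by
    have hmap : K.map (QuotientGroup.mk' X) = zpowers (y : G ⧸ X) := by
      rw [Subgroup.map_sup, MonoidHom.map_zpowers,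
        (Subgroup.map_eq_bot_iff _).2 (QuotientGroup.ker_mk' X).ge,
        bot_sup_eq]
      rfl
    have hc : Nat.card K ∣ Nat.card X * r := by
      have h2 := card_dvd_of_surjective ((QuotientGroup.mk' X).subgroupMap K)
        ((QuotientGroup.mk' X).subgroupMap_surjective K)
      have h3 : Nat.card K = Nat.card (K.map (QuotientGroup.mk' X)) * Nat.card X := by
        rw [Subgroup.card_eq_card_quotient_mul_card_subgroup
          ((QuotientGroup.mk' X).subgroupMap K).ker,
          Nat.card_congr (QuotientGroup.quotientKerEquivOfSurjective _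
            ((QuotientGroup.mk' X).subgroupMap_surjective K)).toEquiv]
        congr 1
        refine Nat.card_congr ⟨fun u => ⟨u.1.1, ?_⟩, fun u => ⟨⟨u, mem_sup_left u.2⟩, ?_⟩,
          fun u => rfl, fun u => rfl⟩
        · exact (QuotientGroup.eq_one_iff _).1 (congrArg Subtype.val u.2)
        · exact Subtype.ext ((QuotientGroup.eq_one_iff _).2 u.2)
      rw [h3, hmap, Nat.card_zpowers, mul_comm]
      refine mul_dvd_mul_left _ (orderOf_dvd_of_pow_eq_one ?_)
      rw [← QuotientGroup.mk_pow, hy, QuotientGroup.mk_one]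
    rw [hs] at hc
    have hco : (r ^ 2).Coprime (p ^ s) :=
      Nat.Coprime.pow _ _ ((Nat.coprime_primes hr hp.out).2 hrp)
    have := Nat.le_of_dvd hr.pos (hco.dvd_of_dvd_mul_left (h.trans hc))
    nlinarith [hr.two_le]
  have hsyl : ∀ u : K, orderOf u = r → Nat.card (zpowers u) =
      r ^ (Nat.card K).factorization r := fun u hu => by
    rw [Nat.card_zpowers, hu]
    have hd : r ∣ Nat.card K := hu ▸ orderOf_dvd_natCard u
    have h1 := (hr.pow_dvd_iff_le_factorization (Nat.card_pos (α := K)).ne').1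
      (show r ^ 1 ∣ Nat.card K by rwa [pow_one])
    have h2 : ¬ 2 ≤ (Nat.card K).factorization r := fun h =>
      hKcard ((hr.pow_dvd_iff_le_factorization (Nat.card_pos (α := K)).ne').2 h)
    rw [show (Nat.card K).factorization r = 1 by omega, pow_one]
  set u : K := ⟨y, mem_sup_right (mem_zpowers y)⟩
  set u' : K := ⟨y', hy'K⟩
  have hu : orderOf u = r := by rw [← Subgroup.orderOf_coe]; exact hord
  have hu' : orderOf u' = r := by rw [← Subgroup.orderOf_coe]; exact hord'
  obtain ⟨w, hw⟩ := MulAction.exists_smul_eq K (Sylow.ofCard (zpowers u) (hsyl u hu))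
    (Sylow.ofCard (zpowers u') (hsyl u' hu'))
  have hwu : MulAut.conj w u ∈ zpowers u' := by
    have : MulAut.conj w u ∈
        ((w • Sylow.ofCard (zpowers u) (hsyl u hu) : Sylow r K) : Subgroup K) :=
      Subgroup.mem_map_of_mem _ (mem_zpowers u)
    rw [hw] at this
    exact this
  obtain ⟨a, ha, b, hb, hab⟩ := mem_sup_of_normal_left.1 (w.2 : (w : G) ∈ X ⊔ zpowers y)
  obtain ⟨i, rfl⟩ := mem_zpowers_iff.1 hb
  obtain ⟨l, hl⟩ := mem_zpowers_iff.1 hwu
  have hl' : y' ^ l = a * y * a⁻¹ := by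
    have := congrArg Subtype.val hl
    rw [Subgroup.coe_zpow, MulAut.conj_apply, Subgroup.coe_mul, Subgroup.coe_mul,
      Subgroup.coe_inv, ← hab] at this
    rw [show (u' : G) = y' from rfl, show (u : G) = y from rfl] at this
    rw [this]
    group
  have hl1 : y' ^ l = y' := by
    have hmod : ((y : G ⧸ X)) ^ l = y := by
      have := congrArg (QuotientGroup.mk (s := X)) hl'
      rwa [QuotientGroup.mk_zpow, hy', QuotientGroup.mk_mul, QuotientGroup.mk_mul,
        QuotientGroup.mk_inv, (QuotientGroup.eq_one_iff a).2 ha, one_mul, inv_one, mul_one] at this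
    have hoy : orderOf (y : G ⧸ X) = r := orderOf_eq_prime
      (by rw [← QuotientGroup.mk_pow, hy, QuotientGroup.mk_one])
      (fun e => hy1 ((QuotientGroup.eq_one_iff y).1 e))
    rw [← mul_inv_eq_one, ← zpow_sub_one, ← orderOf_dvd_iff_zpow_eq_one, hord', ← hoy,
      orderOf_dvd_iff_zpow_eq_one, zpow_sub_one, mul_inv_eq_one]
    exact hmod
  rw [hl1] at hl'
  refine ⟨a⁻¹ * g, mem_centralizer_singleton_iff.2 ?_, ?_⟩
  · calc a⁻¹ * g * y = a⁻¹ * (g * y * g⁻¹) * g := by group
      _ = a⁻¹ * (a * y * a⁻¹) * g := by rw [← hl']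
      _ = y * (a⁻¹ * g) := by group
  · rw [QuotientGroup.mk_mul, QuotientGroup.mk_inv, (QuotientGroup.eq_one_iff a).2 ha, inv_one,
      one_mul]

/-- **The quotient in the pure case is CN.** -/
theorem isCN_quotient (hG : IsCN G) {p : ℕ} [hp : Fact p.Prime] (h : ¬ Cross p G) {X : Subgroup G}
    [X.Normal] (hX : IsPGroup p X) : IsCN (G ⧸ X) := by
  intro q hq
  obtain ⟨r, n, hr, hn, hnr⟩ := exists_prime_power hq
  refine isNilpotent_of_le (K := centralizer ({q ^ n} : Set (G ⧸ X))) (fun c hc =>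
    mem_centralizer_singleton_iff.2
      (Commute.pow_right (mem_centralizer_singleton_iff.1 hc) n).eq) ?_
  by_cases hrp : r = p
  · subst hrp
    refine IsPGroup.isNilpotent (IsPGroup.iff_orderOf.2 fun c => ?_) (hp := hp)
    refine ⟨_, Nat.eq_prime_pow_of_unique_prime_dvd (orderOf_pos c).ne' fun {d} hd hdc => ?_⟩
    by_contra hdp
    obtain ⟨m, hm, hd1⟩ : ∃ m : ℕ, (c : G ⧸ X) ^ m ≠ 1 ∧ ((c : G ⧸ X) ^ m) ^ d = 1 := by
      obtain ⟨m, hm⟩ := (show d ∣ orderOf (c : G ⧸ X) by rwa [Subgroup.orderOf_coe])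
      refine ⟨m, fun e => ?_, by rw [← pow_mul, mul_comm, ← hm, pow_orderOf_eq_one]⟩
      have hm0 : m ≠ 0 := fun h0 => (orderOf_pos (c : G ⧸ X)).ne' (by rw [hm, h0, mul_zero])
      have := Nat.le_of_dvd (Nat.pos_of_ne_zero hm0) (orderOf_dvd_of_pow_eq_one e)
      rw [hm] at this
      nlinarith [hd.two_le, Nat.pos_of_ne_zero hm0]
    obtain ⟨y, hy, hyd⟩ := exists_lift_prime hX hd hdp hd1
    have hyX : y ∉ X := fun e => hm (hy ▸ (QuotientGroup.eq_one_iff y).2 e)
    obtain ⟨g, hg⟩ := QuotientGroup.mk_surjective (q ^ n)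
    have hcomm : (g : G ⧸ X) * (y : G ⧸ X) = (y : G ⧸ X) * (g : G ⧸ X) := by
      rw [hg, hy]
      exact (Commute.pow_right
        (show Commute (q ^ n) (c : G ⧸ X) from (mem_centralizer_singleton_iff.1 c.2).symm) m).eq
    obtain ⟨g', hg', hgg'⟩ := exists_centralizing_lift hX hd hdp hyd hyX hcomm
    have hd' : r ∣ orderOf g' := by
      have h1 : orderOf (g' : G ⧸ X) = r := orderOf_eq_prime (by rw [hgg', hg, hnr])
        (by rw [hgg', hg]; exact hn)
      exact h1 ▸ orderOf_map_dvd (QuotientGroup.mk' X) g'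
    obtain ⟨k, hk, hkr⟩ := exists_isPow hr hd'
    exact h ⟨d, hd, hdp, g' ^ k, y, hk, fun e => hyX (e ▸ one_mem X), hkr, ⟨1, by rwa [pow_one]⟩,
      mem_centralizer_singleton_iff.1 (pow_mem hg' k)⟩
  · obtain ⟨y, hy, hyr⟩ := exists_lift_prime hX hr hrp hnr
    have hyX : y ∉ X := fun e => hn (hy ▸ (QuotientGroup.eq_one_iff y).2 e)
    haveI := hG y fun e => hyX (e ▸ one_mem X)
    refine isNilpotent_of_le (K := (centralizer ({y} : Set G)).map (QuotientGroup.mk' X))
      (fun c hc => ?_) (Group.nilpotent_of_surjective ((QuotientGroup.mk' X).subgroupMap _)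
        ((QuotientGroup.mk' X).subgroupMap_surjective _))
    obtain ⟨g, rfl⟩ := QuotientGroup.mk_surjective c
    obtain ⟨g', hg', hgg'⟩ := exists_centralizing_lift hX hr hrp hyr hyX
      (hy.symm ▸ mem_centralizer_singleton_iff.1 hc)
    exact ⟨g', hg', hgg'⟩

/-- A nontrivial solvable normal subgroup gives an abelian normal `p`-subgroup. -/
theorem exists_normal_pGroup (H : Subgroup G) [H.Normal] (hne : H ≠ ⊥)
    (hsol : Group.IsSolvable H) :
    ∃ (p : ℕ) (X : Subgroup G), p.Prime ∧ X.Normal ∧ X ≠ ⊥ ∧ IsPGroup p X := by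
  haveI := hsol
  obtain ⟨n, hn, hmin⟩ : ∃ n, derivedSeries H n = ⊥ ∧ ∀ k < n, derivedSeries H k ≠ ⊥ := by
    classical
    exact ⟨_, Nat.find_spec hsol.solvable, fun _ hk => Nat.find_min hsol.solvable hk⟩
  rcases n with _ | n
  · exfalso
    rw [derivedSeries_zero] at hn
    refine hne ((eq_bot_iff_forall H).2 fun h hh => ?_)
    have : (⟨h, hh⟩ : H) ∈ (⊥ : Subgroup H) := hn ▸ mem_top _
    exact congrArg Subtype.val (mem_bot.1 this)
  set A := (derivedSeries H n).map H.subtype
  have hA : A.Normal := inferInstance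
  have hA1 : A ≠ ⊥ := fun h => hmin n (Nat.lt_succ_self n)
    ((map_eq_bot_iff_of_injective _ H.subtype_injective).1 h)
  have hab : ∀ a ∈ A, ∀ b ∈ A, Commute a b := by
    rintro _ ⟨a, ha, rfl⟩ _ ⟨b, hb, rfl⟩
    rw [derivedSeries_succ, commutator_eq_bot_iff_le_centralizer] at hn
    exact congrArg Subtype.val (mem_centralizer_iff.1 (hn hb) a ha)
  obtain ⟨p, hp, hpd⟩ := Nat.exists_prime_and_dvd (show Nat.card A ≠ 1 from
    fun h => hA1 (Subgroup.eq_bot_of_card_eq A h))
  haveI : Fact p.Prime := ⟨hp⟩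
  let X : Subgroup G :=
    { carrier := {x | x ∈ A ∧ x ^ p = 1}
      one_mem' := ⟨one_mem A, one_pow p⟩
      mul_mem' := fun {a b} ha hb => ⟨mul_mem ha.1 hb.1, by
        rw [(hab a ha.1 b hb.1).mul_pow, ha.2, hb.2, one_mul]⟩
      inv_mem' := fun {a} ha => ⟨inv_mem ha.1, by rw [inv_pow, ha.2, inv_one]⟩ }
  refine ⟨p, X, hp, ⟨fun x hx g => ⟨hA.conj_mem x hx.1 g, by rw [conj_pow, hx.2]; group⟩⟩,
    fun h => ?_, fun x => ⟨1, Subtype.ext (by simpa using x.2.2)⟩⟩
  obtain ⟨a, ha⟩ := exists_prime_orderOf_dvd_card' p hpd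
  have haX : (a : G) ∈ X := ⟨a.2, by rw [← Subgroup.coe_pow, ← ha, pow_orderOf_eq_one]; rfl⟩
  rw [h, mem_bot] at haX
  rw [show a = 1 from Subtype.ext haX, orderOf_one] at ha
  exact hp.ne_one ha.symm

/-- **The reduction**: a nontrivial solvable normal subgroup makes a CN-group of odd order
solvable, if the smaller ones are. -/
theorem isSolvable_of_normal {G : Type u} [Group G] [Finite G] (hG : IsCN G)
    (hodd : Odd (Nat.card G))
    (IH : ∀ (K : Type u) [Group K] [Finite K], Nat.card K < Nat.card G → Odd (Nat.card K) →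
      IsCN K → Group.IsSolvable K)
    (H : Subgroup G) [H.Normal] (hne : H ≠ ⊥) (hsol : Group.IsSolvable H) :
    Group.IsSolvable G := by
  obtain ⟨p, X, hp, hX, hX1, hXp⟩ := exists_normal_pGroup H hne hsol
  haveI := hX
  haveI : Fact p.Prime := ⟨hp⟩
  by_cases hc : Cross p G
  · obtain ⟨P⟩ : Nonempty (Sylow p G) := inferInstance
    obtain ⟨M, hPM, hM⟩ := exists_mixed_of_cross hG hc P
    obtain ⟨x, hx⟩ := Subgroup.ne_bot_iff_exists_ne_one.1 hX1
    have hx1 : (x : G) ≠ 1 := fun e => hx (Subtype.ext e)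
    haveI : M.Normal := normalizer_eq_top_iff.1 (eq_top_iff.2 fun g _ => by
      set M' := M.map (MulAut.conj g).toMonoidHom with hM'def
      have hiso := (Subgroup.equivMapOfInjective M (MulAut.conj g).toMonoidHom
        (MulAut.conj g).injective)
      haveI := hM.nilp
      have hM' : Mixed M' := by
        refine ⟨Group.nilpotent_of_mulEquiv hiso, fun N hN hle => ?_, ?_⟩
        · have h1 : N.map (MulAut.conj g⁻¹).toMonoidHom = M := by
            refine hM.maximal _ (haveI := hN; Group.nilpotent_of_mulEquiv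
              (Subgroup.equivMapOfInjective N _ (MulAut.conj g⁻¹).injective)) fun m hm => ?_
            exact ⟨g * m * g⁻¹, hle ⟨m, hm, rfl⟩, by simp [mul_assoc]⟩
          refine le_antisymm (fun n hn => ?_) hle
          refine ⟨g⁻¹ * n * g, h1 ▸ ⟨n, hn, by simp⟩, by simp [mul_assoc]⟩
        · obtain ⟨a, b, ha, hb, hab, had, hbd⟩ := hM.two
          exact ⟨a, b, ha, hb, hab, by rwa [← Nat.card_congr hiso.toEquiv],
            by rwa [← Nat.card_congr hiso.toEquiv]⟩
      have hXM : X ≤ M := (hXp.le_sylow_of_normal P).trans hPM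
      have he : M' = M := hM'.eq_of_mem hG hM hx1
        ⟨g⁻¹ * x * g, hXM (by simpa using hX.conj_mem _ x.2 g⁻¹), by simp [mul_assoc]⟩ (hXM x.2)
      refine mem_normalizer_iff.2 fun m => ⟨fun hm => he ▸ ⟨m, hm, rfl⟩, fun hm => ?_⟩
      rw [← he] at hm
      obtain ⟨m', hm', hmm⟩ := hm
      rwa [← (MulAut.conj g).injective (hmm : MulAut.conj g m' = MulAut.conj g m)])
    exact hM.solvable_of_normal hG hodd
  · have hlt : Nat.card (G ⧸ X) < Nat.card G := by
      rw [← Subgroup.index_eq_card, ← X.index_mul_card]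
      exact lt_mul_of_one_lt_right (Nat.pos_of_ne_zero Subgroup.index_ne_zero_of_finite)
        ((Subgroup.one_lt_card_iff_ne_bot X).2 hX1)
    haveI := IH (G ⧸ X) hlt (hodd.of_dvd_nat X.card_quotient_dvd_card) (isCN_quotient hG hc hXp)
    haveI := hXp.isNilpotent
    exact (Group.isSolvable_iff_subgroup_quotient X).2 ⟨inferInstance, inferInstance⟩

/-- **Minimal counterexamples are simple.** -/
theorem minimal_isSimple {G : Type u} [Group G] [Finite G] (hG : IsCN G)
    (hodd : Odd (Nat.card G)) (hns : ¬ Group.IsSolvable G)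
    (IH : ∀ (K : Type u) [Group K] [Finite K], Nat.card K < Nat.card G → Odd (Nat.card K) →
      IsCN K → Group.IsSolvable K) :
    IsSimpleGroup G ∧ ∀ H : Subgroup G, H ≠ ⊤ → Group.IsSolvable H := by
  have hproper : ∀ H : Subgroup G, H ≠ ⊤ → Group.IsSolvable H := fun H hH =>
    IH H (lt_of_le_of_ne H.card_le_card_group fun h => hH (eq_top_of_card_eq _ h))
      (hodd.of_dvd_nat H.card_subgroup_dvd_card) (hG.subgroup H)
  haveI : Nontrivial G := by
    by_contra h
    rw [not_nontrivial_iff_subsingleton] at h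
    exact hns inferInstance
  refine ⟨⟨fun H hH => ?_⟩, hproper⟩
  by_contra! h
  haveI := hH
  exact hns (isSolvable_of_normal hG hodd IH H h.1 (hproper H h.2))

/-- **The theorem for all groups follows from the simple case.** -/
theorem isSolvable_of_simple_case
    (hsimple : ∀ (K : Type u) [Group K] [Finite K], IsSimpleGroup K → Odd (Nat.card K) → IsCN K →
      (∀ H : Subgroup K, H ≠ ⊤ → Group.IsSolvable H) → Group.IsSolvable K)
    (G : Type u) [Group G] [Finite G] (hodd : Odd (Nat.card G)) (hG : IsCN G) :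
    Group.IsSolvable G := by
  suffices ∀ (n : ℕ) (K : Type u) [Group K] [Finite K], Nat.card K = n → Odd (Nat.card K) →
      IsCN K → Group.IsSolvable K from this _ G rfl hodd hG
  intro n
  induction n using Nat.strong_induction_on with
  | _ n ih =>
    intro K _ _ hn hodd hK
    by_contra hns
    obtain ⟨hs, hp⟩ := minimal_isSimple hK hodd hns fun L _ _ hlt => ih _ (hn ▸ hlt) L rfl
    exact hns (hsimple K hs hodd hK hp)

end FA.CNGroups
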