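import Fermat.Agent.CNGroups.Transfer

/-!
# The structure of a simple CN-group of odd order with solvable proper subgroups

The maximal nilpotent subgroups are TI Hall subgroups, every nontrivial element lies in exactly one
of them and its centraliser lies there too; none is its own normaliser.
-/

set_option autoImplicit false
set_option linter.style.haveILetI false

noncomputable section

namespace FA.CNGroups

open Subgroup

variable {G : Type*} [Group G]

/-- A maximal nilpotent subgroup. -/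
structure MaxNil (M : Subgroup G) : Prop where
  nilp : Group.IsNilpotent M
  maximal : ∀ N : Subgroup G, Group.IsNilpotent N → M ≤ N → N = M

theorem MaxNil.conj {M : Subgroup G} (hM : MaxNil M) (g : G) :
    MaxNil (M.map (MulAut.conj g).toMonoidHom) := by
  haveI := hM.nilp
  refine ⟨Group.nilpotent_of_mulEquiv
    (M.equivMapOfInjective (MulAut.conj g).toMonoidHom (MulAut.conj g).injective),
    fun N hN hle => ?_⟩
  haveI := hN
  have h1 : N.map (MulAut.conj g⁻¹).toMonoidHom = M := hM.maximal _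
    (Group.nilpotent_of_mulEquiv (N.equivMapOfInjective _ (MulAut.conj g⁻¹).injective))
    fun m hm => ⟨g * m * g⁻¹, hle ⟨m, hm, rfl⟩, by simp [mul_assoc]⟩
  refine le_antisymm (fun n hn => ?_) hle
  exact ⟨g⁻¹ * n * g, h1 ▸ ⟨n, hn, by simp⟩, by simp [mul_assoc]⟩

theorem isNilpotent_zpowers (x : G) : Group.IsNilpotent (zpowers x) :=
  letI := IsCyclic.commGroup (α := zpowers x)
  CommGroup.isNilpotent

variable [Finite G]

theorem exists_maxNil (x : G) : ∃ M : Subgroup G, x ∈ M ∧ MaxNil M := by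
  haveI := isNilpotent_zpowers x
  obtain ⟨M, hle, hM⟩ := (Set.toFinite {N : Subgroup G | Group.IsNilpotent N}).exists_le_maximal
    (show zpowers x ∈ {N : Subgroup G | Group.IsNilpotent N} from inferInstanceAs
      (Group.IsNilpotent (zpowers x)))
  exact ⟨M, hle (mem_zpowers x), hM.prop, fun N hN hle => (hM.eq_of_le hN hle).symm⟩

variable [IsSimpleGroup G] (hodd : Odd (Nat.card G)) (hG : IsCN G)
  (hns : ¬ Group.IsSolvable G) (hprop : ∀ H : Subgroup G, H ≠ ⊤ → Group.IsSolvable H)

include hodd hG hns hprop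

/-- **The Sylow subgroups are TI.** -/
theorem sylow_inf_eq_bot {p : ℕ} [hp : Fact p.Prime] {P Q : Sylow p G} (hne : P ≠ Q) :
    (P : Subgroup G) ⊓ Q = ⊥ := by
  by_cases hd : p ∣ Nat.card G
  swap
  · exact le_bot_iff.1 (fun x hx => mem_bot.2 ((FA.Thompson.reg_of_mem_of_not_dvd_card
      (M := (⊤ : Subgroup G)) (by rwa [card_top]) (mem_top x)).eq_one_of_isPGroup P.isPGroup' hx.1))
  have hp2 : p ≠ 2 := fun e => by
    subst e
    exact Nat.not_even_iff_odd.2 hodd (even_iff_two_dvd.2 hd)
  by_cases hc : Cross p G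
  · exact (eq_bot_iff_forall _).2 fun w hw => by_contra fun hw1 =>
      hne (sylow_eq_of_cross hG hc hw1 hw.1 hw.2)
  · exact inf_eq_bot_of_pure hns hprop (pure_of_not_cross hc) hp2 hne

omit [Finite G] hodd hG hns hprop in
/-- A maximal nilpotent subgroup is nontrivial. -/
theorem MaxNil.ne_bot {M : Subgroup G} (hM : MaxNil M) : M ≠ ⊥ := fun h => by
  obtain ⟨x, hx⟩ := exists_ne (1 : G)
  have h1 := hM.maximal (zpowers x) (isNilpotent_zpowers x) (h ▸ bot_le)
  exact hx (zpowers_eq_bot.1 (h1.trans h))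

omit hodd hns hprop in
/-- **Mixed subgroups and Sylow subgroups of pure primes.** -/
theorem MaxNil.cases {M : Subgroup G} (hM : MaxNil M) :
    Mixed M ∨ ∃ (p : ℕ) (_ : Fact p.Prime) (P : Sylow p G), M = P ∧ ¬ Cross p G := by
  by_cases h2 : ∃ p q : ℕ, p.Prime ∧ q.Prime ∧ p ≠ q ∧ p ∣ Nat.card M ∧ q ∣ Nat.card M
  · exact Or.inl ⟨hM.nilp, hM.maximal, h2⟩
  push Not at h2
  obtain ⟨p, hp, hpd⟩ := Nat.exists_prime_and_dvd (show Nat.card M ≠ 1 from fun h =>
    hM.ne_bot (eq_bot_of_card_eq M h))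
  haveI : Fact p.Prime := ⟨hp⟩
  have hMp : IsPGroup p M := IsPGroup.of_card (n := _) (Nat.eq_prime_pow_of_unique_prime_dvd
    Nat.card_pos.ne' fun {d} hd hdd => by_contra fun hne =>
      h2 p d hp hd (Ne.symm hne) hpd hdd)
  obtain ⟨P, hP⟩ := hMp.exists_le_sylow
  have hMP : (P : Subgroup G) = M := hM.maximal _ P.isPGroup'.isNilpotent hP
  by_cases hc : Cross p G
  · obtain ⟨M', hPM', hM'⟩ := exists_mixed_of_cross hG hc P
    exact Or.inl (hM.maximal M' hM'.nilp (hP.trans hPM') ▸ hM')
  · exact Or.inr ⟨p, inferInstance, P, hMP.symm, hc⟩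

/-- **Centralisers stay inside.** -/
theorem MaxNil.centralizer_le {M : Subgroup G} (hM : MaxNil M) {y : G} (hy : y ∈ M)
    (hy1 : y ≠ 1) : centralizer ({y} : Set G) ≤ M := by
  rcases hM.cases hG with hmix | ⟨p, hp, P, rfl, hc⟩
  · exact hmix.centralizer_le hG hy hy1
  obtain ⟨R, hR⟩ := (isPGroup_centralizer hc hy1 (isPow_of_mem P.isPGroup' hy)).exists_le_sylow
  rcases eq_or_ne R P with rfl | hne
  · exact hR
  · have h1 : y ∈ (R : Subgroup G) ⊓ P := ⟨hR (mem_centralizer_singleton_iff.2 rfl), hy⟩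
    rw [sylow_inf_eq_bot hodd hG hns hprop hne, mem_bot] at h1
    exact absurd h1 hy1

/-- **Trivial intersection.** -/
theorem MaxNil.eq_of_mem {M N : Subgroup G} (hM : MaxNil M) (hN : MaxNil N) {y : G} (hy1 : y ≠ 1)
    (hyM : y ∈ M) (hyN : y ∈ N) : M = N := by
  obtain ⟨r, hr, hrd⟩ := Nat.exists_prime_and_dvd (show Nat.card M ≠ 1 from fun h =>
    hM.ne_bot (eq_bot_of_card_eq M h))
  obtain ⟨x, hxM, hx1, -, hxc⟩ := exists_central hM.nilp hr hrd
  have hxN : x ∈ N := hN.centralizer_le hodd hG hns hprop hyN hy1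
    (mem_centralizer_singleton_iff.2 (hxc y hyM).symm)
  have hle : M ≤ N := fun g hg => hN.centralizer_le hodd hG hns hprop hxN hx1
    (mem_centralizer_singleton_iff.2 (hxc g hg))
  exact (hM.maximal N hN.nilp hle).symm

omit hodd hns hprop in
/-- **Hall subgroups.** -/
theorem MaxNil.coprime_index {M : Subgroup G} (hM : MaxNil M) :
    (Nat.card M).Coprime M.index := by
  rcases hM.cases hG with hmix | ⟨p, hp, P, rfl, -⟩
  · exact hmix.coprime_index hG
  · obtain ⟨k, hk⟩ := IsPGroup.iff_card.1 P.isPGroup'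
    rw [hk]
    exact Nat.Coprime.pow_left _ (hp.out.coprime_iff_not_dvd.2 P.not_dvd_index)

/-- **No maximal nilpotent subgroup is its own normaliser.** -/
theorem MaxNil.lt_normalizer {M : Subgroup G} (hM : MaxNil M) :
    M < normalizer (M : Set G) := by
  refine lt_of_le_of_ne le_normalizer fun he => hns ?_
  have htop : M ≠ ⊤ := fun h => by
    haveI := hM.nilp
    subst h
    exact hns (Group.isSolvable_of_surjective (f := (Subgroup.topEquiv (G := G)).toMonoidHom)
      (Subgroup.topEquiv (G := G)).surjective)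
  refine FA.FrobeniusComplements.Summary.frobenius_group_odd_solvable hodd M
    (hM.ne_bot) htop fun g hg x hx hgx => by_contra fun hx1 => hg ?_
  have h1 : M.map (MulAut.conj g).toMonoidHom = M :=
    (hM.conj g).eq_of_mem hodd hG hns hprop hM
      (fun e => hx1 ((MulAut.conj g).injective (e.trans (map_one _).symm)))
      ⟨x, hx, rfl⟩ hgx
  rw [he]
  exact mem_normalizer_iff_map_conj_eq.2 h1

end FA.CNGroups
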