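import Fermat.Agent.CNGroups.Pure
import Fermat.Agent.ThompsonTransfer.Local
import Mathlib.GroupTheory.Focal

/-!
# Sylow subgroups for a pure prime in a simple group are TI

Let `K` be a simple group with solvable proper subgroups, `p` odd and pure.  The normaliser of each
nontrivial `p`-subgroup lies in `H = N(J R)` for a Sylow subgroup `R`, so `P` meets every other
Sylow subgroup inside the core `U` of `H = N(J P)`.  If one of these intersections were nontrivial
the focal subgroup of `P` would lie in `U < P`, against simplicity.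
-/

set_option autoImplicit false
set_option linter.style.haveILetI false

noncomputable section

namespace FA.CNGroups

open Subgroup
open FA.Thompson (J mem_conj_smul)
open scoped commutatorElement

variable {p : ℕ} [hp : Fact p.Prime] {K : Type*} [Group K] [Finite K]

/-- A `p`-subgroup of `H` lies in an `H`-conjugate of a Sylow subgroup inside `H`. -/
theorem exists_le_conj {P : Sylow p K} {H : Subgroup K} (hPH : (P : Subgroup K) ≤ H)
    {T : Subgroup K} (hT : IsPGroup p T) (hTH : T ≤ H) :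
    ∃ h ∈ H, T ≤ ((h • P : Sylow p K) : Subgroup K) := by
  obtain ⟨V, hV⟩ := (hT.comap_subtype (K := H)).exists_le_sylow
  obtain ⟨m, rfl⟩ := MulAction.exists_smul_eq H (P.subtype hPH) V
  refine ⟨m, m.2, fun t ht => mem_conj_smul.2 ?_⟩
  have h1 : (⟨t, hTH ht⟩ : H) ∈ (m • P.subtype hPH : Sylow p H) := hV ht
  rw [mem_conj_smul] at h1
  exact h1

omit hp [Finite K] in
theorem smul_le_of_mem {P : Sylow p K} {H : Subgroup K} (hPH : (P : Subgroup K) ≤ H) {h : K}
    (hh : h ∈ H) : ((h • P : Sylow p K) : Subgroup K) ≤ H := fun x hx => by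
  have h1 := mul_mem (mul_mem hh (hPH (mem_conj_smul.1 hx))) (inv_mem hh)
  simpa [mul_assoc] using h1

omit hp [Finite K] in
theorem J_smul (h : K) (P : Sylow p K) :
    J ((h • P : Sylow p K) : Subgroup K) =
      (J (P : Subgroup K)).map (MulAut.conj h).toMonoidHom := by
  rw [← FA.Thompson.J_map (MulAut.conj h).injective.injOn]
  rfl

variable [IsSimpleGroup K] (hns : ¬ Group.IsSolvable K)
  (hprop : ∀ H : Subgroup K, H ≠ ⊤ → Group.IsSolvable H) (hpure : Pure p K) (hp2 : p ≠ 2)

include hns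

/-- The normaliser of a nontrivial `p`-subgroup is proper. -/
theorem normalizer_ne_top {X : Subgroup K} (hX : IsPGroup p X) (hne : X ≠ ⊥) :
    normalizer (X : Set K) ≠ ⊤ := fun h => by
  haveI := normalizer_eq_top_iff.1 h
  rcases Subgroup.Normal.eq_bot_or_eq_top (H := X) inferInstance with hb | ht
  · exact hne hb
  · haveI : Group.IsNilpotent X := hX.isNilpotent
    subst ht
    exact hns (Group.isSolvable_of_surjective (f := (Subgroup.topEquiv (G := K)).toMonoidHom)
      (Subgroup.topEquiv (G := K)).surjective)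

include hprop hpure hp2

omit hp2 in
/-- The hypotheses of the structure theorems hold in a local subgroup. -/
theorem local_hyp {H X : Subgroup K} (hX : IsPGroup p X) (hne : X ≠ ⊥) (hXH : X ≤ H)
    (hH : H ≤ normalizer (X : Set K)) :
    Group.IsSolvable H ∧ Pure p H ∧ pcore p H ≠ ⊥ := by
  refine ⟨hprop H fun h => normalizer_ne_top hns hX hne (top_le_iff.1 (h.ge.trans hH)),
    hpure.subgroup H, fun h => hne ?_⟩
  haveI : (X.subgroupOf H).Normal := (normal_subgroupOf_iff_le_normalizer hXH).2 hH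
  have h1 : X.subgroupOf H = ⊥ :=
    le_bot_iff.1
    ((le_pcore (X := X.subgroupOf H) (hX.comap_subtype (K := H))).trans h.le)
  rw [subgroupOf_eq_bot] at h1
  exact h1.eq_bot_of_le hXH

/-- **Local subgroups lie in normalisers of Thompson subgroups.** -/
theorem exists_le_normalizer_J {X : Subgroup K} (hX : IsPGroup p X) (hne : X ≠ ⊥) :
    ∃ R : Sylow p K, normalizer (X : Set K) ≤ normalizer (J (R : Subgroup K) : Set K) := by
  suffices ∀ (n : ℕ) (X : Subgroup K), IsPGroup p X → X ≠ ⊥ →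
      ∀ S : Sylow p (normalizer (X : Set K)),
      Nat.card K - Nat.card ((S : Subgroup (normalizer (X : Set K))).map
        (normalizer (X : Set K)).subtype) = n →
      ∃ R : Sylow p K, normalizer (X : Set K) ≤ normalizer (J (R : Subgroup K) : Set K) by
    obtain ⟨S⟩ : Nonempty (Sylow p (normalizer (X : Set K))) := inferInstance
    exact this _ X hX hne S rfl
  clear hX hne X
  intro n
  induction n using Nat.strong_induction_on with
  | _ n ih =>
    intro X hX hne S hn
    obtain ⟨hsol, hpN, hU⟩ := local_hyp hns hprop hpure hX hne le_normalizer le_rfl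
    haveI := hsol
    set S' := (S : Subgroup (normalizer (X : Set K))).map (normalizer (X : Set K)).subtype with hS'
    have hS'p : IsPGroup p S' := S.isPGroup'.map _
    have hle : (normalizer (X : Set K)) ≤ normalizer (J S' : Set K) := by
      rw [hS', FA.Thompson.J_map (normalizer (X : Set K)).subtype_injective.injOn]
      refine le_trans (le_of_eq ?_) (le_normalizer_map (normalizer (X : Set K)).subtype)
      rw [normalizer_J_eq_top hpN hU hp2 S, ← MonoidHom.range_eq_map, range_subtype]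
    obtain ⟨R, hR⟩ := hS'p.exists_le_sylow
    rcases eq_or_lt_of_le hR with he | hlt
    · exact ⟨R, he ▸ hle⟩
    have hS'ne : S' ≠ ⊥ := fun h => hU (le_bot_iff.1 ((pcore_le S).trans
      ((map_eq_bot_iff_of_injective _ (normalizer (X : Set K)).subtype_injective).1 h).le))
    obtain ⟨x, hxR, hxS, hxN⟩ := FA.Thompson.exists_normalizing R.isPGroup' hlt
    set T := (R : Subgroup K) ⊓ normalizer (S' : Set K)
    have hTN : T ≤ normalizer (J S' : Set K) :=
      inf_le_right.trans (FA.Thompson.normalizer_le_normalizer_J S')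
    obtain ⟨S₁, hS₁⟩ := ((R.isPGroup'.to_le inf_le_left : IsPGroup p T).comap_subtype
      (K := normalizer (J S' : Set K))).exists_le_sylow
    have hT : T ≤ (S₁ : Subgroup (normalizer (J S' : Set K))).map
        (normalizer (J S' : Set K)).subtype := fun t ht =>
      ⟨⟨t, hTN ht⟩, hS₁ ht, rfl⟩
    have h1 : Nat.card S' < Nat.card T := Set.ncard_lt_ncard
      (Set.ssubset_iff_exists.2 ⟨le_inf hR le_normalizer, x, ⟨hxR, hxN⟩, hxS⟩) (Set.toFinite _)
    have h2 := Nat.le_of_dvd Nat.card_pos (card_dvd_of_le hT)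
    have h3 : Nat.card T ≤ Nat.card K := card_le_card_group _
    obtain ⟨R', hR'⟩ := ih _ (by omega) (J S')
      (hS'p.to_le (FA.Thompson.J_le S')) (FA.Thompson.J_ne_bot hS'ne) S₁ rfl
    exact ⟨R', hle.trans hR'⟩

/-- **All intersections with `P` lie in one normal subgroup of `N(J P)`.** -/
theorem inf_le_map_pcore {P Q : Sylow p K} (hne : Q ≠ P)
    (hD : (P : Subgroup K) ⊓ Q ≠ ⊥) :
    (P : Subgroup K) ⊓ Q ≤ (pcore p (normalizer (J (P : Subgroup K) : Set K))).map
      (normalizer (J (P : Subgroup K) : Set K)).subtype ∧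
    ∃ h ∈ normalizer (J (P : Subgroup K) : Set K), h • P ≠ P := by
  obtain ⟨Q', ⟨hQ', hQQ'⟩, hmax⟩ := Set.exists_max_image
    {Q' : Sylow p K | Q' ≠ P ∧ (P : Subgroup K) ⊓ Q ≤ (P : Subgroup K) ⊓ Q'}
    (fun Q' => Nat.card ((P : Subgroup K) ⊓ Q' : Subgroup K)) (Set.toFinite _) ⟨Q, hne, le_rfl⟩
  set D := (P : Subgroup K) ⊓ Q'
  have hD0 : D ≠ ⊥ := fun h => hD (le_bot_iff.1 (hQQ'.trans h.le))
  have hDp : IsPGroup p D := P.isPGroup'.to_le inf_le_left
  have huniq : ∀ R : Sylow p K, D < (P : Subgroup K) ⊓ R → R = P := fun R hR => by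
    by_contra hRP
    exact (hmax R ⟨hRP, hQQ'.trans hR.le⟩).not_gt (Set.ncard_lt_ncard hR (Set.toFinite _))
  have hDP : D < P := lt_of_le_of_ne inf_le_left fun he =>
    hQ' (Sylow.ext (P.3 Q'.2 (he ▸ inf_le_right)))
  have hDQ : D < Q' := lt_of_le_of_ne inf_le_right fun he =>
    hQ' (Sylow.ext (Q'.3 P.2 (he ▸ inf_le_left)).symm)
  obtain ⟨x, hxP, hxD, hxN⟩ := FA.Thompson.exists_normalizing P.isPGroup' hDP
  obtain ⟨y, hyQ, hyD, hyN⟩ := FA.Thompson.exists_normalizing Q'.isPGroup' hDQ
  obtain ⟨R, hR⟩ := exists_le_normalizer_J hns hprop hpure hp2 hDp hD0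
  have hRH : (R : Subgroup K) ≤ normalizer (J (R : Subgroup K) : Set K) :=
    le_normalizer.trans (FA.Thompson.normalizer_le_normalizer_J _)
  obtain ⟨h, hh, hT⟩ := exists_le_conj hRH
    (P.isPGroup'.to_le inf_le_left : IsPGroup p ((P : Subgroup K) ⊓ normalizer (D : Set K) :
      Subgroup K)) (inf_le_right.trans hR)
  have hP : h • R = P := huniq _ (lt_of_le_of_ne
    (fun d hd => ⟨hd.1, hT ⟨hd.1, le_normalizer hd⟩⟩) fun he =>
      hxD (he.ge ⟨hxP, hT ⟨hxP, hxN⟩⟩))
  have hJ : J (R : Subgroup K) = J (P : Subgroup K) := by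
    rw [← hP, J_smul]
    exact (mem_normalizer_iff_map_conj_eq.1 hh).symm
  rw [hJ] at hR
  set H := normalizer (J (P : Subgroup K) : Set K) with hH
  have hPH : (P : Subgroup K) ≤ H :=
    le_normalizer.trans (FA.Thompson.normalizer_le_normalizer_J _)
  obtain ⟨h', hh', hT'⟩ := exists_le_conj hPH
    (Q'.isPGroup'.to_le inf_le_left : IsPGroup p ((Q' : Subgroup K) ⊓ normalizer (D : Set K) :
      Subgroup K)) (inf_le_right.trans hR)
  have hne' : h' • P ≠ P := fun he => hyD ⟨he ▸ hT' ⟨hyQ, hyN⟩, hyQ⟩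
  refine ⟨hQQ'.trans fun d hd => ?_, h', hh', hne'⟩
  have hPne : (P : Subgroup K) ≠ ⊥ := (bot_le.trans_lt hDP).ne'
  obtain ⟨hsol, hpH, hU⟩ := local_hyp hns hprop hpure (H := H)
    (P.isPGroup'.to_le (FA.Thompson.J_le _)) (FA.Thompson.J_ne_bot hPne) le_normalizer le_rfl
  haveI := hsol
  refine ⟨⟨d, hPH hd.1⟩, inf_le_pcore hpH hU (S := P.subtype hPH)
    (T := (h' • P).subtype (smul_le_of_mem hPH hh')) (fun he => hne' ?_) ⟨hd.1, ?_⟩, rfl⟩
  · exact (Sylow.subtype_injective he).symm
  · exact hT' ⟨hd.2, le_normalizer hd⟩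

/-- **The Sylow subgroups are TI.** -/
theorem inf_eq_bot_of_pure {P Q : Sylow p K} (hne : P ≠ Q) :
    (P : Subgroup K) ⊓ Q = ⊥ := by
  by_contra hD
  set H := normalizer (J (P : Subgroup K) : Set K)
  set U := (pcore p H).map H.subtype with hUdef
  have hPH : (P : Subgroup K) ≤ H :=
    le_normalizer.trans (FA.Thompson.normalizer_le_normalizer_J _)
  have hPne : (P : Subgroup K) ≠ ⊥ := fun h => hD (le_bot_iff.1 (inf_le_left.trans h.le))
  obtain ⟨hsol, hpH, hU⟩ := local_hyp hns hprop hpure (H := H)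
    (P.isPGroup'.to_le (FA.Thompson.J_le _)) (FA.Thompson.J_ne_bot hPne) le_normalizer le_rfl
  haveI := hsol
  obtain ⟨-, h, hh, hhP⟩ := inf_le_map_pcore hns hprop hpure hp2 hne.symm hD
  have hmeet : ∀ u : K, u • P ≠ P → ∀ z ∈ (P : Subgroup K), z ∈ u • P → z ∈ U := by
    intro u hu z hz hzu
    by_cases hb : (P : Subgroup K) ⊓ (u • P : Sylow p K) = ⊥
    · have h1 : z ∈ (P : Subgroup K) ⊓ (u • P : Sylow p K) := ⟨hz, hzu⟩
      rw [hb, mem_bot] at h1
      exact h1 ▸ one_mem U
    · exact (inf_le_map_pcore hns hprop hpure hp2 hu hb).1 ⟨hz, hzu⟩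
  have hUP : U ≤ P := by
    rintro _ ⟨z, hz, rfl⟩
    exact pcore_le (P.subtype hPH) hz
  have hHU : H ≤ normalizer (U : Set K) := by
    refine le_trans (le_of_eq ?_) (le_normalizer_map H.subtype)
    rw [normalizer_eq_top (H := pcore p H), ← MonoidHom.range_eq_map, range_subtype]
  have hUlt : U < P := lt_of_le_of_ne hUP fun he => hhP
    (Sylow.smul_eq_iff_mem_normalizer.2 (by
      have h1 := hHU hh
      rwa [he] at h1))
  have hfoc : (P : Subgroup K).focalSubgroup ≤ U := by
    rw [focalSubgroup_def, closure_le]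
    rintro _ ⟨hzP, z, hz, u, rfl⟩
    by_cases hu : u ∈ H
    · exact ⟨⁅(⟨z, hPH hz⟩ : H), ⟨u, hu⟩⁆, commutator_mem_pcore hpH hU
        ((isPow_of_mem P.isPGroup' hzP).imp fun k hk => Subtype.ext hk), rfl⟩
    have hy : u * z⁻¹ * u⁻¹ ∈ (P : Subgroup K) := by
      have := mul_mem (inv_mem hz) hzP
      simpa [commutatorElement_def, mul_assoc] using this
    have hu' : u • P ≠ P := fun he => hu (FA.Thompson.normalizer_le_normalizer_J _
      (Sylow.smul_eq_iff_mem_normalizer.1 he))
    have hu'' : u⁻¹ • P ≠ P := fun he => hu' (by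
      conv_lhs => rw [← he]
      rw [smul_inv_smul])
    have h1 : z ∈ U := by
      have hx : z⁻¹ ∈ U := hmeet u⁻¹ hu'' _ (inv_mem hz) (mem_conj_smul.2 (by rwa [inv_inv]))
      simpa using inv_mem hx
    have h2 : u * z⁻¹ * u⁻¹ ∈ U := hmeet u hu' _ hy (mem_conj_smul.2 (by
      rw [show u⁻¹ * (u * z⁻¹ * u⁻¹) * u = z⁻¹ by group]
      exact inv_mem hz))
    rw [SetLike.mem_coe, show ⁅z, u⁆ = z * (u * z⁻¹ * u⁻¹) by rw [commutatorElement_def]; group]
    exact mul_mem h1 h2
  haveI : Group.IsNilpotent (P : Subgroup K) := P.isPGroup'.isNilpotent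
  set M := (P : Subgroup K).transferFocal.ker with hM
  rcases Subgroup.Normal.eq_bot_or_eq_top (H := M) inferInstance with hb | ht
  · exact hns (Group.isSolvable_of_isSolvable_injective (f := (P : Subgroup K).transferFocal)
      ((MonoidHom.ker_eq_bot_iff _).1 hb))
  · have h1 : M ⊓ (P : Subgroup K) = _ := ker_transferFocal_inf_eq_focalSubgroup P
    rw [ht, top_inf_eq] at h1
    exact (hfoc.trans_lt hUlt).ne h1.symm

end FA.CNGroups
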